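/-
S56 / block (IV.0) (helper23): KILLING THE DUAL SELMER GROUP — the induction WITH PADDING
(blueprint row 50, D2), in abstract form; Mathlib only.

`X` is a finite-dimensional vector space over any field (the dual Selmer group over `𝔽_p`),
`K i ≤ X` ARBITRARY subspaces indexed by `i : ι` (`K q` = the classes dying at the prime `q`; no
codimension hypothesis).  If every non-zero `x` survives at some good `i` outside any given finite
set, then there are EXACTLY `r = dim X` good indices, distinct and outside a given finite set, with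
`⋂ K (q j) = 0`: each step kills at least one dimension, and one pads with arbitrary further good
indices up to `r`.

* `exists_family_inf_eq_bot_pad` : the statement;
* `exists_family_injective_pad` : the same for kernels of linear maps `lam i : X → Y i`.
-/
import Mathlib

set_option autoImplicit false

namespace Fermat.Agent.S56.TW.KillDualPad

open Module

variable {k X : Type*} [Field k] [AddCommGroup X] [Module k X] [FiniteDimensional k X]

theorem exists_family_inf_eq_bot_pad_aux {ι : Type*} [DecidableEq ι] (K : ι → Submodule k X)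
    (Good : ι → Prop)
    (hex : ∀ x : X, x ≠ 0 → ∀ T : Finset ι, ∃ i, i ∉ T ∧ Good i ∧ x ∉ K i)
    (hpad : ∀ T : Finset ι, ∃ i, i ∉ T ∧ Good i) :
    ∀ (m : ℕ) (X' : Submodule k X), finrank k ↥X' ≤ m → ∀ T : Finset ι,
      ∃ q : Fin m → ι, Function.Injective q ∧ (∀ j, q j ∉ T) ∧ (∀ j, Good (q j)) ∧
        X' ⊓ ⨅ j, K (q j) = ⊥ := by
  intro m
  induction m with
  | zero =>
    intro X' hX' T
    refine ⟨Fin.elim0, fun a => a.elim0, fun a => a.elim0, fun a => a.elim0, ?_⟩
    rw [Submodule.finrank_eq_zero.mp (Nat.le_zero.mp hX'), bot_inf_eq]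
  | succ m ih =>
    intro X' hX' T
    -- choose the next index
    obtain ⟨i, hiT, hiG, hdim⟩ : ∃ i, i ∉ T ∧ Good i ∧ finrank k ↥(X' ⊓ K i) ≤ m := by
      by_cases hne : X' = ⊥
      · obtain ⟨i, hiT, hiG⟩ := hpad T
        refine ⟨i, hiT, hiG, ?_⟩
        rw [hne, bot_inf_eq, finrank_bot]
        exact Nat.zero_le _
      · obtain ⟨x, hx, hx0⟩ := Submodule.exists_mem_ne_zero_of_ne_bot hne
        obtain ⟨i, hiT, hiG, hxi⟩ := hex x hx0 T
        refine ⟨i, hiT, hiG, ?_⟩
        have h4 : finrank k ↥(X' ⊓ K i) < finrank k ↥X' := by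
          refine Submodule.finrank_lt_finrank_of_lt (lt_of_le_of_ne inf_le_left fun h => ?_)
          have : x ∈ X' ⊓ K i := by rw [h]; exact hx
          exact hxi this.2
        omega
    obtain ⟨q', hq'inj, hq'T, hq'G, hq'⟩ := ih (X' ⊓ K i) hdim (insert i T)
    refine ⟨Fin.cons i q', ?_, ?_, ?_, ?_⟩
    · refine Fin.cons_injective_iff.mpr ⟨?_, hq'inj⟩
      rintro ⟨j, hj⟩
      exact hq'T j (hj ▸ Finset.mem_insert_self i T)
    · intro j
      refine Fin.cases ?_ (fun j' => ?_) j
      · simpa using hiT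
      · simpa using fun h => hq'T j' (Finset.mem_insert_of_mem h)
    · intro j
      refine Fin.cases ?_ (fun j' => ?_) j
      · simpa using hiG
      · simpa using hq'G j'
    · rw [eq_bot_iff]
      intro y hy
      rw [← hq']
      obtain ⟨hy1, hy2⟩ := Submodule.mem_inf.mp hy
      rw [Submodule.mem_iInf] at hy2
      refine Submodule.mem_inf.mpr ⟨Submodule.mem_inf.mpr ⟨hy1, by simpa using hy2 0⟩, ?_⟩
      refine (Submodule.mem_iInf _).mpr fun j' => ?_
      simpa using hy2 j'.succ

/-- **(IV.0)/D2 Killing the dual Selmer group, with padding.**  `K i ≤ X` arbitrary subspaces;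
every non-zero `x ∈ X` lies outside `K i` for some good `i` outside any given finite set.  Then for
every finite `T` there are exactly `r = dim X` distinct good indices `q j ∉ T` with
`⋂ K (q j) = 0`. -/
theorem exists_family_inf_eq_bot_pad {ι : Type*} (K : ι → Submodule k X)
    (Good : ι → Prop)
    (hex : ∀ x : X, x ≠ 0 → ∀ T : Finset ι, ∃ i, i ∉ T ∧ Good i ∧ x ∉ K i) (T : Finset ι) :
    ∃ q : Fin (finrank k X) → ι, Function.Injective q ∧ (∀ j, q j ∉ T) ∧ (∀ j, Good (q j)) ∧
      ⨅ j, K (q j) = ⊥ := by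
  classical
  by_cases h0 : ∀ x : X, x = 0
  · -- `X = 0`: `r = 0`, nothing to choose
    have hr : finrank k X = 0 := by
      have : Subsingleton X := ⟨fun a b => (h0 a).trans (h0 b).symm⟩
      exact finrank_zero_of_subsingleton
    refine ⟨fun j => (Fin.elim0 (hr ▸ j)), fun a => (Fin.elim0 (hr ▸ a)),
      fun a => (Fin.elim0 (hr ▸ a)), fun a => (Fin.elim0 (hr ▸ a)), ?_⟩
    rw [eq_bot_iff]
    intro y _
    rw [h0 y]
    exact Submodule.zero_mem _
  · obtain ⟨x, hx⟩ := not_forall.mp h0
    have hpad : ∀ T : Finset ι, ∃ i, i ∉ T ∧ Good i := fun T => by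
      obtain ⟨i, h1, h2, -⟩ := hex x hx T
      exact ⟨i, h1, h2⟩
    obtain ⟨q, h1, h2, h3, h4⟩ :=
      exists_family_inf_eq_bot_pad_aux K Good hex hpad (finrank k X) ⊤ (finrank_top k X).le T
    exact ⟨q, h1, h2, h3, by rwa [top_inf_eq] at h4⟩

/-- **(IV.0)/D2, form with localisation maps.**  `lam i : X → Y i` linear (no hypothesis on `Y i`);
every non-zero `x` has `lam i x ≠ 0` for some good `i` outside any given finite set.  Then there
are exactly `r = dim X` distinct good indices outside `T` such that `x ↦ (lam (q j) x)_j` is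
injective. -/
theorem exists_family_injective_pad {ι : Type*} {Y : ι → Type*} [∀ i, AddCommGroup (Y i)]
    [∀ i, Module k (Y i)] (lam : ∀ i, X →ₗ[k] Y i) (Good : ι → Prop)
    (hex : ∀ x : X, x ≠ 0 → ∀ T : Finset ι, ∃ i, i ∉ T ∧ Good i ∧ lam i x ≠ 0) (T : Finset ι) :
    ∃ q : Fin (finrank k X) → ι, Function.Injective q ∧ (∀ j, q j ∉ T) ∧ (∀ j, Good (q j)) ∧
      ∀ x : X, (∀ j, lam (q j) x = 0) → x = 0 := by
  obtain ⟨q, h1, h2, h3, h4⟩ := exists_family_inf_eq_bot_pad (fun i => LinearMap.ker (lam i)) Good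
    (fun x hx T => by
      obtain ⟨i, hiT, hiG, hi⟩ := hex x hx T
      exact ⟨i, hiT, hiG, fun h => hi (LinearMap.mem_ker.mp h)⟩) T
  refine ⟨q, h1, h2, h3, fun x hx => ?_⟩
  have : x ∈ ⨅ j, LinearMap.ker (lam (q j)) := by
    rw [Submodule.mem_iInf]
    exact fun j => LinearMap.mem_ker.mpr (hx j)
  rw [h4] at this
  exact (Submodule.mem_bot k).mp this

end Fermat.Agent.S56.TW.KillDualPad
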