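/-
S56 / block (IV.1) (helper20): from the FROZEN hypotheses of S56 (`habs`, `hTW`, `hsplit`) to the
vector-form hypotheses of `Clifford.lean` / `LemmaG.lean`, and the group-theoretic results in the
frozen vocabulary (`ρbar : ResidualGaloisRep k`, `Γ = Gal(ℚ̄/ℚ)`).

* `exists_stable_baseChange` : a common eigenvector over `k` gives, after any base change `K/k`,
  a stable submodule which is neither `⊥` nor `⊤`;
* `noStableLine_of_isAbsolutelyIrreducible`, `noStableLine_of_hTW` : `h1`, `h2`;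
* `fixRootsOfUnity N` : the subgroup of `Γ` fixing `μ_N(ℚ̄)`; it is normal with abelian quotient
  (`fixRootsOfUnity_normal`, `commutator_mem_fixRootsOfUnity`);
* `noStableLine_fixRootsOfUnity` (Clifford), `exists_distinct_eigenvalues_fix`,
  `traceless_mem_of_stable_frozen` (`ad⁰ρ̄` irreducible), `exists_regular_not_mem_range_fix`
  (the selection lemma for `H = fixRootsOfUnity N`).
-/
import Mathlib
import Fermat.Prelude.Def_GaloisRep_Residual
import Fermat.Agent.S56.TW.LemmaG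

set_option autoImplicit false

open scoped TensorProduct
open Polynomial

namespace Fermat.Agent.S56.TW.HypOfFrozen

open Fermat.Agent.S56.TW.Clifford Fermat.Agent.S56.TW.LemmaG

local notation "Qbar" => AlgebraicClosure ℚ
local notation "Γ" => (AlgebraicClosure ℚ ≃ₐ[ℚ] AlgebraicClosure ℚ)

variable {k : Type} [Field k] (ρbar : ResidualGaloisRep k)

/-! ### Base change of a stable line -/

/-- A common eigenvector of `ρbar.ρ σ`, `σ ∈ S`, over `k` gives a proper non-zero `S`-stable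
submodule of every base change. -/
theorem exists_stable_baseChange (K : Type) [Field K] [Algebra k K] (S : Set Γ) (u : ρbar.V)
    (hu : u ≠ 0) (hS : ∀ σ ∈ S, ∃ c : k, ρbar.ρ σ u = c • u) :
    ∃ W : Submodule K (ρbar.baseChange K).V,
      (∀ σ ∈ S, ∀ x ∈ W, (ρbar.baseChange K).ρ σ x ∈ W) ∧ W ≠ ⊥ ∧ W ≠ ⊤ := by
  set e : K ⊗[k] ρbar.V := (1 : K) ⊗ₜ[k] u with he
  have he0 : e ≠ 0 := by
    have hinj := Module.Flat.tensorProduct_mk_injective (R := k) (S := K) (M := ρbar.V)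
    intro h0
    apply hu
    apply hinj
    rw [map_zero]
    exact h0
  refine ⟨Submodule.span K {e}, ?_, ?_, ?_⟩
  · intro σ hσ x hx
    obtain ⟨a, rfl⟩ := Submodule.mem_span_singleton.mp hx
    obtain ⟨c, hc⟩ := hS σ hσ
    have h1 : (ρbar.baseChange K).ρ σ (a • e) = a • ((algebraMap k K c) • e) := by
      show ((ρbar.ρ σ).baseChange K) (a • e) = _
      rw [map_smul, he, LinearMap.baseChange_tmul, hc, TensorProduct.tmul_smul, algebraMap_smul]
    rw [h1]
    exact Submodule.smul_mem _ _ (Submodule.smul_mem _ _ (Submodule.mem_span_singleton_self e))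
  · intro h
    have : e ∈ Submodule.span K {e} := Submodule.mem_span_singleton_self e
    rw [h, Submodule.mem_bot] at this
    exact he0 this
  · intro h
    have h1 : Module.finrank K (Submodule.span K {e}) = 1 := finrank_span_singleton he0
    rw [h, finrank_top] at h1
    have h2 : Module.finrank K (K ⊗[k] ρbar.V) = 2 := (ρbar.baseChange K).finrank_eq
    omega

/-- `h1` from absolute irreducibility. -/
theorem noStableLine_of_isAbsolutelyIrreducible (habs : ρbar.IsAbsolutelyIrreducible) :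
    NoStableLine ρbar.ρ (Set.univ : Set Γ) := by
  rintro ⟨u, hu, hS⟩
  obtain ⟨W, hW, hbot, htop⟩ :=
    exists_stable_baseChange ρbar (AlgebraicClosure k) Set.univ u hu hS
  rcases habs W (fun σ x hx => hW σ (Set.mem_univ σ) x hx) with h | h
  · exact hbot h
  · exact htop h

/-- `h2` from the frozen `hTW` (used with `K := k`). -/
theorem noStableLine_of_hTW
    (hTW : ∀ (K : Type) [Field K] [Algebra k K] (G : Subgroup Γ), G.index = 2 →
      ∀ V : Submodule K (ρbar.baseChange K).V,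
        (∀ σ ∈ G, ∀ x ∈ V, (ρbar.baseChange K).ρ σ x ∈ V) → V = ⊥ ∨ V = ⊤)
    (G₂ : Subgroup Γ) (hG₂ : G₂.index = 2) : NoStableLine ρbar.ρ (G₂ : Set Γ) := by
  rintro ⟨u, hu, hS⟩
  obtain ⟨W, hW, hbot, htop⟩ := exists_stable_baseChange ρbar k (G₂ : Set Γ) u hu hS
  rcases hTW k G₂ hG₂ W (fun σ hσ x hx => hW σ hσ x hx) with h | h
  · exact hbot h
  · exact htop h

/-! ### The subgroup fixing `μ_N` -/

/-- The subgroup of `Γ` fixing all `N`-th roots of unity. -/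
def fixRootsOfUnity (N : ℕ) : Subgroup Γ where
  carrier := {σ | ∀ ζ : Qbar, ζ ^ N = 1 → σ ζ = ζ}
  one_mem' := fun _ _ => rfl
  mul_mem' := fun {σ τ} hσ hτ ζ hζ => by
    rw [AlgEquiv.mul_apply, hτ ζ hζ, hσ ζ hζ]
  inv_mem' := fun {σ} hσ ζ hζ => by
    have := hσ ζ hζ
    rw [AlgEquiv.aut_inv]
    exact (AlgEquiv.symm_apply_eq σ).mpr this.symm

theorem mem_fixRootsOfUnity {N : ℕ} {σ : Γ} :
    σ ∈ fixRootsOfUnity N ↔ ∀ ζ : Qbar, ζ ^ N = 1 → σ ζ = ζ := Iff.rfl

/-- Galois conjugates of roots of unity are roots of unity. -/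
theorem map_pow_eq_one {N : ℕ} (σ : Γ) {ζ : Qbar} (hζ : ζ ^ N = 1) : (σ ζ) ^ N = 1 := by
  rw [← map_pow, hζ, map_one]

instance fixRootsOfUnity_normal (N : ℕ) : (fixRootsOfUnity N).Normal where
  conj_mem := fun σ hσ τ ζ hζ => by
    have h1 : (τ⁻¹ ζ) ^ N = 1 := map_pow_eq_one τ⁻¹ hζ
    rw [AlgEquiv.mul_apply, AlgEquiv.mul_apply, hσ _ h1, ← AlgEquiv.mul_apply, mul_inv_cancel,
      AlgEquiv.one_apply]

/-- Commutators fix the roots of unity: the quotient by `fixRootsOfUnity N` is abelian. -/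
theorem commutator_mem_fixRootsOfUnity {N : ℕ} (hN : N ≠ 0) (a b : Γ) :
    a * b * a⁻¹ * b⁻¹ ∈ fixRootsOfUnity N := by
  have : NeZero ((N : ℕ) : Qbar) := ⟨by exact_mod_cast hN⟩
  have : NeZero N := ⟨hN⟩
  obtain ⟨ζ₀, hζ₀⟩ := HasEnoughRootsOfUnity.exists_primitiveRoot Qbar N
  have hN' : 0 < N := Nat.pos_of_ne_zero hN
  -- every automorphism raises `ζ₀` to a power
  have hpow : ∀ σ : Γ, ∃ i : ℕ, σ ζ₀ = ζ₀ ^ i := by
    intro σ
    have h1 : (σ ζ₀) ^ N = 1 := map_pow_eq_one σ hζ₀.pow_eq_one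
    obtain ⟨i, -, hi⟩ := hζ₀.eq_pow_of_pow_eq_one h1
    exact ⟨i, hi.symm⟩
  -- hence any two automorphisms commute on `ζ₀`
  have hcomm : ∀ σ τ : Γ, σ (τ ζ₀) = τ (σ ζ₀) := by
    intro σ τ
    obtain ⟨i, hi⟩ := hpow σ
    obtain ⟨j, hj⟩ := hpow τ
    rw [hj, hi, map_pow, map_pow, hi, hj, ← pow_mul, ← pow_mul, mul_comm]
  -- `w := (b a) ζ₀` is a primitive root fixed by the commutator
  have hw : IsPrimitiveRoot ((b * a) ζ₀) N := hζ₀.map_of_injective (b * a).injective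
  have hcw : (a * b * a⁻¹ * b⁻¹) ((b * a) ζ₀) = (b * a) ζ₀ := by
    have h2 : (a * b * a⁻¹ * b⁻¹) * (b * a) = a * b := by group
    rw [← AlgEquiv.mul_apply, h2, AlgEquiv.mul_apply, AlgEquiv.mul_apply, hcomm a b]
  intro ζ hζ
  obtain ⟨i, -, hi⟩ := hw.eq_pow_of_pow_eq_one hζ
  rw [← hi, map_pow, hcw]

/-! ### The results in the frozen vocabulary -/

/-- every `ρbar.ρ σ` has an eigenvector -/
theorem exists_eigvec
    (hsplit : ∀ σ : Γ, ∃ α β : k, LinearMap.charpoly (ρbar.ρ σ) = (X - C α) * (X - C β))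
    (σ : Γ) : ∃ u : ρbar.V, u ≠ 0 ∧ ∃ c : k, ρbar.ρ σ u = c • u := by
  obtain ⟨α, β, h⟩ := hsplit σ
  exact exists_eigvec_of_charpoly ρbar.finrank_eq (ρbar.ρ σ) h

section Frozen

variable (habs : ρbar.IsAbsolutelyIrreducible)
  (hTW : ∀ (K : Type) [Field K] [Algebra k K] (G : Subgroup Γ), G.index = 2 →
      ∀ V : Submodule K (ρbar.baseChange K).V,
        (∀ σ ∈ G, ∀ x ∈ V, (ρbar.baseChange K).ρ σ x ∈ V) → V = ⊥ ∨ V = ⊤)
  (hsplit : ∀ σ : Γ, ∃ α β : k, LinearMap.charpoly (ρbar.ρ σ) = (X - C α) * (X - C β))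
include habs hTW hsplit

/-- **Clifford**: `ρbar` restricted to the subgroup fixing `μ_N` has no stable line. -/
theorem noStableLine_fixRootsOfUnity {N : ℕ} (hN : N ≠ 0) :
    NoStableLine ρbar.ρ (fixRootsOfUnity N : Set Γ) :=
  noStableLine_of_normal ρbar.ρ ρbar.finrank_eq
    (noStableLine_of_isAbsolutelyIrreducible ρbar habs) (noStableLine_of_hTW ρbar hTW)
    (exists_eigvec ρbar hsplit) (fixRootsOfUnity N)
    (commutator_mem_fixRootsOfUnity hN)

/-- Some `σ` fixing `μ_N` has two distinct eigenvalues. -/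
theorem exists_distinct_eigenvalues_fix (h2k : (2 : k) ≠ 0) {N : ℕ} (hN : N ≠ 0) :
    ∃ σ ∈ fixRootsOfUnity N, ∃ α β : k, α ≠ β ∧
      LinearMap.charpoly (ρbar.ρ σ) = (X - C α) * (X - C β) :=
  exists_distinct_eigenvalues ρbar.ρ ρbar.finrank_eq h2k (fixRootsOfUnity N)
    (noStableLine_fixRootsOfUnity ρbar habs hTW hsplit hN) hsplit

/-- **`ad⁰ρ̄` is irreducible.** -/
theorem traceless_mem_of_stable_frozen (h2k : (2 : k) ≠ 0)
    (N : Submodule k (Module.End k ρbar.V)) (hN0 : ∀ x ∈ N, LinearMap.trace k ρbar.V x = 0)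
    (hNne : N ≠ ⊥) (hst : ∀ σ : Γ, ∀ x ∈ N, ρbar.ρ σ * x * ρbar.ρ σ⁻¹ ∈ N)
    (x : Module.End k ρbar.V) (hx : LinearMap.trace k ρbar.V x = 0) : x ∈ N :=
  traceless_mem_of_stable ρbar.ρ ρbar.finrank_eq h2k
    (noStableLine_of_isAbsolutelyIrreducible ρbar habs) (noStableLine_of_hTW ρbar hTW)
    (exists_eigvec ρbar hsplit) N hN0 hNne hst x hx

/-- **The selection lemma** for the subgroup fixing `μ_N`. -/
theorem exists_regular_not_mem_range_fix (h2k : (2 : k) ≠ 0) {N : ℕ} (hN : N ≠ 0)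
    (M : Submodule k (Module.End k ρbar.V)) (hM0 : ∀ x ∈ M, LinearMap.trace k ρbar.V x = 0)
    (hMne : M ≠ ⊥) (hst : ∀ σ : Γ, ∀ x ∈ M, ρbar.ρ σ * x * ρbar.ρ σ⁻¹ ∈ M) :
    ∃ σ ∈ fixRootsOfUnity N, ∃ α β : k, α ≠ β ∧
      LinearMap.charpoly (ρbar.ρ σ) = (X - C α) * (X - C β) ∧
      ∃ x ∈ M, ∀ y : Module.End k ρbar.V, ρbar.ρ σ * y * ρbar.ρ σ⁻¹ - y ≠ x :=
  exists_regular_not_mem_range ρbar.ρ ρbar.finrank_eq h2k
    (noStableLine_of_isAbsolutelyIrreducible ρbar habs) (noStableLine_of_hTW ρbar hTW) hsplit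
    (fixRootsOfUnity N) (commutator_mem_fixRootsOfUnity hN) M hM0 hMne hst

end Frozen

end Fermat.Agent.S56.TW.HypOfFrozen
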