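/-
S56 / block (IV.3) (helper23): the FROBENIUS-DENSITY GLUE for the selection of Taylor–Wiles primes.

Everything which the choice of a Taylor–Wiles prime needs from a Frobenius element depends only on
the CYCLIC SUBGROUP it generates in a finite Galois group `Gal(L/ℚ)` and on its conjugacy class,
so the Frobenius density theorem in existence form (`N4/FrobDensity`) suffices:

* `ne_of_charpoly_pow` : "distinct eigenvalues" descends from a power;
* `cocycle_zpowers`, `cocycle_conj` : for a `1`-cocycle `ψ`, "`ψ g ∈ (g - 1) M`" depends only on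
  `zpowers g` and on the conjugacy class of `g`;
* `dvd_sub_one_of_isFrobeniusAt` : a Frobenius at `l` fixing `μ_{p^(n+1)}` has `p^(n+1) ∣ l - 1`;
* `exists_prime_forall_frob` : the density theorem for ALL valuation subrings over `l`;
* `exists_tw_prime` : the glue, in the language of the frozen statement S56;
  `exists_tw_prime_of_level` : the same, level-free (`GaloisFactorsThroughFiniteLevel` shape).
-/
import Mathlib
import Fermat.Prelude.Def_GaloisRep_Residual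
import Fermat.Agent.N4.FrobDensity.Qbar
import Fermat.Agent.N4.FrobDensity.CycloFrob

set_option autoImplicit false
set_option linter.unusedSectionVars false

open Polynomial

namespace Fermat.Agent.S56.TW.FrobGlue

/-! ### (G1) distinct eigenvalues descend from powers -/

section Charpoly

variable {k V : Type*} [Field k] [AddCommGroup V] [Module k V] [Module.Finite k V]

/-- If `(f - α)² = 0` then every root of the characteristic polynomial of `f ^ m` is `α ^ m`. -/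
theorem eq_pow_of_isRoot_charpoly_pow (f : Module.End k V) (α : k)
    (hf : (f - algebraMap k (Module.End k V) α) ^ 2 = 0) (m : ℕ) {a : k}
    (ha : ((f ^ m).charpoly).IsRoot a) : a = α ^ m := by
  classical
  -- `a` is an eigenvalue of `f ^ m`
  have hev : (f ^ m).HasEigenvalue a := (Module.End.hasEigenvalue_iff_isRoot_charpoly _ _).mpr ha
  obtain ⟨v, hv⟩ := hev.exists_hasEigenvector
  have hv0 : v ≠ 0 := hv.2
  have hfv : (f ^ m) v = a • v := hv.apply_eq_smul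
  -- `f ^ m - α ^ m = g * (f - α)` with `g` commuting with `f`
  set c : Module.End k V := algebraMap k (Module.End k V) α with hc
  have hcomm : Commute f c := Algebra.commute_algebraMap_right α f
  have hgeom : f ^ m - c ^ m = (∑ i ∈ Finset.range m, f ^ i * c ^ (m - 1 - i)) * (f - c) :=
    (hcomm.geom_sum₂_mul m).symm
  set g : Module.End k V := ∑ i ∈ Finset.range m, f ^ i * c ^ (m - 1 - i) with hg
  have hgc : Commute g (f - c) := by
    refine Commute.sum_left _ _ _ fun i _ => ?_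
    refine Commute.mul_left ?_ ?_
    · exact (Commute.pow_left ((Commute.refl f).sub_right hcomm) i)
    · exact (Commute.pow_left (hcomm.symm.sub_right (Commute.refl c)) (m - 1 - i))
  have hsq : (f ^ m - c ^ m) ^ 2 = 0 := by
    rw [hgeom, hgc.mul_pow, hf, mul_zero]
  have hcm : c ^ m = algebraMap k (Module.End k V) (α ^ m) := by rw [hc, map_pow]
  have h1 : (f ^ m - c ^ m) v = (a - α ^ m) • v := by
    rw [LinearMap.sub_apply, hfv, hcm, Module.algebraMap_end_apply, sub_smul]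
  have h2 : ((f ^ m - c ^ m) ^ 2) v = ((a - α ^ m) ^ 2) • v := by
    rw [pow_two, Module.End.mul_apply, h1, map_smul, h1, smul_smul, pow_two]
  rw [hsq, LinearMap.zero_apply] at h2
  have h3 : (a - α ^ m) ^ 2 = 0 := by
    rcases smul_eq_zero.mp h2.symm with h | h
    · exact h
    · exact absurd h hv0
  exact sub_eq_zero.mp ((pow_eq_zero_iff (two_ne_zero)).mp h3)

/-- **(G1)** If the characteristic polynomial of `f` is `(X - α)(X - β)` and that of a power `f ^ m`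
is `(X - a)(X - b)` with `a ≠ b`, then `α ≠ β`: distinct eigenvalues descend from powers. -/
theorem ne_of_charpoly_pow (f : Module.End k V) (m : ℕ) {α β a b : k}
    (hf : f.charpoly = (X - C α) * (X - C β))
    (hfm : (f ^ m).charpoly = (X - C a) * (X - C b)) (hab : a ≠ b) : α ≠ β := by
  rintro rfl
  have hCH : (f - algebraMap k (Module.End k V) α) ^ 2 = 0 := by
    have h := LinearMap.aeval_self_charpoly f
    rw [hf, map_mul, map_sub, aeval_X, aeval_C] at h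
    rw [pow_two]
    exact h
  have ha : ((f ^ m).charpoly).IsRoot a := by
    rw [hfm, IsRoot.def, eval_mul, eval_sub, eval_X, eval_C, sub_self, zero_mul]
  have hb : ((f ^ m).charpoly).IsRoot b := by
    rw [hfm, IsRoot.def, eval_mul, eval_sub, eval_sub, eval_X, eval_C, eval_C, sub_self, mul_zero]
  exact hab ((eq_pow_of_isRoot_charpoly_pow f α hCH m ha).trans
    (eq_pow_of_isRoot_charpoly_pow f α hCH m hb).symm)

end Charpoly

/-! ### (G2) `1`-cocycles: "`ψ g ∈ (g - 1) M`" depends only on `zpowers g` and on the class of `g` -/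

section Cocycle

variable {G M : Type*} [Group G] [AddCommGroup M] [DistribMulAction G M]

/-- `ψ` is a `1`-cocycle. -/
def IsCoc (ψ : G → M) : Prop := ∀ g h : G, ψ (g * h) = ψ g + g • ψ h

/-- "the restriction of `ψ` to the cyclic group generated by `g` is a coboundary" -/
def IsCobAt (ψ : G → M) (g : G) : Prop := ∃ m : M, ψ g = g • m - m

theorem IsCoc.map_one {ψ : G → M} (hψ : IsCoc ψ) : ψ 1 = 0 := by
  have h := hψ 1 1
  rw [one_mul, one_smul] at h
  exact left_eq_add.mp h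

theorem IsCoc.map_inv {ψ : G → M} (hψ : IsCoc ψ) (g : G) : ψ g⁻¹ = - (g⁻¹ • ψ g) := by
  have h := hψ g⁻¹ g
  rw [inv_mul_cancel, hψ.map_one] at h
  exact eq_neg_of_add_eq_zero_left h.symm

/-- subtracting the coboundary of `m` -/
theorem IsCoc.sub_cob {ψ : G → M} (hψ : IsCoc ψ) (m : M) :
    IsCoc (fun g => ψ g - (g • m - m)) := by
  intro g h
  simp only [hψ g h, mul_smul, smul_sub]
  abel

theorem IsCoc.pow_eq_zero {ψ : G → M} (hψ : IsCoc ψ) {g : G} (hg : ψ g = 0) (n : ℕ) :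
    ψ (g ^ n) = 0 := by
  induction n with
  | zero => rw [pow_zero]; exact hψ.map_one
  | succ n ih => rw [pow_succ, hψ, ih, hg, smul_zero, add_zero]

theorem IsCoc.zpow_eq_zero {ψ : G → M} (hψ : IsCoc ψ) {g : G} (hg : ψ g = 0) (n : ℤ) :
    ψ (g ^ n) = 0 := by
  cases n with
  | ofNat n => rw [Int.ofNat_eq_natCast, zpow_natCast]; exact hψ.pow_eq_zero hg n
  | negSucc n =>
    rw [zpow_negSucc, hψ.map_inv, hψ.pow_eq_zero hg, smul_zero, neg_zero]

/-- **(G2a)** a cocycle which is `(g - 1) m` at `g` is `(g' - 1) m` at every `g' ∈ zpowers g`. -/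
theorem cocycle_zpowers {ψ : G → M} (hψ : IsCoc ψ) {g g' : G} (h : g' ∈ Subgroup.zpowers g)
    (m : M) (hm : ψ g = g • m - m) : ψ g' = g' • m - m := by
  obtain ⟨n, rfl⟩ := Subgroup.mem_zpowers_iff.mp h
  have h0 : (fun x => ψ x - (x • m - m)) g = 0 := by
    change ψ g - (g • m - m) = 0
    rw [hm, sub_self]
  have h1 := (hψ.sub_cob m).zpow_eq_zero h0 n
  exact sub_eq_zero.mp h1

/-- "coboundary at `g`" depends only on the cyclic subgroup generated by `g`. -/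
theorem isCobAt_iff_of_zpowers_eq {ψ : G → M} (hψ : IsCoc ψ) {g g' : G}
    (h : Subgroup.zpowers g' = Subgroup.zpowers g) : IsCobAt ψ g' ↔ IsCobAt ψ g := by
  constructor
  · rintro ⟨m, hm⟩
    exact ⟨m, cocycle_zpowers hψ (h ▸ Subgroup.mem_zpowers g) m hm⟩
  · rintro ⟨m, hm⟩
    exact ⟨m, cocycle_zpowers hψ (h ▸ Subgroup.mem_zpowers g') m hm⟩

/-- **(G2b)** "coboundary at `g`" is invariant under conjugation. -/
theorem isCobAt_conj {ψ : G → M} (hψ : IsCoc ψ) (τ g : G) :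
    IsCobAt ψ (τ * g * τ⁻¹) ↔ IsCobAt ψ g := by
  have key : ∀ (τ g : G), IsCobAt ψ g → IsCobAt ψ (τ * g * τ⁻¹) := by
    rintro τ g ⟨m, hm⟩
    refine ⟨τ • m - ψ τ, ?_⟩
    rw [hψ, hψ, hm, hψ.map_inv]
    simp only [smul_sub, smul_neg, mul_smul, inv_smul_smul]
    abel
  constructor
  · intro h
    have h2 := key τ⁻¹ _ h
    have e : τ⁻¹ * (τ * g * τ⁻¹) * τ⁻¹⁻¹ = g := by group
    rwa [e] at h2
  · exact key τ g

end Cocycle

/-! ### (G3) a Frobenius element fixing `μ_{p^(n+1)}` sits over a prime `l ≡ 1 (p^(n+1))` -/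

section Cyclo

local notation "Qbar" => AlgebraicClosure ℚ
local notation "Γ" => (AlgebraicClosure ℚ ≃ₐ[ℚ] AlgebraicClosure ℚ)

open Fermat.Agent.N4.FrobDensity

/-- **(G3)** If a Frobenius element at `l ≠ p` fixes all `p^(n+1)`-th roots of unity, then
`p^(n+1) ∣ l - 1`. -/
theorem dvd_sub_one_of_isFrobeniusAt {p : ℕ} (hp : p.Prime) (n : ℕ) {l : ℕ} (hl : l.Prime)
    (hlp : l ≠ p) {A : ValuationSubring Qbar} (hA : A.LiesOverPrime l) {φ : Γ}
    (hφ : A.IsFrobeniusAt φ l) (hfix : ∀ ζ : Qbar, ζ ^ p ^ (n + 1) = 1 → φ ζ = ζ) :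
    p ^ (n + 1) ∣ l - 1 := by
  have hN : p ^ (n + 1) ≠ 0 := pow_ne_zero _ hp.ne_zero
  have : NeZero ((p ^ (n + 1) : ℕ) : Qbar) := ⟨by exact_mod_cast hN⟩
  obtain ⟨ζ, hζ⟩ := HasEnoughRootsOfUnity.exists_primitiveRoot Qbar (p ^ (n + 1))
  have hcop : Nat.Coprime l (p ^ (n + 1)) :=
    Nat.Coprime.pow_right _ ((Nat.coprime_primes hl hp).mpr hlp)
  have h1 : φ ζ = ζ ^ l := apply_rootOfUnity_of_isFrobeniusAt hφ hA hcop hN hζ.pow_eq_one
  have h2 : ζ ^ l = ζ := by rw [← h1]; exact hfix ζ hζ.pow_eq_one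
  have hl1 : 1 ≤ l := hl.one_lt.le
  have h3 : ζ ^ (l - 1) = 1 := by
    have hζ0 : ζ ≠ 0 := hζ.ne_zero hN
    have h4 : ζ ^ (l - 1) * ζ = 1 * ζ := by
      rw [← pow_succ, Nat.sub_add_cancel hl1, h2, one_mul]
    exact mul_right_cancel₀ hζ0 h4
  exact hζ.dvd_of_pow_eq_one _ h3

end Cyclo

/-! ### (G4) the Frobenius density theorem for ALL valuation subrings over the prime -/

section AllP

open IsDedekindDomain NumberField Ideal Fermat.Agent.N4.FrobDensity Fermat.Agent.S54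
open scoped Pointwise

local notation "Qbar" => AlgebraicClosure ℚ
local notation "Γ" => (AlgebraicClosure ℚ ≃ₐ[ℚ] AlgebraicClosure ℚ)

variable (L : IntermediateField ℚ Qbar) [NumberField L]

/-- the inclusion `𝓞 L → ℚ̄` -/
noncomputable def incl : 𝓞 L →+* Qbar := (algebraMap L Qbar).comp (algebraMap (𝓞 L) L)

theorem incl_mem (P : ValuationSubring Qbar) (x : 𝓞 L) : incl L x ∈ P :=
  mem_valuationSubring_of_isIntegral_int P
    ((RingOfIntegers.isIntegral_coe x).map ((algebraMap L Qbar).toIntAlgHom))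

/-- the prime of `𝓞 L` below a valuation subring of `ℚ̄` -/
noncomputable def primeOf (P : ValuationSubring Qbar) : Ideal (𝓞 L) :=
  (IsLocalRing.maximalIdeal P).comap ((incl L).codRestrict P (incl_mem L P))

theorem mem_primeOf (P : ValuationSubring Qbar) (x : 𝓞 L) :
    x ∈ primeOf L P ↔ incl L x ∈ P.nonunits := by
  rw [primeOf, Ideal.mem_comap, ← ValuationSubring.coe_mem_nonunits_iff]
  rfl

instance primeOf_isPrime (P : ValuationSubring Qbar) : (primeOf L P).IsPrime :=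
  Ideal.comap_isPrime _ _

theorem natCast_mem_primeOf {P : ValuationSubring Qbar} {l : ℕ} (hP : P.LiesOverPrime l) :
    ((l : ℤ) : 𝓞 L) ∈ primeOf L P := by
  rw [mem_primeOf]
  have : incl L ((l : ℤ) : 𝓞 L) = (l : Qbar) := by simp
  rw [this]
  exact hP

theorem primeOf_under {P : ValuationSubring Qbar} {l : ℕ} (hl : l.Prime)
    (hP : P.LiesOverPrime l) : (primeOf L P).under ℤ = span {(l : ℤ)} := by
  have h2 : (l : ℤ) ∈ (primeOf L P).under ℤ := by
    rw [Ideal.under_def, Ideal.mem_comap]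
    simpa using natCast_mem_primeOf L hP
  have hmax : (span {(l : ℤ)}).IsMaximal := by
    have : Fact l.Prime := ⟨hl⟩
    exact Int.ideal_span_isMaximal_of_prime l
  have hne : (primeOf L P).under ℤ ≠ ⊤ := (Ideal.IsPrime.under ℤ (primeOf L P)).ne_top
  exact (hmax.eq_of_le hne ((span_singleton_le_iff_mem _).mpr h2)).symm

end AllP

section AllP2

open IsDedekindDomain NumberField Ideal Fermat.Agent.N4.FrobDensity Fermat.Agent.S54
open scoped Pointwise

local notation "Qbar" => AlgebraicClosure ℚ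
local notation "Γ" => (AlgebraicClosure ℚ ≃ₐ[ℚ] AlgebraicClosure ℚ)

local instance isAlgebraicQbar_FG : Algebra.IsAlgebraic ℚ (AlgebraicClosure ℚ) :=
  AlgebraicClosure.isAlgebraic ℚ
local instance isAlgClosureQbar_FG : IsAlgClosure ℚ (AlgebraicClosure ℚ) :=
  ⟨inferInstance, inferInstance⟩
local instance normalQbar_FG : Normal ℚ (AlgebraicClosure ℚ) :=
  IsAlgClosure.normal ℚ (AlgebraicClosure ℚ)

variable (L : IntermediateField ℚ Qbar) [FiniteDimensional ℚ L] [Normal ℚ L]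

/-- The restriction to `L` of a Frobenius element at `P` is an arithmetic Frobenius at the prime of
`𝓞 L` below `P`. -/
theorem isArithFrobAt_restrict [NumberField L] {P : ValuationSubring Qbar} {l : ℕ} (hl : l.Prime)
    (hP : P.LiesOverPrime l) {φ : Γ} (hφ : P.IsFrobeniusAt φ l) :
    IsArithFrobAt ℤ (AlgEquiv.restrictNormalHom L φ) (primeOf L P) := by
  intro x
  change AlgEquiv.restrictNormalHom L φ • x - x ^ Nat.card (ℤ ⧸ (primeOf L P).under ℤ) ∈ primeOf L P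
  rw [primeOf_under L hl hP, Int.card_ideal_quot, mem_primeOf]
  have h1 := sub_pow_mem_nonunits_of_isFrobeniusAt hφ (incl_mem L P x)
  have h3 : incl L (AlgEquiv.restrictNormalHom L φ • x) = φ (incl L x) :=
    AlgEquiv.restrictNormal_commutes φ L (x : L)
  rw [map_sub, map_pow, h3]
  exact h1

/-- the inertia group of a conjugate prime is trivial if that of the prime is -/
theorem inertia_smul_eq_bot [NumberField L] [IsGalois ℚ L] (𝔓 : Ideal (𝓞 L))
    (h : 𝔓.inertia Gal(L/ℚ) = ⊥) (τ : Gal(L/ℚ)) : (τ • 𝔓).inertia Gal(L/ℚ) = ⊥ := by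
  rw [Subgroup.eq_bot_iff_forall]
  intro x hx
  have h1 : τ⁻¹ * x * τ ∈ 𝔓.inertia Gal(L/ℚ) := by
    intro y
    have h2 := hx (τ • y)
    have h3 : τ⁻¹ • (x • τ • y - τ • y) ∈ 𝔓 := by
      have := Ideal.smul_mem_pointwise_smul τ⁻¹ _ _ h2
      rwa [inv_smul_smul] at this
    rw [smul_sub, inv_smul_smul] at h3
    simpa [mul_smul] using h3
  rw [h, Subgroup.mem_bot] at h1
  have : x = τ * (τ⁻¹ * x * τ) * τ⁻¹ := by group
  rw [this, h1]
  group

/-- **(G4) Frobenius density, existence form, for ALL valuation subrings over the prime.**  For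
`L ⊂ ℚ̄` finite Galois over `ℚ`, `g ∈ Gal(ℚ̄/ℚ)` and a finite set `T` there are a prime `l ∉ T` and
`φ₀` with `⟨φ₀|_L⟩ = ⟨g|_L⟩` such that for EVERY valuation subring `P` of `ℚ̄` over `l`, EVERY
Frobenius element at `P` restricts on `L` to a conjugate of `φ₀|_L`. -/
theorem exists_prime_forall_frob (g : Γ) (T : Finset ℕ) :
    ∃ l : ℕ, l.Prime ∧ l ∉ T ∧ ∃ φ₀ : Γ,
      Subgroup.zpowers (AlgEquiv.restrictNormalHom L φ₀)
        = Subgroup.zpowers (AlgEquiv.restrictNormalHom L g) ∧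
      ∀ P : ValuationSubring Qbar, P.LiesOverPrime l → ∀ φ : Γ, P.IsFrobeniusAt φ l →
        ∃ τ : Γ, AlgEquiv.restrictNormalHom L φ = AlgEquiv.restrictNormalHom L (τ * φ₀ * τ⁻¹) := by
  have : NumberField L := ⟨⟩
  have : IsGalois ℚ L := ⟨⟩
  obtain ⟨l, 𝔓, σ, hl, hlT, h𝔓p, hunder, hin, hfrob, hz⟩ :=
    exists_frob_zpowers_eq L (AlgEquiv.restrictNormalHom L g) T
  obtain ⟨φ₀, hφ₀⟩ := AlgEquiv.restrictNormalHom_surjective Qbar σ
  refine ⟨l, hl, hlT, φ₀, by rw [hφ₀]; exact hz, fun P hP φ hφ => ?_⟩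
  have : 𝔓.LiesOver (span {(l : ℤ)}) := ⟨hunder.symm⟩
  have : (primeOf L P).LiesOver (span {(l : ℤ)}) := ⟨(primeOf_under L hl hP).symm⟩
  obtain ⟨τ', hτ'⟩ := exists_smul_eq_of_isGaloisGroup (span {(l : ℤ)}) 𝔓 (primeOf L P) Gal(L/ℚ)
  obtain ⟨τ, hτ⟩ := AlgEquiv.restrictNormalHom_surjective Qbar τ'
  refine ⟨τ, ?_⟩
  have hF1 : IsArithFrobAt ℤ (AlgEquiv.restrictNormalHom L φ) (primeOf L P) :=
    isArithFrobAt_restrict L hl hP hφ
  have hF2 : IsArithFrobAt ℤ (τ' * σ * τ'⁻¹) (primeOf L P) := hτ' ▸ hfrob.conj τ'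
  have h1 := hF1.mul_inv_mem_inertia hF2
  rw [← hτ', inertia_smul_eq_bot L 𝔓 hin τ', Subgroup.mem_bot] at h1
  rw [map_mul, map_mul, map_inv, hτ, hφ₀]
  exact mul_inv_eq_one.mp h1

end AllP2

/-! ### (G5) the glue -/

section Glue

open Fermat.Agent.N4.FrobDensity Fermat.Agent.S54

local notation "Qbar" => AlgebraicClosure ℚ
local notation "Γ" => (AlgebraicClosure ℚ ≃ₐ[ℚ] AlgebraicClosure ℚ)

local instance isAlgebraicQbar_FG2 : Algebra.IsAlgebraic ℚ (AlgebraicClosure ℚ) :=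
  AlgebraicClosure.isAlgebraic ℚ
local instance isAlgClosureQbar_FG2 : IsAlgClosure ℚ (AlgebraicClosure ℚ) :=
  ⟨inferInstance, inferInstance⟩
local instance normalQbar_FG2 : Normal ℚ (AlgebraicClosure ℚ) :=
  IsAlgClosure.normal ℚ (AlgebraicClosure ℚ)

variable (L : IntermediateField ℚ Qbar) [FiniteDimensional ℚ L] [Normal ℚ L]

/-- two elements of `Gal(ℚ̄/ℚ)` with the same restriction to `L` differ by an element of `G_L` -/
theorem exists_mul_of_restrict_eq {x y : Γ}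
    (h : AlgEquiv.restrictNormalHom L x = AlgEquiv.restrictNormalHom L y) :
    ∃ z : Γ, AlgEquiv.restrictNormalHom L z = 1 ∧ x = y * z :=
  ⟨y⁻¹ * x, by rw [map_mul, map_inv, h, inv_mul_cancel], by group⟩

/-- elements with the same restriction to `L` agree on `L` -/
theorem apply_eq_of_restrict_eq {x y : Γ}
    (h : AlgEquiv.restrictNormalHom L x = AlgEquiv.restrictNormalHom L y) {a : Qbar} (ha : a ∈ L) :
    x a = y a := by
  have h1 := AlgEquiv.restrictNormal_commutes x L ⟨a, ha⟩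
  have h2 := AlgEquiv.restrictNormal_commutes y L ⟨a, ha⟩
  have h3 : (AlgEquiv.restrictNormalHom L x) ⟨a, ha⟩ = (AlgEquiv.restrictNormalHom L y) ⟨a, ha⟩ := by
    rw [h]
  exact h1.symm.trans ((congrArg (algebraMap L Qbar) h3).trans h2)

variable {M : Type*} [AddCommGroup M] [DistribMulAction Γ M]

theorem smul_eq_of_restrict_eq
    (hML : ∀ σ : Γ, AlgEquiv.restrictNormalHom L σ = 1 → ∀ m : M, σ • m = m) {x y : Γ}
    (h : AlgEquiv.restrictNormalHom L x = AlgEquiv.restrictNormalHom L y) (m : M) :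
    x • m = y • m := by
  obtain ⟨z, hz, rfl⟩ := exists_mul_of_restrict_eq L h
  rw [mul_smul, hML z hz]

theorem coc_eq_of_restrict_eq {ψ : Γ → M} (hψ : IsCoc ψ)
    (hψL : ∀ σ : Γ, AlgEquiv.restrictNormalHom L σ = 1 → ψ σ = 0) {x y : Γ}
    (h : AlgEquiv.restrictNormalHom L x = AlgEquiv.restrictNormalHom L y) : ψ x = ψ y := by
  obtain ⟨z, hz, rfl⟩ := exists_mul_of_restrict_eq L h
  rw [hψ, hψL z hz, smul_zero, add_zero]

theorem isCobAt_iff_of_restrict_eq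
    (hML : ∀ σ : Γ, AlgEquiv.restrictNormalHom L σ = 1 → ∀ m : M, σ • m = m)
    {ψ : Γ → M} (hψ : IsCoc ψ)
    (hψL : ∀ σ : Γ, AlgEquiv.restrictNormalHom L σ = 1 → ψ σ = 0) {x y : Γ}
    (h : AlgEquiv.restrictNormalHom L x = AlgEquiv.restrictNormalHom L y) :
    IsCobAt ψ x ↔ IsCobAt ψ y := by
  unfold IsCobAt
  simp only [coc_eq_of_restrict_eq L hψ hψL h, smul_eq_of_restrict_eq L hML h]

/-- `ρ̄` depends only on the restriction to `L` -/
theorem rho_eq_of_restrict_eq {k : Type} [Field k] (ρbar : ResidualGaloisRep k)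
    (hρL : ∀ σ : Γ, AlgEquiv.restrictNormalHom L σ = 1 → ρbar.ρ σ = 1) {x y : Γ}
    (h : AlgEquiv.restrictNormalHom L x = AlgEquiv.restrictNormalHom L y) :
    ρbar.ρ x = ρbar.ρ y := by
  obtain ⟨z, hz, rfl⟩ := exists_mul_of_restrict_eq L h
  rw [map_mul, hρL z hz, mul_one]

/-- the characteristic polynomial of `ρ̄` is a class function -/
theorem charpoly_rho_conj {k : Type} [Field k] (ρbar : ResidualGaloisRep k) (τ g : Γ) :
    LinearMap.charpoly (ρbar.ρ (τ * g * τ⁻¹)) = LinearMap.charpoly (ρbar.ρ g) := by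
  have h1 : (ρbar.ρ τ).comp (ρbar.ρ τ⁻¹) = LinearMap.id := by
    rw [← Module.End.mul_eq_comp, ← map_mul, mul_inv_cancel, map_one]; rfl
  have h2 : (ρbar.ρ τ⁻¹).comp (ρbar.ρ τ) = LinearMap.id := by
    rw [← Module.End.mul_eq_comp, ← map_mul, inv_mul_cancel, map_one]; rfl
  let e : ρbar.V ≃ₗ[k] ρbar.V := LinearEquiv.ofLinearMap (ρbar.ρ τ) (ρbar.ρ τ⁻¹) h1 h2
  have h3 : ρbar.ρ (τ * g * τ⁻¹) = e.conj (ρbar.ρ g) := by
    rw [map_mul, map_mul]
    rfl
  rw [h3, LinearEquiv.charpoly_conj]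

/-- an element of `Gal(ℚ̄/ℚ)` fixing `ζ` has all its integral powers fixing `ζ` -/
theorem zpow_apply_eq_self {σ : Γ} {ζ : Qbar} (h : σ ζ = ζ) (i : ℤ) : (σ ^ i) ζ = ζ := by
  have h1 : σ ∈ MulAction.stabilizer Γ ζ := MulAction.mem_stabilizer_iff.mpr h
  exact MulAction.mem_stabilizer_iff.mp (Subgroup.zpow_mem _ h1 i)

/-- **(G5) The glue for Taylor–Wiles primes.**  Let `L ⊂ ℚ̄` be finite Galois over `ℚ`, containing
`μ_{p^(n+1)}`, such that `ρ̄`, the action on `M` and the cocycle `ψ` all factor through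
`Gal(L/ℚ)`.  If some `σ₀ ∈ Gal(ℚ̄/ℚ)` fixes `μ_{p^(n+1)}`, has `ρ̄ σ₀` with distinct eigenvalues
and `ψ σ₀ ∉ (σ₀ - 1) M`, then there is a prime `q ∉ T`, `q ≡ 1 (p^(n+1))`, such that EVERY Frobenius
element `φ` at EVERY valuation subring over `q` has the last two properties. -/
theorem exists_tw_prime {k : Type} [Field k] (ρbar : ResidualGaloisRep k)
    (hsplit : ∀ σ : Γ, ∃ α β : k, LinearMap.charpoly (ρbar.ρ σ) = (X - C α) * (X - C β))
    {p : ℕ} (hp : p.Prime) (n : ℕ)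
    (hρL : ∀ σ : Γ, AlgEquiv.restrictNormalHom L σ = 1 → ρbar.ρ σ = 1)
    (hζL : ∀ ζ : Qbar, ζ ^ p ^ (n + 1) = 1 → ζ ∈ L)
    (hML : ∀ σ : Γ, AlgEquiv.restrictNormalHom L σ = 1 → ∀ m : M, σ • m = m)
    {ψ : Γ → M} (hψ : IsCoc ψ)
    (hψL : ∀ σ : Γ, AlgEquiv.restrictNormalHom L σ = 1 → ψ σ = 0)
    (σ₀ : Γ) (h1 : ∀ ζ : Qbar, ζ ^ p ^ (n + 1) = 1 → σ₀ ζ = ζ)
    (h2 : ∃ α β : k, α ≠ β ∧ LinearMap.charpoly (ρbar.ρ σ₀) = (X - C α) * (X - C β))
    (h3 : ¬ IsCobAt ψ σ₀) (T : Finset ℕ) (hpT : p ∈ T) :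
    ∃ q : ℕ, q.Prime ∧ q ∉ T ∧ p ^ (n + 1) ∣ q - 1 ∧
      ∀ P : ValuationSubring Qbar, P.LiesOverPrime q → ∀ φ : Γ, P.IsFrobeniusAt φ q →
        (∃ α β : k, α ≠ β ∧ LinearMap.charpoly (ρbar.ρ φ) = (X - C α) * (X - C β)) ∧
          ¬ IsCobAt ψ φ := by
  classical
  obtain ⟨l, hl, hlT, φ₀, hz, hall⟩ := exists_prime_forall_frob L σ₀ T
  have hlp : l ≠ p := fun h => hlT (h ▸ hpT)
  -- `σ₀|_L` is a natural power of `φ₀|_L`, and `φ₀|_L` an integral power of `σ₀|_L`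
  have hmem1 : AlgEquiv.restrictNormalHom L σ₀
      ∈ Subgroup.zpowers (AlgEquiv.restrictNormalHom L φ₀) := by
    rw [hz]; exact Subgroup.mem_zpowers _
  have hmem2 : AlgEquiv.restrictNormalHom L φ₀
      ∈ Subgroup.zpowers (AlgEquiv.restrictNormalHom L σ₀) := by
    rw [← hz]; exact Subgroup.mem_zpowers _
  obtain ⟨j, hj⟩ := (Submonoid.mem_powers_iff _ _).mp (mem_powers_iff_mem_zpowers.mpr hmem1)
  obtain ⟨i, hi⟩ := Subgroup.mem_zpowers_iff.mp hmem2
  have hj' : AlgEquiv.restrictNormalHom L (φ₀ ^ j) = AlgEquiv.restrictNormalHom L σ₀ := by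
    rw [map_pow, hj]
  have hi' : AlgEquiv.restrictNormalHom L φ₀ = AlgEquiv.restrictNormalHom L (σ₀ ^ i) := by
    rw [map_zpow, hi]
  -- (a) `φ₀`, hence every Frobenius element over `l`, fixes `μ_{p^(n+1)}`
  have hfix0 : ∀ ζ : Qbar, ζ ^ p ^ (n + 1) = 1 → φ₀ ζ = ζ := fun ζ hζ => by
    rw [apply_eq_of_restrict_eq L hi' (hζL ζ hζ)]
    exact zpow_apply_eq_self (h1 ζ hζ) i
  have hfix : ∀ P : ValuationSubring Qbar, P.LiesOverPrime l → ∀ φ : Γ, P.IsFrobeniusAt φ l →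
      ∀ ζ : Qbar, ζ ^ p ^ (n + 1) = 1 → φ ζ = ζ := fun P hP φ hφ ζ hζ => by
    obtain ⟨τ, hτ⟩ := hall P hP φ hφ
    rw [apply_eq_of_restrict_eq L hτ (hζL ζ hζ), AlgEquiv.mul_apply, AlgEquiv.mul_apply]
    have hζ' : (τ⁻¹ ζ) ^ p ^ (n + 1) = 1 := by rw [← map_pow, hζ, map_one]
    rw [hfix0 _ hζ', ← AlgEquiv.mul_apply, mul_inv_cancel, AlgEquiv.one_apply]
  obtain ⟨P₁, φ₁, hP₁, hφ₁⟩ := exists_isFrobeniusAt l hl
  have hdvd : p ^ (n + 1) ∣ l - 1 :=
    dvd_sub_one_of_isFrobeniusAt hp n hl hlp hP₁ hφ₁ (hfix P₁ hP₁ φ₁ hφ₁)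
  -- (b) `ρ̄ φ₀` has distinct eigenvalues
  obtain ⟨a, b, hab, hσ₀⟩ := h2
  obtain ⟨α, β, hαβ⟩ := hsplit φ₀
  have hρj : ρbar.ρ σ₀ = (ρbar.ρ φ₀) ^ j := by
    rw [← map_pow]
    exact (rho_eq_of_restrict_eq L ρbar hρL hj').symm
  have hne : α ≠ β := ne_of_charpoly_pow (ρbar.ρ φ₀) j hαβ (hρj ▸ hσ₀) hab
  -- (c) `ψ` is not a coboundary at `φ₀`
  have hcob0 : ¬ IsCobAt ψ φ₀ := by
    rintro ⟨m, hm⟩
    apply h3
    have h4 : IsCobAt ψ (φ₀ ^ j) :=
      ⟨m, cocycle_zpowers hψ (Subgroup.pow_mem _ (Subgroup.mem_zpowers φ₀) j) m hm⟩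
    exact (isCobAt_iff_of_restrict_eq L hML hψ hψL hj').mp h4
  refine ⟨l, hl, hlT, hdvd, fun P hP φ hφ => ?_⟩
  obtain ⟨τ, hτ⟩ := hall P hP φ hφ
  refine ⟨⟨α, β, hne, ?_⟩, ?_⟩
  · rw [rho_eq_of_restrict_eq L ρbar hρL hτ, charpoly_rho_conj, hαβ]
  · rw [isCobAt_iff_of_restrict_eq L hML hψ hψL hτ, isCobAt_conj hψ]
    exact hcob0

end Glue

/-! ### (G5') the glue, level-free form -/

section Glue'

open Fermat.Agent.N4.FrobDensity Fermat.Agent.S54

local notation "Qbar" => AlgebraicClosure ℚ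
local notation "Γ" => (AlgebraicClosure ℚ ≃ₐ[ℚ] AlgebraicClosure ℚ)

local instance isAlgebraicQbar_FG3 : Algebra.IsAlgebraic ℚ (AlgebraicClosure ℚ) :=
  AlgebraicClosure.isAlgebraic ℚ
local instance isAlgClosureQbar_FG3 : IsAlgClosure ℚ (AlgebraicClosure ℚ) :=
  ⟨inferInstance, inferInstance⟩
local instance normalQbar_FG3 : Normal ℚ (AlgebraicClosure ℚ) :=
  IsAlgClosure.normal ℚ (AlgebraicClosure ℚ)

variable {M : Type*} [AddCommGroup M] [DistribMulAction Γ M]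

/-- **(G5') The glue for Taylor–Wiles primes, level-free form**: as `exists_tw_prime`, with
`ρ̄`, the action on `M` and the cocycle `ψ` trivial on the elements of `Gal(ℚ̄/ℚ)` fixing pointwise
an arbitrary finite extension `L₀ ⊂ ℚ̄` of `ℚ` (not necessarily normal, nor containing roots of
unity) — the shape of `GaloisFactorsThroughFiniteLevel`. -/
theorem exists_tw_prime_of_level {k : Type} [Field k] (ρbar : ResidualGaloisRep k)
    (hsplit : ∀ σ : Γ, ∃ α β : k, LinearMap.charpoly (ρbar.ρ σ) = (X - C α) * (X - C β))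
    {p : ℕ} (hp : p.Prime) (n : ℕ)
    (L₀ : IntermediateField ℚ Qbar) [FiniteDimensional ℚ L₀]
    (hρL : ∀ σ : Γ, (∀ x ∈ L₀, σ x = x) → ρbar.ρ σ = 1)
    (hML : ∀ σ : Γ, (∀ x ∈ L₀, σ x = x) → ∀ m : M, σ • m = m)
    {ψ : Γ → M} (hψ : IsCoc ψ)
    (hψL : ∀ σ : Γ, (∀ x ∈ L₀, σ x = x) → ψ σ = 0)
    (σ₀ : Γ) (h1 : ∀ ζ : Qbar, ζ ^ p ^ (n + 1) = 1 → σ₀ ζ = ζ)
    (h2 : ∃ α β : k, α ≠ β ∧ LinearMap.charpoly (ρbar.ρ σ₀) = (X - C α) * (X - C β))
    (h3 : ¬ IsCobAt ψ σ₀) (T : Finset ℕ) (hpT : p ∈ T) :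
    ∃ q : ℕ, q.Prime ∧ q ∉ T ∧ p ^ (n + 1) ∣ q - 1 ∧
      ∀ P : ValuationSubring Qbar, P.LiesOverPrime q → ∀ φ : Γ, P.IsFrobeniusAt φ q →
        (∃ α β : k, α ≠ β ∧ LinearMap.charpoly (ρbar.ρ φ) = (X - C α) * (X - C β)) ∧
          ¬ IsCobAt ψ φ := by
  have hN : p ^ (n + 1) ≠ 0 := pow_ne_zero _ hp.ne_zero
  have : NeZero ((p ^ (n + 1) : ℕ) : Qbar) := ⟨by exact_mod_cast hN⟩
  obtain ⟨ζ, hζ⟩ := HasEnoughRootsOfUnity.exists_primitiveRoot Qbar (p ^ (n + 1))
  have hζint : IsIntegral ℚ ζ := Algebra.IsIntegral.isIntegral ζ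
  have : FiniteDimensional ℚ (IntermediateField.adjoin ℚ {ζ}) :=
    IntermediateField.adjoin.finiteDimensional hζint
  have hfd1 : FiniteDimensional ℚ (L₀ ⊔ IntermediateField.adjoin ℚ {ζ} : IntermediateField ℚ Qbar) :=
    IntermediateField.finiteDimensional_sup _ _
  have hle : (L₀ ⊔ IntermediateField.adjoin ℚ {ζ} : IntermediateField ℚ Qbar)
      ≤ IntermediateField.normalClosure ℚ
        (L₀ ⊔ IntermediateField.adjoin ℚ {ζ} : IntermediateField ℚ Qbar) Qbar :=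
    IntermediateField.le_normalClosure _
  have hnorm := normal_normalClosure_rat (L₀ ⊔ IntermediateField.adjoin ℚ {ζ})
  have hfd : FiniteDimensional ℚ (IntermediateField.normalClosure ℚ
      (L₀ ⊔ IntermediateField.adjoin ℚ {ζ} : IntermediateField ℚ Qbar) Qbar) := inferInstance
  have hL₀ : ∀ σ : Γ, AlgEquiv.restrictNormalHom (IntermediateField.normalClosure ℚ
      (L₀ ⊔ IntermediateField.adjoin ℚ {ζ} : IntermediateField ℚ Qbar) Qbar) σ = 1 →
      ∀ x ∈ L₀, σ x = x := fun σ hσ x hx =>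
    apply_eq_of_restrictNormalHom_eq_one _ hσ (hle (le_sup_left (a := L₀) hx))
  have hζmem : ∀ ζ' : Qbar, ζ' ^ p ^ (n + 1) = 1 → ζ' ∈ IntermediateField.normalClosure ℚ
      (L₀ ⊔ IntermediateField.adjoin ℚ {ζ} : IntermediateField ℚ Qbar) Qbar := fun ζ' hζ' => by
    have : NeZero (p ^ (n + 1)) := ⟨hN⟩
    obtain ⟨i, -, rfl⟩ := hζ.eq_pow_of_pow_eq_one hζ'
    exact pow_mem (hle (le_sup_right (a := L₀)
      (IntermediateField.mem_adjoin_simple_self ℚ ζ))) i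
  exact exists_tw_prime _ ρbar hsplit hp n (fun σ hσ => hρL σ (hL₀ σ hσ)) hζmem
    (fun σ hσ => hML σ (hL₀ σ hσ)) hψ (fun σ hσ => hψL σ (hL₀ σ hσ)) σ₀ h1 h2 h3 T hpT

end Glue'

end Fermat.Agent.S56.TW.FrobGlue
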