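/-
S56 / block (IV.3) (helper23): the ONE-CLASS STEP of the selection of Taylor–Wiles primes, in the
vocabulary of the prelude (`Rep`, `cocycles₁`, `IsLevelConstant₁`), on top of `TW/FrobGlue`.

* `eq_zero_of_commute_of_conj_sub` : for `s` with two distinct eigenvalues, the conjugation action of
  `s` on endomorphisms is semisimple at the eigenvalue `1`: `x s = s x`, `x = s y s⁻¹ - y` ⇒ `x = 0`;
  `not_exists_eq_sub_of_fixed` : hence a non-zero vector of `ad⁰` fixed by `σ` is not in `(σ - 1) ad⁰`;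
* `not_isCobAt_or_mul` : the abstract one-class step — if `τ` acts trivially and
  `ψ τ ∉ (σ - 1) M`, then `ψ` is not a coboundary at `σ` or at `τ σ`;
* `exists_tw_prime_repn`, `exists_tw_prime_rep` : `FrobGlue.exists_tw_prime_of_level` for a
  `Representation` / a `Rep` and a level-constant `1`-cocycle (the cocycles of `continuousH1`);
* `exists_tw_prime_of_class` : the one-class step: from `σ` (fixing `μ_{p^(n+1)}`, `ρ̄ σ` with
  distinct eigenvalues) and `τ` (trivial on `μ_{p^(n+1)}`, on `ρ̄` and on `W`) with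
  `c τ ∉ (σ - 1) W` to a Taylor–Wiles prime `q` at which the class of `c` does not die.
-/
import Mathlib
import Fermat.Prelude.Def_GaloisRep_Residual
import Fermat.Prelude.Def_GroupCohomology_ContinuousH2
import Fermat.Agent.S56.TW.FrobGlue

set_option autoImplicit false
set_option linter.unusedSectionVars false

open Polynomial

namespace Fermat.Agent.S56.TW.OneClass

open Fermat.Agent.S56.TW.FrobGlue

/-! ### (O1) semisimplicity of the conjugation action at the eigenvalue `1` -/

section Conj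

variable {k A : Type*} [Field k] [Ring A] [Algebra k A]

/-- auxiliary: if `E s = a E`, `E = a (t E)` with `a` central, then `E (s y t - y) E = 0`. -/
theorem mul_conj_sub_mul_eq_zero {A : Type*} [Ring A] {E s t a : A} (h1 : E * s = a * E)
    (h5 : E = a * (t * E)) (hc : ∀ z : A, a * z = z * a) (y : A) :
    E * (s * y * t - y) * E = 0 := by
  calc E * (s * y * t - y) * E = (E * s) * y * (t * E) - E * y * E := by noncomm_ring
    _ = (a * E) * y * (t * E) - E * y * E := by rw [h1]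
    _ = (a * (E * y)) * (t * E) - E * y * E := by noncomm_ring
    _ = ((E * y) * a) * (t * E) - E * y * E := by rw [hc (E * y)]
    _ = (E * y) * (a * (t * E)) - E * y * E := by noncomm_ring
    _ = (E * y) * E - E * y * E := by rw [← h5]
    _ = 0 := sub_self _

/-- Let `s` be invertible with `(s - α)(s - β) = 0`, `α ≠ β`.  If `x` commutes with `s` and
`x = s y s⁻¹ - y`, then `x = 0`: the fixed space of `Ad s` meets `(Ad s - 1) A` trivially. -/
theorem eq_zero_of_commute_of_conj_sub {s t : A} (hts : t * s = 1) {α β : k}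
    (hαβ : α ≠ β)
    (hs : (s - algebraMap k A α) * (s - algebraMap k A β) = 0) {x y : A} (hx : x * s = s * x)
    (hxy : x = s * y * t - y) : x = 0 := by
  set a : A := algebraMap k A α with ha
  set b : A := algebraMap k A β with hb
  have ca : ∀ z : A, Commute a z := fun z => Algebra.commutes α z
  have cb : ∀ z : A, Commute b z := fun z => Algebra.commutes β z
  have cE : Commute (s - a) (s - b) := ((Commute.refl s).sub_right (cb s).symm).sub_left (ca _)
  have hs' : (s - b) * (s - a) = 0 := by rw [← cE.eq, hs]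
  -- `(s - b) s = a (s - b)`, `(s - a) s = b (s - a)`
  have h1 : (s - b) * s = a * (s - b) := by
    have h : (s - b) * (s - a) = (s - b) * s - a * (s - b) := by
      rw [mul_sub, (ca (s - b)).eq]
    rw [h, sub_eq_zero] at hs'; exact hs'
  have h3 : (s - a) * s = b * (s - a) := by
    have h : (s - a) * (s - b) = (s - a) * s - b * (s - a) := by
      rw [mul_sub, (cb (s - a)).eq]
    rw [h, sub_eq_zero] at hs; exact hs
  have h2 : s * (s - b) = a * (s - b) := by
    rw [← h1]; exact ((Commute.refl s).sub_right (cb s).symm).eq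
  have h4 : s * (s - a) = b * (s - a) := by
    rw [← h3]; exact ((Commute.refl s).sub_right (ca s).symm).eq
  -- `(s - b) = a t (s - b)`, `(s - a) = b t (s - a)`
  have h5 : s - b = a * (t * (s - b)) := by
    calc s - b = t * s * (s - b) := by rw [hts, one_mul]
      _ = t * (a * (s - b)) := by rw [mul_assoc, h2]
      _ = a * (t * (s - b)) := by rw [← mul_assoc, ← (ca t).eq, mul_assoc]
  have h6 : s - a = b * (t * (s - a)) := by
    calc s - a = t * s * (s - a) := by rw [hts, one_mul]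
      _ = t * (b * (s - a)) := by rw [mul_assoc, h4]
      _ = b * (t * (s - a)) := by rw [← mul_assoc, ← (cb t).eq, mul_assoc]
  have h7 : (s - b) * x * (s - b) = 0 := by
    rw [hxy]; exact mul_conj_sub_mul_eq_zero h1 h5 (fun z => (ca z).eq) y
  have h8 : (s - a) * x * (s - a) = 0 := by
    rw [hxy]; exact mul_conj_sub_mul_eq_zero h3 h6 (fun z => (cb z).eq) y
  -- `x` commutes with `s - a`, `s - b`
  have hxa : x * (s - a) = (s - a) * x := by rw [mul_sub, sub_mul, hx, (ca x).eq]
  have hxb : x * (s - b) = (s - b) * x := by rw [mul_sub, sub_mul, hx, (cb x).eq]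
  have h9 : x * ((s - b) * (s - b)) = 0 := by rw [← mul_assoc, hxb, h7]
  have h10 : x * ((s - a) * (s - a)) = 0 := by rw [← mul_assoc, hxa, h8]
  have h11 : x * ((s - a) * (s - b)) = 0 := by rw [hs, mul_zero]
  have h12 : x * ((s - b) * (s - a)) = 0 := by rw [hs', mul_zero]
  have h13 : x * ((a - b) * (a - b)) = 0 := by
    have : (a - b) * (a - b)
        = (s - b) * (s - b) - (s - b) * (s - a) - (s - a) * (s - b) + (s - a) * (s - a) := by
      noncomm_ring
    rw [this, mul_add, mul_sub, mul_sub, h9, h10, h11, h12]; simp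
  have h14 : (a - b) * (a - b) = algebraMap k A ((α - β) * (α - β)) := by
    rw [map_mul, map_sub]
  have hne : (α - β) * (α - β) ≠ 0 := mul_ne_zero (sub_ne_zero.mpr hαβ) (sub_ne_zero.mpr hαβ)
  rw [h14, Algebra.algebraMap_eq_smul_one, mul_smul_comm, mul_one] at h13
  exact (smul_eq_zero.mp h13).resolve_left hne

/-- The same for endomorphisms of a finite-dimensional space, in terms of the characteristic
polynomial (the shape of the frozen S56 clause). -/
theorem eq_zero_of_commute_of_conj_sub_end {V : Type*} [AddCommGroup V] [Module k V]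
    [Module.Finite k V] {s t : Module.End k V} (hts : t * s = 1) {α β : k}
    (hαβ : α ≠ β) (hs : LinearMap.charpoly s = (X - C α) * (X - C β)) {x y : Module.End k V}
    (hx : x * s = s * x) (hxy : x = s * y * t - y) : x = 0 := by
  refine eq_zero_of_commute_of_conj_sub hts hαβ ?_ hx hxy
  have h := LinearMap.aeval_self_charpoly s
  rw [hs, map_mul, map_sub, map_sub, aeval_X, aeval_C, aeval_C] at h
  exact h

/-- **Transported form**: let `f` be an additive endomorphism of `W` which, under an injective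
additive map `ι : W → End V`, is conjugation by an `s` with two distinct eigenvalues (e.g.
`W = ad⁰ρ̄(1)`, `f` the action of `σ ∈ G_{ℚ(ζ_p)}`, `s = ρ̄ σ`).  Then a non-zero fixed vector of `f`
does not lie in `(f - 1) W`. -/
theorem not_exists_eq_sub_of_fixed {V W : Type*} [AddCommGroup V] [Module k V]
    [Module.Finite k V] [AddCommGroup W] (ι : W →+ Module.End k V) (hι : Function.Injective ι)
    {s t : Module.End k V} (hts : t * s = 1) {α β : k} (hαβ : α ≠ β)
    (hs : LinearMap.charpoly s = (X - C α) * (X - C β)) (f : W → W)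
    (hf : ∀ w : W, ι (f w) = s * ι w * t) {x : W} (hx0 : x ≠ 0) (hfx : f x = x) :
    ¬ ∃ m : W, x = f m - m := by
  rintro ⟨m, hm⟩
  apply hx0
  apply hι
  rw [map_zero]
  have hcomm : ι x * s = s * ι x := by
    have h := hf x
    rw [hfx] at h
    calc ι x * s = s * ι x * t * s := by rw [← h]
      _ = s * ι x * (t * s) := by rw [mul_assoc]
      _ = s * ι x := by rw [hts, mul_one]
  refine eq_zero_of_commute_of_conj_sub_end hts hαβ hs hcomm (y := ι m) ?_
  rw [← hf m, ← map_sub, ← hm]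

end Conj

/-! ### (O2) the abstract one-class step -/

section Abstract

variable {G M : Type*} [Group G] [AddCommGroup M] [DistribMulAction G M]

/-- **The one-class step, abstract form.**  If `τ` acts trivially on `M` and
`ψ τ ∉ (σ - 1) M`, then `ψ` is not a coboundary at `σ` or not a coboundary at `τ * σ`. -/
theorem not_isCobAt_or_mul {ψ : G → M} (hψ : IsCoc ψ) {σ τ : G} (hτ : ∀ m : M, τ • m = m)
    (h : ¬ ∃ m : M, ψ τ = σ • m - m) : ¬ IsCobAt ψ σ ∨ ¬ IsCobAt ψ (τ * σ) := by
  by_contra hcon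
  rw [not_or, not_not, not_not] at hcon
  obtain ⟨⟨m, hm⟩, ⟨m', hm'⟩⟩ := hcon
  apply h
  refine ⟨m' - m, ?_⟩
  rw [hψ, hτ, mul_smul, hτ, hm] at hm'
  rw [smul_sub]
  have : ψ τ = (σ • m' - m') - (σ • m - m) := by rw [← hm']; abel
  rw [this]; abel

end Abstract

/-! ### (O3) the glue in the vocabulary of the prelude -/

section Prelude

open groupCohomology

local notation "Qbar" => AlgebraicClosure ℚ
local notation "Γ" => (AlgebraicClosure ℚ ≃ₐ[ℚ] AlgebraicClosure ℚ)

variable {R : Type*} [CommRing R] {V : Type*} [AddCommGroup V] [Module R V]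

/-- the `DistribMulAction` of a representation -/
@[reducible] def actionOfRepn {G : Type*} [Monoid G] (π : Representation R G V) :
    DistribMulAction G V where
  smul g v := π g v
  one_smul v := by change π 1 v = v; rw [map_one]; rfl
  mul_smul g h v := by change π (g * h) v = π g (π h v); rw [map_mul]; rfl
  smul_zero g := map_zero (π g)
  smul_add g v w := map_add (π g) v w

/-- **The glue for Taylor–Wiles primes, `Representation` form**: `FrobGlue.exists_tw_prime_of_level`
for a representation `π` of `Gal(ℚ̄/ℚ)` trivial on an open subgroup and a level-constant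
`1`-cocycle `ψ` (Mathlib's convention `ψ (g h) = π g (ψ h) + ψ g`); the level of `ρ̄` is taken from
`ρbar.factorsThroughFiniteLevel`. -/
theorem exists_tw_prime_repn (π : Representation R Γ V)
    {k : Type} [Field k] (ρbar : ResidualGaloisRep k)
    (hsplit : ∀ σ : Γ, ∃ α β : k, LinearMap.charpoly (ρbar.ρ σ) = (X - C α) * (X - C β))
    {p : ℕ} (hp : p.Prime) (n : ℕ)
    (hπ : ∃ F : IntermediateField ℚ Qbar, FiniteDimensional ℚ F ∧
      ∀ s ∈ F.fixingSubgroup, π s = 1)
    {ψ : Γ → V} (hψ : ∀ g h : Γ, ψ (g * h) = π g (ψ h) + ψ g)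
    (hψc : IsLevelConstant₁ (MonoidHom.id Γ) ψ)
    (σ₀ : Γ) (h1 : ∀ ζ : Qbar, ζ ^ p ^ (n + 1) = 1 → σ₀ ζ = ζ)
    (h2 : ∃ α β : k, α ≠ β ∧ LinearMap.charpoly (ρbar.ρ σ₀) = (X - C α) * (X - C β))
    (h3 : ¬ ∃ m : V, ψ σ₀ = π σ₀ m - m) (T : Finset ℕ) (hpT : p ∈ T) :
    ∃ q : ℕ, q.Prime ∧ q ∉ T ∧ p ^ (n + 1) ∣ q - 1 ∧
      ∀ P : ValuationSubring Qbar, P.LiesOverPrime q → ∀ φ : Γ, P.IsFrobeniusAt φ q →
        (∃ α β : k, α ≠ β ∧ LinearMap.charpoly (ρbar.ρ φ) = (X - C α) * (X - C β)) ∧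
          ¬ ∃ m : V, ψ φ = π φ m - m := by
  obtain ⟨F₁, hF₁, hπ₁⟩ := hπ
  obtain ⟨F₂, hF₂, hψ₂⟩ := hψc
  obtain ⟨F₃, hF₃, hρ₃⟩ := ρbar.factorsThroughFiniteLevel
  have hfd : FiniteDimensional ℚ (F₁ ⊔ F₂ ⊔ F₃ : IntermediateField ℚ Qbar) := by
    have : FiniteDimensional ℚ (F₁ ⊔ F₂ : IntermediateField ℚ Qbar) :=
      IntermediateField.finiteDimensional_sup _ _
    exact IntermediateField.finiteDimensional_sup _ _
  let _inst : DistribMulAction Γ V := actionOfRepn π
  have hcoc : IsCoc ψ := fun g h => by rw [hψ, add_comm]; rfl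
  have hψ1 : ψ 1 = 0 := hcoc.map_one
  have key := exists_tw_prime_of_level (M := V) ρbar hsplit hp n
    (F₁ ⊔ F₂ ⊔ F₃ : IntermediateField ℚ Qbar)
    (fun σ hσ => hρ₃ σ fun x hx => hσ x (le_sup_right (a := F₁ ⊔ F₂) hx))
    (fun σ hσ m => by
      have hmem : σ ∈ F₁.fixingSubgroup := (IntermediateField.mem_fixingSubgroup_iff _ _).mpr
        fun x hx => hσ x (le_sup_left (b := F₃) (le_sup_left (b := F₂) hx))
      change π σ m = m
      rw [hπ₁ σ hmem]; rfl)
    hcoc
    (fun σ hσ => by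
      have hmem : σ ∈ F₂.fixingSubgroup := (IntermediateField.mem_fixingSubgroup_iff _ _).mpr
        fun x hx => hσ x (le_sup_left (b := F₃) (le_sup_right (a := F₁) hx))
      have := hψ₂ 1 σ hmem
      rw [one_mul, hψ1] at this
      exact this)
    σ₀ h1 h2 h3 T hpT
  exact key

/-- **The glue for Taylor–Wiles primes, `Rep` form**: for `W : Rep R Gal(ℚ̄/ℚ)` and a level-constant
`c : cocycles₁ W` (the representatives of the classes of the prelude's `continuousH1`). -/
theorem exists_tw_prime_rep {R : Type} [CommRing R] (W : Rep R Γ)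
    {k : Type} [Field k] (ρbar : ResidualGaloisRep k)
    (hsplit : ∀ σ : Γ, ∃ α β : k, LinearMap.charpoly (ρbar.ρ σ) = (X - C α) * (X - C β))
    {p : ℕ} (hp : p.Prime) (n : ℕ)
    (hW : ∃ F : IntermediateField ℚ Qbar, FiniteDimensional ℚ F ∧
      ∀ s ∈ F.fixingSubgroup, W.ρ s = 1)
    (c : cocycles₁ W) (hc : IsLevelConstant₁ (MonoidHom.id Γ) c)
    (σ₀ : Γ) (h1 : ∀ ζ : Qbar, ζ ^ p ^ (n + 1) = 1 → σ₀ ζ = ζ)
    (h2 : ∃ α β : k, α ≠ β ∧ LinearMap.charpoly (ρbar.ρ σ₀) = (X - C α) * (X - C β))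
    (h3 : ¬ ∃ m : W, c σ₀ = W.ρ σ₀ m - m) (T : Finset ℕ) (hpT : p ∈ T) :
    ∃ q : ℕ, q.Prime ∧ q ∉ T ∧ p ^ (n + 1) ∣ q - 1 ∧
      ∀ P : ValuationSubring Qbar, P.LiesOverPrime q → ∀ φ : Γ, P.IsFrobeniusAt φ q →
        (∃ α β : k, α ≠ β ∧ LinearMap.charpoly (ρbar.ρ φ) = (X - C α) * (X - C β)) ∧
          ¬ ∃ m : W, c φ = W.ρ φ m - m :=
  exists_tw_prime_repn W.ρ ρbar hsplit hp n hW ((mem_cocycles₁_iff (c : Γ → W)).mp c.2) hc σ₀ h1 h2
    h3 T hpT

/-- **(IV.3) The one-class step.**  Let `ψ` be a level-constant `1`-cocycle with values in a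
representation `π` of `Gal(ℚ̄/ℚ)` trivial on an open subgroup.  Given `σ` fixing `μ_{p^(n+1)}` with
`ρ̄ σ` having two distinct eigenvalues, and `τ` trivial on `μ_{p^(n+1)}`, on `ρ̄` and on `π` with
`ψ τ ∉ (π σ - 1) V`, there is a prime `q ∉ T`, `q ≡ 1 (p^(n+1))`, such that every Frobenius element
`φ` at every valuation subring over `q` has `ρ̄ φ` with two distinct eigenvalues and
`ψ φ ∉ (π φ - 1) V`. -/
theorem exists_tw_prime_of_class (π : Representation R Γ V)
    {k : Type} [Field k] (ρbar : ResidualGaloisRep k)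
    (hsplit : ∀ σ : Γ, ∃ α β : k, LinearMap.charpoly (ρbar.ρ σ) = (X - C α) * (X - C β))
    {p : ℕ} (hp : p.Prime) (n : ℕ)
    (hπ : ∃ F : IntermediateField ℚ Qbar, FiniteDimensional ℚ F ∧
      ∀ s ∈ F.fixingSubgroup, π s = 1)
    {ψ : Γ → V} (hψ : ∀ g h : Γ, ψ (g * h) = π g (ψ h) + ψ g)
    (hψc : IsLevelConstant₁ (MonoidHom.id Γ) ψ)
    (σ : Γ) (h1 : ∀ ζ : Qbar, ζ ^ p ^ (n + 1) = 1 → σ ζ = ζ)
    (h2 : ∃ α β : k, α ≠ β ∧ LinearMap.charpoly (ρbar.ρ σ) = (X - C α) * (X - C β))
    (τ : Γ) (hτ1 : ∀ ζ : Qbar, ζ ^ p ^ (n + 1) = 1 → τ ζ = ζ) (hτ2 : ρbar.ρ τ = 1)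
    (hτ3 : π τ = 1) (h3 : ¬ ∃ m : V, ψ τ = π σ m - m) (T : Finset ℕ) (hpT : p ∈ T) :
    ∃ q : ℕ, q.Prime ∧ q ∉ T ∧ p ^ (n + 1) ∣ q - 1 ∧
      ∀ P : ValuationSubring Qbar, P.LiesOverPrime q → ∀ φ : Γ, P.IsFrobeniusAt φ q →
        (∃ α β : k, α ≠ β ∧ LinearMap.charpoly (ρbar.ρ φ) = (X - C α) * (X - C β)) ∧
          ¬ ∃ m : V, ψ φ = π φ m - m := by
  let _inst : DistribMulAction Γ V := actionOfRepn π
  have hcoc : IsCoc ψ := fun g h => by rw [hψ, add_comm]; rfl
  have hτ : ∀ m : V, τ • m = m := fun m => by change π τ m = m; rw [hτ3]; rfl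
  rcases not_isCobAt_or_mul hcoc hτ h3 with h | h
  · exact exists_tw_prime_repn π ρbar hsplit hp n hπ hψ hψc σ h1 h2 h T hpT
  · refine exists_tw_prime_repn π ρbar hsplit hp n hπ hψ hψc (τ * σ) (fun ζ hζ => ?_) ?_ h T hpT
    · rw [AlgEquiv.mul_apply, h1 ζ hζ, hτ1 ζ hζ]
    · rw [map_mul, hτ2, one_mul]; exact h2

end Prelude

end Fermat.Agent.S56.TW.OneClass
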