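/-
S56 / block (IV.c) (helper20): the choice of `σ` and `τ` for the one-class step, i.e. the glue
between the group theory of `LemmaG.lean`/`HypOfFrozen.lean` and helper23's
`OneClass.exists_tw_prime_of_class`.

Setting: `ρbar : ResidualGaloisRep k` with the frozen hypotheses `habs`, `hTW`, `hsplit`, `2 ≠ 0`
in `k`; `π : Representation R Γ V` a representation of `Γ = Gal(ℚ̄/ℚ)` (in the application
`V = ad⁰ρ̄(1)` as an `𝔽_p`-representation) together with an injective additive map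
`ι : V → End_k(ρbar.V)` with trace-zero values such that `π g` is, under `ι`, conjugation by
`ρbar.ρ g` up to a non-zero scalar (the cyclotomic character), and exactly conjugation for `g`
fixing `μ_{p^(n+1)}`.  Let `ψ` be a `1`-cocycle (Mathlib's convention).

* `exists_sigma_tau` : if `ψ τ₀ ≠ 0` for some `τ₀` trivial on `μ_{p^(n+1)}`, on `ρ̄` and on `π`,
  then there are `σ` fixing `μ_{p^(n+1)}` with `ρ̄ σ` having two distinct eigenvalues and `τ`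
  trivial on `μ_{p^(n+1)}`, `ρ̄`, `π` with `ψ τ ∉ (π σ - 1) V`;
* `exists_tw_prime_of_ne_zero` : hence (with `OneClass.exists_tw_prime_of_class`) a Taylor–Wiles
  prime `q ≡ 1 (p^(n+1))` at which the class of `ψ` does not die.
-/
import Mathlib
import Fermat.Prelude.Def_GaloisRep_Residual
import Fermat.Agent.S56.TW.HypOfFrozen
import Fermat.Agent.S56.TW.OneClass

set_option autoImplicit false

open Polynomial

namespace Fermat.Agent.S56.TW.Select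

open Fermat.Agent.S56.TW.HypOfFrozen Fermat.Agent.S56.TW.OneClass groupCohomology

local notation "Qbar" => AlgebraicClosure ℚ
local notation "Γ" => (AlgebraicClosure ℚ ≃ₐ[ℚ] AlgebraicClosure ℚ)

variable {R : Type*} [CommRing R] {V : Type*} [AddCommGroup V] [Module R V]
variable {k : Type} [Field k] (ρbar : ResidualGaloisRep k)

omit [Field k] in
/-- a cocycle (Mathlib's convention) vanishes at `1` -/
theorem cocycle_one (π : Representation R Γ V) {ψ : Γ → V}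
    (hψ : ∀ g h : Γ, ψ (g * h) = π g (ψ h) + ψ g) : ψ 1 = 0 := by
  have h := hψ 1 1
  rw [mul_one, map_one, Module.End.one_apply] at h
  exact left_eq_add.mp h |>.symm ▸ rfl

omit [Field k] in
/-- for `τ` acting trivially, `ψ (g τ g⁻¹) = π g (ψ τ)` -/
theorem cocycle_conj (π : Representation R Γ V) {ψ : Γ → V}
    (hψ : ∀ g h : Γ, ψ (g * h) = π g (ψ h) + ψ g) (g τ : Γ) (hτ : π τ = 1) :
    ψ (g * τ * g⁻¹) = π g (ψ τ) := by
  have h1 : ψ (g * g⁻¹) = π g (ψ g⁻¹) + ψ g := hψ g g⁻¹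
  rw [mul_inv_cancel, cocycle_one π hψ] at h1
  rw [hψ (g * τ) g⁻¹, hψ g τ, map_mul, hτ, mul_one]
  calc π g (ψ g⁻¹) + (π g (ψ τ) + ψ g) = (π g (ψ g⁻¹) + ψ g) + π g (ψ τ) := by abel
    _ = π g (ψ τ) := by rw [← h1, zero_add]

/-- **The choice of `σ` and `τ`.** -/
theorem exists_sigma_tau (π : Representation R Γ V)
    (habs : ρbar.IsAbsolutelyIrreducible)
    (hTW : ∀ (K : Type) [Field K] [Algebra k K] (G : Subgroup Γ), G.index = 2 →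
      ∀ W : Submodule K (ρbar.baseChange K).V,
        (∀ σ ∈ G, ∀ x ∈ W, (ρbar.baseChange K).ρ σ x ∈ W) → W = ⊥ ∨ W = ⊤)
    (hsplit : ∀ σ : Γ, ∃ α β : k, LinearMap.charpoly (ρbar.ρ σ) = (X - C α) * (X - C β))
    (h2k : (2 : k) ≠ 0) {N : ℕ} (hN : N ≠ 0)
    (ι : V →+ Module.End k ρbar.V) (hι : Function.Injective ι)
    (hιtr : ∀ v : V, LinearMap.trace k ρbar.V (ι v) = 0)
    (hιπ : ∀ g : Γ, ∃ c : k, c ≠ 0 ∧
      ∀ v : V, ι (π g v) = c • (ρbar.ρ g * ι v * ρbar.ρ g⁻¹))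
    (hιfix : ∀ g : Γ, (∀ ζ : Qbar, ζ ^ N = 1 → g ζ = ζ) →
      ∀ v : V, ι (π g v) = ρbar.ρ g * ι v * ρbar.ρ g⁻¹)
    {ψ : Γ → V} (hψ : ∀ g h : Γ, ψ (g * h) = π g (ψ h) + ψ g)
    (τ₀ : Γ) (hτ₀1 : ∀ ζ : Qbar, ζ ^ N = 1 → τ₀ ζ = ζ) (hτ₀2 : ρbar.ρ τ₀ = 1)
    (hτ₀3 : π τ₀ = 1) (hτ₀ : ψ τ₀ ≠ 0) :
    ∃ σ : Γ, (∀ ζ : Qbar, ζ ^ N = 1 → σ ζ = ζ) ∧
      (∃ α β : k, α ≠ β ∧ LinearMap.charpoly (ρbar.ρ σ) = (X - C α) * (X - C β)) ∧
      ∃ τ : Γ, (∀ ζ : Qbar, ζ ^ N = 1 → τ ζ = ζ) ∧ ρbar.ρ τ = 1 ∧ π τ = 1 ∧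
        ¬ ∃ m : V, ψ τ = π σ m - m := by
  -- the set of `τ` trivial on everything
  let K : Set Γ := {τ | (∀ ζ : Qbar, ζ ^ N = 1 → τ ζ = ζ) ∧ ρbar.ρ τ = 1 ∧ π τ = 1}
  have hKconj : ∀ g : Γ, ∀ τ ∈ K, g * τ * g⁻¹ ∈ K := by
    rintro g τ ⟨h1, h2, h3⟩
    refine ⟨?_, ?_, ?_⟩
    · exact (fixRootsOfUnity_normal N).conj_mem τ h1 g
    · rw [map_mul, map_mul, h2, mul_one, ← map_mul, mul_inv_cancel, map_one]
    · rw [map_mul, map_mul, h3, mul_one, ← map_mul, mul_inv_cancel, map_one]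
  set M : Submodule k (Module.End k ρbar.V) :=
    Submodule.span k {x | ∃ τ ∈ K, x = ι (ψ τ)} with hM
  have hM0 : ∀ x ∈ M, LinearMap.trace k ρbar.V x = 0 := by
    intro x hx
    induction hx using Submodule.span_induction with
    | mem x hx => obtain ⟨τ, -, rfl⟩ := hx; exact hιtr _
    | zero => exact map_zero _
    | add x y _ _ hx hy => rw [map_add, hx, hy, add_zero]
    | smul a x _ hx => rw [map_smul, hx, smul_zero]
  have hMne : M ≠ ⊥ := by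
    intro h
    have hmem : ι (ψ τ₀) ∈ M := Submodule.subset_span ⟨τ₀, ⟨hτ₀1, hτ₀2, hτ₀3⟩, rfl⟩
    rw [h, Submodule.mem_bot] at hmem
    exact hτ₀ (hι (by rw [hmem, map_zero]))
  have hst : ∀ g : Γ, ∀ x ∈ M, ρbar.ρ g * x * ρbar.ρ g⁻¹ ∈ M := by
    intro g x hx
    induction hx using Submodule.span_induction with
    | mem x hx =>
      obtain ⟨τ, hτ, rfl⟩ := hx
      obtain ⟨c, hc0, hc⟩ := hιπ g
      have h1 : ι (ψ (g * τ * g⁻¹)) = c • (ρbar.ρ g * ι (ψ τ) * ρbar.ρ g⁻¹) := by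
        rw [cocycle_conj π hψ g τ hτ.2.2, hc]
      have h2 : ρbar.ρ g * ι (ψ τ) * ρbar.ρ g⁻¹ = c⁻¹ • ι (ψ (g * τ * g⁻¹)) := by
        rw [h1, smul_smul, inv_mul_cancel₀ hc0, one_smul]
      rw [h2]
      exact Submodule.smul_mem _ _ (Submodule.subset_span ⟨_, hKconj g τ hτ, rfl⟩)
    | zero => rw [mul_zero, zero_mul]; exact Submodule.zero_mem _
    | add x y _ _ hx hy => rw [mul_add, add_mul]; exact Submodule.add_mem _ hx hy
    | smul a x _ hx => rw [mul_smul_comm, smul_mul_assoc]; exact Submodule.smul_mem _ _ hx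
  obtain ⟨σ, hσ, α, β, hαβ, hch, x, hxM, hxne⟩ :=
    exists_regular_not_mem_range_fix ρbar habs hTW hsplit h2k hN M hM0 hMne hst
  refine ⟨σ, hσ, ⟨α, β, hαβ, hch⟩, ?_⟩
  by_contra hcon
  push Not at hcon
  -- every generator of `M` lies in the range of `Ad (ρ̄ σ) - 1`
  have hrange : ∀ x ∈ M, ∃ y : Module.End k ρbar.V, ρbar.ρ σ * y * ρbar.ρ σ⁻¹ - y = x := by
    intro x hx
    induction hx using Submodule.span_induction with
    | mem x hx =>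
      obtain ⟨τ, ⟨h1, h2, h3⟩, rfl⟩ := hx
      obtain ⟨m, hm⟩ := hcon τ h1 h2 h3
      exact ⟨ι m, by rw [hm, map_sub, hιfix σ hσ m]⟩
    | zero => exact ⟨0, by rw [mul_zero, zero_mul, sub_zero]⟩
    | add x y _ _ hx hy =>
      obtain ⟨y₁, h₁⟩ := hx
      obtain ⟨y₂, h₂⟩ := hy
      exact ⟨y₁ + y₂, by rw [mul_add, add_mul, ← h₁, ← h₂]; abel⟩
    | smul a x _ hx =>
      obtain ⟨y₁, h₁⟩ := hx
      exact ⟨a • y₁, by rw [mul_smul_comm, smul_mul_assoc, ← smul_sub, h₁]⟩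
  obtain ⟨y, hy⟩ := hrange x hxM
  exact hxne y hy

/-- **From a non-zero restriction to a Taylor–Wiles prime**: `exists_sigma_tau` combined with
helper23's one-class step `OneClass.exists_tw_prime_of_class`. -/
theorem exists_tw_prime_of_ne_zero (π : Representation R Γ V)
    (habs : ρbar.IsAbsolutelyIrreducible)
    (hTW : ∀ (K : Type) [Field K] [Algebra k K] (G : Subgroup Γ), G.index = 2 →
      ∀ W : Submodule K (ρbar.baseChange K).V,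
        (∀ σ ∈ G, ∀ x ∈ W, (ρbar.baseChange K).ρ σ x ∈ W) → W = ⊥ ∨ W = ⊤)
    (hsplit : ∀ σ : Γ, ∃ α β : k, LinearMap.charpoly (ρbar.ρ σ) = (X - C α) * (X - C β))
    (h2k : (2 : k) ≠ 0) {p : ℕ} (hp : p.Prime) (n : ℕ)
    (ι : V →+ Module.End k ρbar.V) (hι : Function.Injective ι)
    (hιtr : ∀ v : V, LinearMap.trace k ρbar.V (ι v) = 0)
    (hιπ : ∀ g : Γ, ∃ c : k, c ≠ 0 ∧
      ∀ v : V, ι (π g v) = c • (ρbar.ρ g * ι v * ρbar.ρ g⁻¹))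
    (hιfix : ∀ g : Γ, (∀ ζ : Qbar, ζ ^ p ^ (n + 1) = 1 → g ζ = ζ) →
      ∀ v : V, ι (π g v) = ρbar.ρ g * ι v * ρbar.ρ g⁻¹)
    (hπ : ∃ F : IntermediateField ℚ Qbar, FiniteDimensional ℚ F ∧
      ∀ s ∈ F.fixingSubgroup, π s = 1)
    {ψ : Γ → V} (hψ : ∀ g h : Γ, ψ (g * h) = π g (ψ h) + ψ g)
    (hψc : IsLevelConstant₁ (MonoidHom.id Γ) ψ)
    (τ₀ : Γ) (hτ₀1 : ∀ ζ : Qbar, ζ ^ p ^ (n + 1) = 1 → τ₀ ζ = ζ) (hτ₀2 : ρbar.ρ τ₀ = 1)
    (hτ₀3 : π τ₀ = 1) (hτ₀ : ψ τ₀ ≠ 0) (T : Finset ℕ) (hpT : p ∈ T) :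
    ∃ q : ℕ, q.Prime ∧ q ∉ T ∧ p ^ (n + 1) ∣ q - 1 ∧
      ∀ P : ValuationSubring Qbar, P.LiesOverPrime q → ∀ φ : Γ, P.IsFrobeniusAt φ q →
        (∃ α β : k, α ≠ β ∧ LinearMap.charpoly (ρbar.ρ φ) = (X - C α) * (X - C β)) ∧
          ¬ ∃ m : V, ψ φ = π φ m - m := by
  obtain ⟨σ, h1, h2, τ, hτ1, hτ2, hτ3, h3⟩ :=
    exists_sigma_tau ρbar π habs hTW hsplit h2k (pow_ne_zero (n + 1) hp.ne_zero) ι hι hιtr hιπ
      hιfix hψ τ₀ hτ₀1 hτ₀2 hτ₀3 hτ₀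
  exact exists_tw_prime_of_class π ρbar hsplit hp n hπ hψ hψc σ h1 h2 τ hτ1 hτ2 hτ3 h3 T hpT

end Fermat.Agent.S56.TW.Select
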