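/-
S56 / block G (helper23): THE TAYLOR–WILES PRIME SELECTION FOR `M' = (ad⁰ρ̄)^*(1)` — helper20's
`Select.exists_tw_prime_of_ne_zero` instantiated at the module `ad0' ρbar p` of `S56/Ad/Ad0Dual`.

* `exists_tw_prime_ad0'` : for a level-constant `1`-cocycle `c` with values in `M'` which does not
  vanish at some `τ₀` fixing `μ_{p^(n+1)}` with `ρ̄ τ₀ = 1` (i.e. `τ₀ ∈ G_{F_n}`), there is a
  Taylor–Wiles prime `q ∉ T`, `q ≡ 1 (p^(n+1))`, such that every Frobenius `φ` over `q` has `ρ̄ φ`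
  with distinct eigenvalues and `c φ ∉ (φ - 1) M'`;
* `h⁰(G_ℚ, M') = 0` : `eq_zero_of_forall_ad0'_ρ_eq` (from the irreducibility of `ad⁰ρ̄`).
-/
import Mathlib
import Fermat.Agent.S56.Ad.Ad0Dual
import Fermat.Agent.S56.TW.Select

set_option autoImplicit false
set_option linter.unusedSectionVars false

open Polynomial

namespace Fermat.Agent.S56.TW.SelectAd0

open Fermat.Agent.S56.Ad Fermat.Agent.S56.TW.Select Fermat.Agent.S56.TW.HypOfFrozen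
  groupCohomology ExtCitation

local notation "Qbar" => AlgebraicClosure ℚ
local notation "Γ" => (AlgebraicClosure ℚ ≃ₐ[ℚ] AlgebraicClosure ℚ)

variable {k : Type} [Field k] (ρbar : ResidualGaloisRep k)
  (p : ℕ) [hp : Fact p.Prime] [Algebra (ZMod p) k] [Module.Finite (ZMod p) k]

/-- an element fixing `μ_{p^(n+1)}` fixes `μ_p` -/
theorem fix_of_fix_pow {g : Γ} (n : ℕ) (hg : ∀ ζ : Qbar, ζ ^ p ^ (n + 1) = 1 → g ζ = ζ)
    (ζ : Qbar) (hζ : ζ ^ p = 1) : g ζ = ζ := by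
  refine hg ζ ?_
  rw [pow_succ', pow_mul, hζ, one_pow]

/-- **Selection of a Taylor–Wiles prime for a class of `M' = (ad⁰ρ̄)^*(1)`.** -/
theorem exists_tw_prime_ad0' (habs : ρbar.IsAbsolutelyIrreducible)
    (hTW : ∀ (K : Type) [Field K] [Algebra k K] (G : Subgroup Γ), G.index = 2 →
      ∀ W : Submodule K (ρbar.baseChange K).V,
        (∀ σ ∈ G, ∀ x ∈ W, (ρbar.baseChange K).ρ σ x ∈ W) → W = ⊥ ∨ W = ⊤)
    (hsplit : ∀ σ : Γ, ∃ α β : k, LinearMap.charpoly (ρbar.ρ σ) = (X - C α) * (X - C β))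
    (h2k : (2 : k) ≠ 0) (n : ℕ)
    (c : cocycles₁ (ad0' ρbar p)) (hc : IsLevelConstant₁ (MonoidHom.id Γ) c)
    (τ₀ : Γ) (hτ₀1 : ∀ ζ : Qbar, ζ ^ p ^ (n + 1) = 1 → τ₀ ζ = ζ) (hτ₀2 : ρbar.ρ τ₀ = 1)
    (hτ₀ : c τ₀ ≠ 0) (T : Finset ℕ) (hpT : p ∈ T) :
    ∃ q : ℕ, q.Prime ∧ q ∉ T ∧ p ^ (n + 1) ∣ q - 1 ∧
      ∀ P : ValuationSubring Qbar, P.LiesOverPrime q → ∀ φ : Γ, P.IsFrobeniusAt φ q →
        (∃ α β : k, α ≠ β ∧ LinearMap.charpoly (ρbar.ρ φ) = (X - C α) * (X - C β)) ∧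
          ¬ ∃ m : ad0' ρbar p, c φ = (ad0' ρbar p).ρ φ m - m := by
  refine exists_tw_prime_of_ne_zero ρbar (ad0' ρbar p).ρ habs hTW hsplit h2k hp.out n
    (ιDual ρbar p h2k) (ιDual_injective ρbar p h2k) (trace_ιDual ρbar p h2k)
    (fun g => ⟨algebraMap (ZMod p) k ((cycloChar p g : (ZMod p)ˣ) : ZMod p), ?_,
      fun v => ιDual_ρ ρbar p h2k g v⟩)
    (fun g hg v => ιDual_ρ_of_fix ρbar p h2k (fix_of_fix_pow p n hg) v)
    (exists_level_ad0' ρbar p) ((mem_cocycles₁_iff (c : Γ → ad0' ρbar p)).mp c.2) hc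
    τ₀ hτ₀1 hτ₀2 ?_ hτ₀ T hpT
  · exact (map_ne_zero_iff _ (FaithfulSMul.algebraMap_injective (ZMod p) k)).mpr
      (Units.ne_zero _)
  · refine ad0'_ρ_eq_one ρbar p hτ₀2 (Units.ext ?_)
    rw [Units.val_one]
    exact cycloChar_eq_one_of_fix p (fix_of_fix_pow p n hτ₀1)

/-- **`h⁰(G_ℚ, M') = 0`**: `M' = (ad⁰ρ̄)^*(1)` has no non-zero `Γ`-invariant (irreducibility of
`ad⁰ρ̄`, which has dimension `3 > 1`). -/
theorem eq_zero_of_forall_ad0'_ρ_eq (habs : ρbar.IsAbsolutelyIrreducible)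
    (hTW : ∀ (K : Type) [Field K] [Algebra k K] (G : Subgroup Γ), G.index = 2 →
      ∀ W : Submodule K (ρbar.baseChange K).V,
        (∀ σ ∈ G, ∀ x ∈ W, (ρbar.baseChange K).ρ σ x ∈ W) → W = ⊥ ∨ W = ⊤)
    (hsplit : ∀ σ : Γ, ∃ α β : k, LinearMap.charpoly (ρbar.ρ σ) = (X - C α) * (X - C β))
    (h2k : (2 : k) ≠ 0) (f : ad0' ρbar p) (hf : ∀ σ : Γ, (ad0' ρbar p).ρ σ f = f) : f = 0 := by
  by_contra hf0
  set Y : Module.End k ρbar.V := ιDual ρbar p h2k f with hY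
  have hY0 : Y ≠ 0 := fun h => hf0 (ιDual_injective ρbar p h2k (h.trans (map_zero _).symm))
  have hYtr : LinearMap.trace k ρbar.V Y = 0 := trace_ιDual ρbar p h2k f
  -- `ρ̄σ Y ρ̄σ⁻¹ = χ̄(σ)⁻¹ Y`
  have hconj : ∀ σ : Γ, ∃ a : k, ρbar.ρ σ * Y * ρbar.ρ σ⁻¹ = a • Y := fun σ => by
    have h := ιDual_ρ ρbar p h2k σ f
    rw [hf σ, ← hY] at h
    set c : k := algebraMap (ZMod p) k ((cycloChar p σ : (ZMod p)ˣ) : ZMod p) with hc
    have hc0 : c ≠ 0 := (map_ne_zero_iff _ (FaithfulSMul.algebraMap_injective (ZMod p) k)).mpr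
      (Units.ne_zero _)
    refine ⟨c⁻¹, ?_⟩
    conv_rhs => rw [h]
    rw [smul_smul, inv_mul_cancel₀ hc0, one_smul]
  have hall := traceless_mem_of_stable_frozen ρbar habs hTW hsplit h2k (Submodule.span k {Y})
    (fun x hx => by
      obtain ⟨a, rfl⟩ := Submodule.mem_span_singleton.mp hx
      rw [map_smul, hYtr, smul_zero])
    (fun h => hY0 (by
      have : Y ∈ Submodule.span k {Y} := Submodule.mem_span_singleton_self Y
      rw [h] at this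
      exact (Submodule.mem_bot k).mp this))
    (fun σ x hx => by
      obtain ⟨a, rfl⟩ := Submodule.mem_span_singleton.mp hx
      obtain ⟨b, hb⟩ := hconj σ
      rw [mul_smul_comm, smul_mul_assoc, hb, smul_smul]
      exact Submodule.mem_span_singleton.mpr ⟨a * b, rfl⟩)
  have hle : ad0Sub ρbar ≤ Submodule.span k {Y} := fun x hx =>
    hall x ((mem_ad0Sub ρbar x).mp hx)
  have h1 := Submodule.finrank_mono hle
  rw [finrank_ad0Sub ρbar h2k, finrank_span_singleton hY0] at h1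
  omega

end Fermat.Agent.S56.TW.SelectAd0
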