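/-
S56 / block G (helper23): G-Sel GLUE — FROM "NOT A COBOUNDARY" TO A TAYLOR–WILES PRIME.

`M' = (ad⁰ρ̄)^*(1) = ad0' ρbar p` (`S56/Ad/Ad0Dual`), `F_n = F(μ_{p^(n+1)})`, `F` = the field cut out
by `ρ̄`, `G_{F_n} = {τ | τ fixes μ_{p^(n+1)}, ρ̄ τ = 1}`.

* `cycloChar_apply_root` : `σ ζ = ζ ^ χ̄(σ)` on `μ_p` (local copy, Mathlib + prelude only);
* `det_rho_eq_cycloChar` : the frozen hypothesis `hdet : (ofResidualGaloisRep ρ̄).DetIsCyclotomic p`
  says `det ρ̄ = χ̄` (mod `p` cyclotomic character, in `k`); hence `ker ρ̄ ⊆ ker χ̄` and `M'` is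
  trivial on `ker ρ̄` (`ad0'_ρ_eq_one_of_rho_eq_one`);
* `coc_*` : the elementary cocycle identities (Mathlib convention `c (g h) = g • c h + c g`) for
  elements acting trivially: `c (g τ g⁻¹) = g • c τ`, `c (g τ g⁻¹ τ⁻¹) = g • c τ - c τ`;
* `HypH ρbar` : **Lemma H as a hypothesis**, in `End_k V` form: every trace-zero `1`-cocycle
  `b : Γ → End_k V` for the action `g • m = det ρ̄(g) · ρ̄(g) m ρ̄(g)⁻¹` which factors through `ρ̄`
  is a coboundary (i.e. `H¹(ρ̄(Γ), ad⁰ ⊗ det) = 0`; to be discharged from `S56/Group/*`);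
* `exists_eq_sub_of_vanish` : a cocycle `c : Γ → M'` vanishing on `G_{F_n}` is a coboundary
  (commutator trick: `c|ker ρ̄` takes values in `M'^Γ = 0`; then `c` factors through `ρ̄(Γ)` and
  `HypH` applies);
* `exists_tw_prime_of_not_coboundary` : **the `hex` input of `KillDualPad`**: a level-constant
  cocycle `c : Γ → M'` which is NOT a coboundary survives at some Taylor–Wiles prime `q ∉ T`,
  `q ≡ 1 (p^(n+1))`: for every Frobenius `φ` over `q`, `ρ̄ φ` has distinct eigenvalues and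
  `c φ ∉ (φ - 1) M'`.
-/
import Mathlib
import Fermat.Prelude.Def_GaloisRep_LocalConditions
import Fermat.Agent.S56.TW.SelectAd0

set_option autoImplicit false
set_option linter.unusedSectionVars false

open Polynomial

namespace Fermat.Agent.S56.TW.SelectH

open Fermat.Agent.S56.Ad Fermat.Agent.S56.TW.Select Fermat.Agent.S56.TW.HypOfFrozen
  Fermat.Agent.S56.TW.SelectAd0 groupCohomology ExtCitation

local notation "Qbar" => AlgebraicClosure ℚ
local notation "Γ" => (AlgebraicClosure ℚ ≃ₐ[ℚ] AlgebraicClosure ℚ)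

/-! ### The cyclotomic character on `μ_p` -/

section Cyclo

variable (p : ℕ) [hp : Fact p.Prime]

/-- The defining property of the mod `p` cyclotomic character on `p`-th roots of unity. -/
theorem cycloChar_apply_root (σ : Γ) {ζ : Qbar} (hζ : ζ ^ p = 1) :
    σ ζ = ζ ^ ((cycloChar p σ : (ZMod p)ˣ) : ZMod p).val := by
  have : NeZero p := ⟨hp.out.ne_zero⟩
  have h := modularCyclotomicCharacter.spec Qbar (card_rootsOfUnity_eq_self p)
    (σ : Qbar ≃+* Qbar) (t := (rootsOfUnity.mkOfPowEq ζ hζ : Qbarˣ))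
    (rootsOfUnity.mkOfPowEq ζ hζ).2
  have h2 : σ ζ = ζ ^ ((modularCyclotomicCharacter Qbar (card_rootsOfUnity_eq_self p)
      (σ : Qbar ≃+* Qbar) : (ZMod p)ˣ) : ZMod p).val := by simpa using h
  exact h2

end Cyclo

/-! ### `det ρ̄ = χ̄` from the frozen hypothesis `hdet` -/

section Det

variable {k : Type} [Field k] (ρbar : ResidualGaloisRep k)
  (p : ℕ) [hp : Fact p.Prime] [Algebra (ZMod p) k]

/-- **`det ρ̄ = χ̄`**: the frozen hypothesis `DetIsCyclotomic` for the residual representation. -/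
theorem det_rho_eq_cycloChar
    (hdet : (GaloisRepAdic.ofResidualGaloisRep ρbar).DetIsCyclotomic p) (σ : Γ) :
    LinearMap.det (ρbar.ρ σ)
      = algebraMap (ZMod p) k ((cycloChar p σ : (ZMod p)ˣ) : ZMod p) := by
  have : NeZero p := ⟨hp.out.ne_zero⟩
  obtain ⟨hp0, h⟩ := hdet
  have hpk : (p : k) = 0 := by
    rw [IsLocalRing.maximalIdeal_eq_bot] at hp0
    exact (Submodule.mem_bot k).mp hp0
  set a : ℕ := ((cycloChar p σ : (ZMod p)ˣ) : ZMod p).val with ha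
  have h1 := h 1 σ a (fun μ hμ => by
    rw [pow_one] at hμ
    exact cycloChar_apply_root p σ hμ)
  have h2 : ((p ^ 1 : ℕ) : k) = 0 := by rw [pow_one]; exact hpk
  rw [h2, Ideal.span_singleton_eq_bot.mpr rfl] at h1
  have h3 : LinearMap.det (ρbar.ρ σ) = (a : k) := sub_eq_zero.mp ((Submodule.mem_bot k).mp h1)
  rw [h3, ha, ← map_natCast (algebraMap (ZMod p) k), ZMod.natCast_zmod_val]

/-- `ker ρ̄ ⊆ ker χ̄` -/
theorem cycloChar_eq_one_of_rho_eq_one
    (hdet : (GaloisRepAdic.ofResidualGaloisRep ρbar).DetIsCyclotomic p) {σ : Γ}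
    (h : ρbar.ρ σ = 1) : cycloChar p σ = 1 := by
  have h1 := det_rho_eq_cycloChar ρbar p hdet σ
  rw [h, map_one] at h1
  refine Units.ext ?_
  rw [Units.val_one]
  have h2 : algebraMap (ZMod p) k ((cycloChar p σ : (ZMod p)ˣ) : ZMod p)
      = algebraMap (ZMod p) k 1 := by rw [← h1, map_one]
  exact (algebraMap (ZMod p) k).injective h2

/-- `M'` is trivial on `ker ρ̄` -/
theorem ad0'_ρ_eq_one_of_rho_eq_one [Module.Finite (ZMod p) k]
    (hdet : (GaloisRepAdic.ofResidualGaloisRep ρbar).DetIsCyclotomic p) {σ : Γ}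
    (h : ρbar.ρ σ = 1) : (ad0' ρbar p).ρ σ = 1 :=
  ad0'_ρ_eq_one ρbar p h (cycloChar_eq_one_of_rho_eq_one ρbar p hdet h)

end Det

/-! ### Elementary cocycle identities -/

section Coc

variable {R G M : Type*} [CommRing R] [Group G] [AddCommGroup M] [Module R M]
  (π : Representation R G M) {c : G → M} (hc : ∀ g h : G, c (g * h) = π g (c h) + c g)

include hc

theorem coc_one : c 1 = 0 := by
  have h := hc 1 1
  rw [mul_one, map_one, Module.End.one_apply] at h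
  exact add_eq_left.mp h.symm

theorem coc_mul_right_of_vanish {τ : G} (hτ0 : c τ = 0) (g : G) : c (g * τ) = c g := by
  rw [hc, hτ0, map_zero, zero_add]

theorem coc_inv_of_triv {τ : G} (hτ : π τ = 1) : c τ⁻¹ = - c τ := by
  have h := hc τ τ⁻¹
  rw [mul_inv_cancel, coc_one π hc, hτ, Module.End.one_apply] at h
  exact eq_neg_of_add_eq_zero_left h.symm

theorem coc_conj_of_triv {τ : G} (hτ : π τ = 1) (g : G) : c (g * τ * g⁻¹) = π g (c τ) := by
  have h1 := hc (g * τ) g⁻¹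
  have h2 := hc g τ
  have h3 := hc g g⁻¹
  rw [mul_inv_cancel, coc_one π hc] at h3
  have h4 : π g (c g⁻¹) = - c g := eq_neg_of_add_eq_zero_left h3.symm
  rw [h1, map_mul, Module.End.mul_apply, hτ, Module.End.one_apply, h2, h4]
  abel

theorem coc_comm_of_triv {τ : G} (hτ : π τ = 1) (g : G) :
    c (g * τ * g⁻¹ * τ⁻¹) = π g (c τ) - c τ := by
  have hconj : π (g * τ * g⁻¹) = 1 := by
    rw [map_mul, map_mul, hτ, mul_one, ← map_mul, mul_inv_cancel, map_one]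
  rw [hc (g * τ * g⁻¹) τ⁻¹, hconj, Module.End.one_apply, coc_inv_of_triv π hc hτ,
    coc_conj_of_triv π hc hτ]
  abel

end Coc

/-! ### Lemma H as a hypothesis, and the main glue -/

section Main

variable {k : Type} [Field k] (ρbar : ResidualGaloisRep k)

/-- **Lemma H, hypothesis form** (`H¹(ρ̄(Γ), ad⁰ρ̄ ⊗ det) = 0`): every trace-zero `1`-cocycle
`b : Γ → End_k V` for the action `g • m = det ρ̄(g) · ρ̄(g) m ρ̄(g)⁻¹` that factors through `ρ̄` is a
coboundary. -/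
def HypH : Prop :=
  ∀ b : Γ → Module.End k ρbar.V,
    (∀ g, LinearMap.trace k ρbar.V (b g) = 0) →
    (∀ g h, b (g * h) = LinearMap.det (ρbar.ρ g) • (ρbar.ρ g * b h * ρbar.ρ g⁻¹) + b g) →
    (∀ g h, ρbar.ρ g = ρbar.ρ h → b g = b h) →
    ∃ m : Module.End k ρbar.V, LinearMap.trace k ρbar.V m = 0 ∧
      ∀ g, b g = LinearMap.det (ρbar.ρ g) • (ρbar.ρ g * m * ρbar.ρ g⁻¹) - m

variable (p : ℕ) [hp : Fact p.Prime] [Algebra (ZMod p) k] [Module.Finite (ZMod p) k]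

/-- **A cocycle `c : Γ → M'` vanishing on `G_{F_n}` is a coboundary** (given Lemma H). -/
theorem exists_eq_sub_of_vanish (habs : ρbar.IsAbsolutelyIrreducible)
    (hTW : ∀ (K : Type) [Field K] [Algebra k K] (G : Subgroup Γ), G.index = 2 →
      ∀ W : Submodule K (ρbar.baseChange K).V,
        (∀ σ ∈ G, ∀ x ∈ W, (ρbar.baseChange K).ρ σ x ∈ W) → W = ⊥ ∨ W = ⊤)
    (hsplit : ∀ σ : Γ, ∃ α β : k, LinearMap.charpoly (ρbar.ρ σ) = (X - C α) * (X - C β))
    (h2k : (2 : k) ≠ 0)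
    (hdet : (GaloisRepAdic.ofResidualGaloisRep ρbar).DetIsCyclotomic p)
    (hH : HypH ρbar) (n : ℕ)
    (c : Γ → ad0' ρbar p) (hc : ∀ g h : Γ, c (g * h) = (ad0' ρbar p).ρ g (c h) + c g)
    (hvan : ∀ τ : Γ, (∀ ζ : Qbar, ζ ^ p ^ (n + 1) = 1 → τ ζ = ζ) → ρbar.ρ τ = 1 → c τ = 0) :
    ∃ m : ad0' ρbar p, ∀ g : Γ, c g = (ad0' ρbar p).ρ g m - m := by
  have hp1 : p ^ (n + 1) ≠ 0 := pow_ne_zero _ hp.out.ne_zero
  have htriv : ∀ τ : Γ, ρbar.ρ τ = 1 → (ad0' ρbar p).ρ τ = 1 := fun τ h =>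
    ad0'_ρ_eq_one_of_rho_eq_one ρbar p hdet h
  -- (a) `c` vanishes on `ker ρ̄`
  have hker : ∀ τ : Γ, ρbar.ρ τ = 1 → c τ = 0 := by
    intro τ hτ
    refine eq_zero_of_forall_ad0'_ρ_eq ρbar p habs hTW hsplit h2k (c τ) fun g => ?_
    have hcomm := coc_comm_of_triv (ad0' ρbar p).ρ hc (htriv τ hτ) g
    have hmem := commutator_mem_fixRootsOfUnity hp1 g τ
    have hρ : ρbar.ρ (g * τ * g⁻¹ * τ⁻¹) = 1 := by
      rw [map_mul, map_mul, map_mul, hτ, mul_one, rho_mul_rho_inv, one_mul,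
        rho_inv_eq_one ρbar hτ]
    have h0 := hvan _ (mem_fixRootsOfUnity.mp hmem) hρ
    rw [h0] at hcomm
    exact sub_eq_zero.mp hcomm.symm
  -- (b) `c` factors through `ρ̄`
  have hfac : ∀ g g' : Γ, ρbar.ρ g = ρbar.ρ g' → c g = c g' := by
    intro g g' h
    have hτ : ρbar.ρ (g⁻¹ * g') = 1 := by rw [map_mul, ← h, rho_inv_mul_rho]
    have h1 := coc_mul_right_of_vanish (ad0' ρbar p).ρ hc (hker _ hτ) g
    rw [mul_inv_cancel_left] at h1
    exact h1.symm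
  -- (c) Lemma H
  obtain ⟨m, hm0, hm⟩ := hH (fun g => ιDual ρbar p h2k (c g))
    (fun g => trace_ιDual ρbar p h2k _)
    (fun g h => by
      rw [hc g h, map_add, ιDual_ρ, det_rho_eq_cycloChar ρbar p hdet g])
    (fun g h hgh => by
      rw [hfac g h hgh])
  -- pull `m` back to `M'`
  set m' : ad0' ρbar p := trFormEquiv ρbar p h2k (Ad0.mk ρbar p m hm0) with hm'
  have hιm' : ιDual ρbar p h2k m' = m := by
    rw [ιDual_apply, hm', LinearEquiv.symm_apply_apply, Ad0.toEnd_mk]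
  refine ⟨m', fun g => ιDual_injective ρbar p h2k ?_⟩
  rw [map_sub, ιDual_ρ, hιm', ← det_rho_eq_cycloChar ρbar p hdet g]
  exact hm g

/-- **The `hex` input of `KillDualPad`**: a level-constant cocycle with values in `M'` which is not
a coboundary survives at a Taylor–Wiles prime `q ∉ T`, `q ≡ 1 (p^(n+1))`. -/
theorem exists_tw_prime_of_not_coboundary (habs : ρbar.IsAbsolutelyIrreducible)
    (hTW : ∀ (K : Type) [Field K] [Algebra k K] (G : Subgroup Γ), G.index = 2 →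
      ∀ W : Submodule K (ρbar.baseChange K).V,
        (∀ σ ∈ G, ∀ x ∈ W, (ρbar.baseChange K).ρ σ x ∈ W) → W = ⊥ ∨ W = ⊤)
    (hsplit : ∀ σ : Γ, ∃ α β : k, LinearMap.charpoly (ρbar.ρ σ) = (X - C α) * (X - C β))
    (h2k : (2 : k) ≠ 0)
    (hdet : (GaloisRepAdic.ofResidualGaloisRep ρbar).DetIsCyclotomic p)
    (hH : HypH ρbar) (n : ℕ)
    (c : cocycles₁ (ad0' ρbar p)) (hc : IsLevelConstant₁ (MonoidHom.id Γ) c)
    (hnc : ¬ ∃ m : ad0' ρbar p, ∀ g : Γ, c g = (ad0' ρbar p).ρ g m - m)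
    (T : Finset ℕ) (hpT : p ∈ T) :
    ∃ q : ℕ, q.Prime ∧ q ∉ T ∧ p ^ (n + 1) ∣ q - 1 ∧
      ∀ P : ValuationSubring Qbar, P.LiesOverPrime q → ∀ φ : Γ, P.IsFrobeniusAt φ q →
        (∃ α β : k, α ≠ β ∧ LinearMap.charpoly (ρbar.ρ φ) = (X - C α) * (X - C β)) ∧
          ¬ ∃ m : ad0' ρbar p, c φ = (ad0' ρbar p).ρ φ m - m := by
  by_cases h : ∃ τ₀ : Γ, (∀ ζ : Qbar, ζ ^ p ^ (n + 1) = 1 → τ₀ ζ = ζ) ∧ ρbar.ρ τ₀ = 1 ∧ c τ₀ ≠ 0
  · obtain ⟨τ₀, h1, h2, h3⟩ := h
    exact exists_tw_prime_ad0' ρbar p habs hTW hsplit h2k n c hc τ₀ h1 h2 h3 T hpT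
  · exfalso
    refine hnc (exists_eq_sub_of_vanish ρbar p habs hTW hsplit h2k hdet hH n (fun g => c g)
      ((mem_cocycles₁_iff (c : Γ → ad0' ρbar p)).mp c.2) fun τ hτ1 hτ2 => ?_)
    by_contra hne
    exact h ⟨τ, hτ1, hτ2, hne⟩

end Main

end Fermat.Agent.S56.TW.SelectH
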