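/-
S56 / block G (helper23): KILLING THE DUAL SELMER GROUP — the assembly
`SelectH` (not a coboundary ⇒ Taylor–Wiles prime) + `PT/Inflation` (`killedAt`) + `KillDualPad`.

`M' = ad0' ρbar p`, `𝓧 ≤ H¹(G_S, M')` any finite-dimensional `𝔽_p`-subspace of level cohomology
classes (the dual Selmer group), `r = dim_{𝔽_p} 𝓧`.

* `IsTWPrime ρbar p n q` : `q` prime, `q ≡ 1 (p^(n+1))`, every Frobenius over `q` has distinct
  eigenvalues in `k` under `ρ̄` (the frozen S56 conditions on `qv i`, except `qv i ∉ S`);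
* `exists_not_mem_killedAt` : **`hex`**: a non-zero `y ∈ 𝓧` is not killed at some Taylor–Wiles prime
  outside any finite set `T` (and `≠ p`);
* `exists_tw_family` : for every `n` and finite `T` there are exactly `r` distinct Taylor–Wiles
  primes `q j ∉ T`, `q j ≠ p`, with `⋂_j killedAt M' 𝓧 (q j) = 0` — the input `hkill` of
  `PT/Inflation.Sel_eq_bot_of_iInf_killedAt`.

Lemma H enters as the hypothesis `SelectH.HypH ρbar`.
-/
import Mathlib
import Fermat.Agent.S54.Frobenius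
import Fermat.Agent.S56.PT.Inflation
import Fermat.Agent.S56.TW.SelectH
import Fermat.Agent.S56.TW.KillDualPad

set_option autoImplicit false
set_option linter.unusedSectionVars false

open Polynomial

namespace Fermat.Agent.S56.TW.Hex

open Fermat.Agent.S56.Ad Fermat.Agent.S56.TW.SelectH Fermat.Agent.S56.PT.Inflation
  Fermat.Agent.S55.Level Fermat.Agent.S55.Cone Fermat.Agent.S55 groupCohomology ExtCitation Module

local notation "Qbar" => AlgebraicClosure ℚ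
local notation "Γ" => (AlgebraicClosure ℚ ≃ₐ[ℚ] AlgebraicClosure ℚ)

variable {k : Type} [Field k] (ρbar : ResidualGaloisRep k)
  (p : ℕ) [hp : Fact p.Prime] [Algebra (ZMod p) k] [Module.Finite (ZMod p) k]

/-- **Taylor–Wiles prime at level `n`** (the frozen conditions of S56 on the primes `qv i`). -/
def IsTWPrime (n : ℕ) (q : ℕ) : Prop :=
  q.Prime ∧ p ^ (n + 1) ∣ q - 1 ∧
    ∀ P : ValuationSubring Qbar, P.LiesOverPrime q → ∀ φ : Γ, P.IsFrobeniusAt φ q →
      ∃ α β : k, α ≠ β ∧ LinearMap.charpoly (ρbar.ρ φ) = (X - C α) * (X - C β)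

/-- `IsLevel₁` for `G_S` gives the frozen `IsLevelConstant₁` for the identity of `Γ`. -/
theorem isLevelConstant₁_of_isLevel₁ (S : Finset Nat.Primes) {Y : Type*} {f : Γ → Y}
    (hf : IsLevel₁ (globalLevel S) f) : IsLevelConstant₁ (MonoidHom.id Γ) f := by
  obtain ⟨U, ⟨_, F, hF, hFU⟩, h⟩ := hf
  exact ⟨F, hF.1, fun g s hs => h g s (hFU hs)⟩

variable (habs : ρbar.IsAbsolutelyIrreducible)
  (hTW : ∀ (K : Type) [Field K] [Algebra k K] (G : Subgroup Γ), G.index = 2 →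
    ∀ W : Submodule K (ρbar.baseChange K).V,
      (∀ σ ∈ G, ∀ x ∈ W, (ρbar.baseChange K).ρ σ x ∈ W) → W = ⊥ ∨ W = ⊤)
  (hsplit : ∀ σ : Γ, ∃ α β : k, LinearMap.charpoly (ρbar.ρ σ) = (X - C α) * (X - C β))
  (h2k : (2 : k) ≠ 0)
  (hdet : (GaloisRepAdic.ofResidualGaloisRep ρbar).DetIsCyclotomic p)
  (hH : HypH ρbar)
  (S : Finset Nat.Primes) [IsDiscrete (globalLevel S) (ad0' ρbar p)]
  (𝓧 : Submodule (ZMod p) (levelCohomology (globalLevel S) (ad0' ρbar p) 1))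

include habs hTW hsplit h2k hdet hH

/-- **`hex`**: a non-zero class of `𝓧 ≤ H¹(G_S, M')` survives at a Taylor–Wiles prime outside any
given finite set. -/
theorem exists_not_mem_killedAt (y : ↥𝓧) (hy : y ≠ 0) (n : ℕ) (T : Finset Nat.Primes) :
    ∃ q : Nat.Primes, q ∉ T ∧ ((q : ℕ) ≠ p ∧ IsTWPrime ρbar p n (q : ℕ)) ∧
      y ∉ killedAt (ad0' ρbar p) 𝓧 q := by
  classical
  obtain ⟨z, hz⟩ := levelH1π_surjective (globalLevel S) (ad0' ρbar p) y.1
  obtain ⟨hz1, hz2⟩ := (mem_levelCocycles₁_iff (globalLevel S) (ad0' ρbar p) z.1).mp z.2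
  -- `z` is not a coboundary
  have hnc : ¬ ∃ m : ad0' ρbar p, ∀ g : Γ, z.1 g = (ad0' ρbar p).ρ g m - m := by
    rintro ⟨m, hm⟩
    refine hy (Subtype.ext ?_)
    rw [← hz, Submodule.coe_zero, levelH1π_eq_zero_iff]
    refine ⟨m, funext fun g => ?_⟩
    rw [d₀₁_hom_apply]
    exact (hm g).symm
  obtain ⟨q, hq, hqT, hdvd, hφ⟩ := exists_tw_prime_of_not_coboundary ρbar p habs hTW hsplit h2k
    hdet hH n ⟨z.1, hz1⟩ (isLevelConstant₁_of_isLevel₁ S hz2) hnc
    (insert p (T.image fun q : Nat.Primes => (q : ℕ))) (Finset.mem_insert_self _ _)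
  refine ⟨⟨q, hq⟩, fun h => hqT (Finset.mem_insert_of_mem (Finset.mem_image.mpr ⟨_, h, rfl⟩)),
    ⟨fun h => hqT (h ▸ Finset.mem_insert_self _ _), hq, hdvd, fun P hP φ hPφ => (hφ P hP φ hPφ).1⟩,
    ?_⟩
  obtain ⟨A, φ, hA, hAφ⟩ := Fermat.Agent.S54.exists_isFrobeniusAt q hq
  exact not_mem_killedAt_of_not_isCob (ad0' ρbar p) y z hz A hA φ hAφ.mem_decompositionSubgroup
    (hφ A hA φ hAφ).2

/-- **Killing `𝓧`**: exactly `r = dim_{𝔽_p} 𝓧` distinct Taylor–Wiles primes at level `n`, outside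
`T` and `≠ p`, at which no non-zero class of `𝓧` dies simultaneously. -/
theorem exists_tw_family [FiniteDimensional (ZMod p) ↥𝓧] (n : ℕ) (T : Finset Nat.Primes) :
    ∃ q : Fin (finrank (ZMod p) ↥𝓧) → Nat.Primes, Function.Injective q ∧ (∀ j, q j ∉ T) ∧
      (∀ j, ((q j : ℕ) ≠ p ∧ IsTWPrime ρbar p n (q j : ℕ))) ∧
        ⨅ j, killedAt (ad0' ρbar p) 𝓧 (q j) = ⊥ :=
  KillDualPad.exists_family_inf_eq_bot_pad (killedAt (ad0' ρbar p) 𝓧)
    (fun q : Nat.Primes => (q : ℕ) ≠ p ∧ IsTWPrime ρbar p n (q : ℕ))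
    (fun y hy T' => exists_not_mem_killedAt ρbar p habs hTW hsplit h2k hdet hH S 𝓧 y hy n T') T

end Fermat.Agent.S56.TW.Hex
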