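/-
S56 / block (IV.1') (helper20): CLIFFORD BY HAND from the Taylor–Wiles hypothesis `hTW`.

Setting (Mathlib only): `k` a field, `V` a `k`-vector space of dimension `2`, `G` a group,
`ρ : G →* Module.End k V`.  A *stable line* for a set `S ⊆ G` is a non-zero vector `u` which is an
eigenvector of every `ρ g`, `g ∈ S` (`NoStableLine ρ S` says there is none).

Hypotheses, all over `k` itself (they follow from the frozen `habs`, `hTW` (with `K := k`) and
`hsplit` of S56, see `HypOfFrozen.lean`):
* `h1 : NoStableLine ρ univ`                       (irreducible),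
* `h2 : ∀ G₂, G₂.index = 2 → NoStableLine ρ G₂`     (`hTW`),
* `hs : ∀ g, ∃ u ≠ 0, ∃ c, ρ g u = c • u`           (every `ρ g` has an eigenvector: `hsplit`).

Main results:
* `false_of_orbit_two_lines` : if the `G`-orbit of a non-zero vector `u` meets at most two lines,
  then `h1`/`h2` give a contradiction (the stabiliser of the line of `u` has index `≤ 2`);
* `smul_of_three_eigvec` : an endomorphism of a plane with three pairwise distinct eigenlines is a
  scalar;
* `noStableLine_of_normal` : **Clifford**: for `H ⊴ G` with `G/H` abelian, `ρ|H` has no stable line.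
-/
import Mathlib

set_option autoImplicit false

namespace Fermat.Agent.S56.TW.Clifford

variable {k : Type*} [Field k] {V : Type*} [AddCommGroup V] [Module k V]
variable {G : Type*} [Group G] (ρ : G →* Module.End k V)

/-- There is no line of `V` stable under all `ρ g`, `g ∈ S`. -/
def NoStableLine (S : Set G) : Prop :=
  ¬ ∃ u : V, u ≠ 0 ∧ ∀ g ∈ S, ∃ c : k, ρ g u = c • u

/-! ### Basic facts on `ρ` -/

theorem rho_mul_apply (g h : G) (v : V) : ρ (g * h) v = ρ g (ρ h v) := by
  rw [map_mul, Module.End.mul_apply]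

theorem rho_one_apply (v : V) : ρ 1 v = v := by
  rw [map_one, Module.End.one_apply]

theorem rho_inv_apply (g : G) (v : V) : ρ g⁻¹ (ρ g v) = v := by
  rw [← rho_mul_apply, inv_mul_cancel, rho_one_apply]

theorem rho_apply_inv (g : G) (v : V) : ρ g (ρ g⁻¹ v) = v := by
  rw [← rho_mul_apply, mul_inv_cancel, rho_one_apply]

theorem rho_injective (g : G) : Function.Injective (ρ g) := fun v w h => by
  have := congrArg (ρ g⁻¹) h
  rwa [rho_inv_apply, rho_inv_apply] at this

theorem rho_ne_zero (g : G) {v : V} (hv : v ≠ 0) : ρ g v ≠ 0 := fun h =>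
  hv (rho_injective ρ g (by rw [h, map_zero]))

/-- the stabiliser of the line spanned by `u` -/
def lineStab (u : V) (hu : u ≠ 0) : Subgroup G where
  carrier := {g | ∃ c : k, ρ g u = c • u}
  one_mem' := ⟨1, by rw [rho_one_apply, one_smul]⟩
  mul_mem' := by
    rintro g h ⟨c, hc⟩ ⟨d, hd⟩
    exact ⟨d * c, by rw [rho_mul_apply, hd, map_smul, hc, smul_smul]⟩
  inv_mem' := by
    rintro g ⟨c, hc⟩
    have hc0 : c ≠ 0 := by
      rintro rfl
      rw [zero_smul] at hc
      exact rho_ne_zero ρ g hu hc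
    refine ⟨c⁻¹, ?_⟩
    have h := congrArg (ρ g⁻¹) hc
    rw [rho_inv_apply, map_smul] at h
    have h' : c⁻¹ • u = ρ g⁻¹ u := by
      conv_lhs => rw [h]
      rw [smul_smul, inv_mul_cancel₀ hc0, one_smul]
    exact h'.symm

theorem mem_lineStab {u : V} (hu : u ≠ 0) {g : G} :
    g ∈ lineStab ρ u hu ↔ ∃ c : k, ρ g u = c • u := Iff.rfl

/-! ### The dichotomy: an orbit meeting at most two lines -/

/-- If every two vectors of the orbit of `u` which are off the line of `u` are proportional, then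
the stabiliser of the line of `u` has index `1` or `2`; so `h1`, `h2` give a contradiction. -/
theorem false_of_orbit_two_lines
    (h1 : NoStableLine ρ Set.univ)
    (h2 : ∀ G₂ : Subgroup G, G₂.index = 2 → NoStableLine ρ (G₂ : Set G))
    (u : V) (hu : u ≠ 0)
    (h3 : ∀ g₀ g₁ : G, (¬ ∃ c : k, ρ g₀ u = c • u) → (¬ ∃ c : k, ρ g₁ u = c • u) →
      ∃ c : k, ρ g₁ u = c • ρ g₀ u) : False := by
  by_cases hS : ∀ g : G, ∃ c : k, ρ g u = c • u
  · exact h1 ⟨u, hu, fun g _ => hS g⟩
  · push Not at hS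
    obtain ⟨g₀, hg₀⟩ := hS
    have hg₀' : ¬ ∃ c : k, ρ g₀ u = c • u := fun ⟨c, hc⟩ => hg₀ c hc
    set S := lineStab ρ u hu with hSdef
    have hidx : S.index = 2 := by
      rw [Subgroup.index_eq_two_iff]
      refine ⟨g₀, fun b => ?_⟩
      by_cases hb : b ∈ S
      · refine Or.inr ⟨hb, fun hbg => ?_⟩
        have : g₀ ∈ S := by
          have h := S.mul_mem (S.inv_mem hb) hbg
          rwa [inv_mul_cancel_left] at h
        exact hg₀' this
      · refine Or.inl ⟨?_, hb⟩
        have hb' : ¬ ∃ c : k, ρ b u = c • u := hb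
        -- `b * b` stabilises the line
        have hbb : b * b ∈ S := by
          by_contra hbb
          obtain ⟨c, hc⟩ := h3 b (b * b) hb' hbb
          apply hb'
          refine ⟨c, ?_⟩
          have h := congrArg (ρ b⁻¹) hc
          rwa [rho_mul_apply, rho_inv_apply, map_smul, rho_inv_apply] at h
        obtain ⟨d, hd⟩ := hbb
        obtain ⟨c, hc⟩ := h3 b g₀ hb' hg₀'
        refine ⟨c * d, ?_⟩
        rw [rho_mul_apply, hc, map_smul, ← rho_mul_apply, hd, smul_smul]
    exact h2 S hidx ⟨u, hu, fun g hg => hg⟩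

/-! ### Planes -/

section Plane

variable (hV : Module.finrank k V = 2)
include hV

/-- In a plane, two non-proportional vectors span. -/
theorem exists_smul_add_smul {u w : V} (hu : u ≠ 0) (hw : ¬ ∃ c : k, w = c • u) (v : V) :
    ∃ s t : k, v = s • u + t • w := by
  have : Module.Finite k V := Module.finite_of_finrank_pos (by rw [hV]; norm_num)
  have hli : LinearIndependent k ![u, w] := by
    rw [LinearIndependent.pair_iff' hu]
    exact fun a ha => hw ⟨a, ha.symm⟩
  have hspan : Submodule.span k (Set.range ![u, w]) = ⊤ :=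
    hli.span_eq_top_of_card_eq_finrank' (by rw [Fintype.card_fin, hV])
  have hv : v ∈ Submodule.span k (Set.range ![u, w]) := by rw [hspan]; trivial
  rw [Matrix.range_cons, Matrix.range_cons, Matrix.range_empty, Set.union_empty,
    Set.singleton_union, Submodule.mem_span_pair] at hv
  obtain ⟨s, t, hst⟩ := hv
  exact ⟨s, t, hst.symm⟩

omit hV in
/-- Independence in coordinates. -/
theorem eq_zero_of_smul_add_smul {u w : V} (hu : u ≠ 0) (hw : ¬ ∃ c : k, w = c • u) {s t : k}
    (h : s • u + t • w = 0) : s = 0 ∧ t = 0 := by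
  have hli : LinearIndependent k ![u, w] := by
    rw [LinearIndependent.pair_iff' hu]
    exact fun a ha => hw ⟨a, ha.symm⟩
  exact LinearIndependent.pair_iff.mp hli s t h

omit hV in
theorem eq_of_smul_add_smul_eq {u w : V} (hu : u ≠ 0) (hw : ¬ ∃ c : k, w = c • u) {s t s' t' : k}
    (h : s • u + t • w = s' • u + t' • w) : s = s' ∧ t = t' := by
  have h0 : (s - s') • u + (t - t') • w = 0 := by
    rw [sub_smul, sub_smul]
    have := sub_eq_zero.mpr h
    rw [← this]; abel
  obtain ⟨h1, h2⟩ := eq_zero_of_smul_add_smul hu hw h0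
  exact ⟨sub_eq_zero.mp h1, sub_eq_zero.mp h2⟩

/-- An endomorphism of a plane with three pairwise distinct eigenlines is a scalar. -/
theorem smul_of_three_eigvec (f : Module.End k V) {u u' u'' : V} (hu : u ≠ 0)
    (h01 : ¬ ∃ c : k, u' = c • u) (h02 : ¬ ∃ c : k, u'' = c • u)
    (h12 : ¬ ∃ c : k, u'' = c • u')
    (e0 : ∃ a : k, f u = a • u) (e1 : ∃ a : k, f u' = a • u') (e2 : ∃ a : k, f u'' = a • u'') :
    ∃ a : k, ∀ v : V, f v = a • v := by
  obtain ⟨a, ha⟩ := e0
  obtain ⟨b, hb⟩ := e1
  obtain ⟨c, hc⟩ := e2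
  obtain ⟨x, y, hxy⟩ := exists_smul_add_smul hV hu h01 u''
  have hx : x ≠ 0 := by
    rintro rfl
    rw [zero_smul, zero_add] at hxy
    exact h12 ⟨y, hxy⟩
  have hy : y ≠ 0 := by
    rintro rfl
    rw [zero_smul, add_zero] at hxy
    exact h02 ⟨x, hxy⟩
  have h := hc
  rw [hxy, map_add, map_smul, map_smul, ha, hb, smul_add, smul_smul, smul_smul, smul_smul,
    smul_smul] at h
  obtain ⟨h1, h2⟩ := eq_of_smul_add_smul_eq hu h01 h
  have hac : a = c := by
    have : x * a = x * c := by rw [h1, mul_comm]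
    exact mul_left_cancel₀ hx this
  have hbc : b = c := by
    have : y * b = y * c := by rw [h2, mul_comm]
    exact mul_left_cancel₀ hy this
  refine ⟨c, fun v => ?_⟩
  obtain ⟨s, t, hst⟩ := exists_smul_add_smul hV hu h01 v
  rw [hst, map_add, map_smul, map_smul, ha, hb, hac, hbc, smul_add, smul_comm c s, smul_comm c t]

/-- An endomorphism of a plane all of whose vectors are eigenvectors is a scalar. -/
theorem smul_of_forall_eigvec (f : Module.End k V) (h : ∀ v : V, ∃ a : k, f v = a • v) :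
    ∃ a : k, ∀ v : V, f v = a • v := by
  have hnt : Nontrivial V := Module.nontrivial_of_finrank_pos (R := k) (by rw [hV]; norm_num)
  obtain ⟨u, hu⟩ := exists_ne (0 : V)
  by_cases hall : ∀ w : V, ∃ c : k, w = c • u
  · obtain ⟨a, ha⟩ := h u
    refine ⟨a, fun v => ?_⟩
    obtain ⟨c, rfl⟩ := hall v
    rw [map_smul, ha, smul_comm]
  · push Not at hall
    obtain ⟨w, hw⟩ := hall
    have hw' : ¬ ∃ c : k, w = c • u := fun ⟨c, hc⟩ => hw c hc
    have h02 : ¬ ∃ c : k, u + w = c • u := by
      rintro ⟨c, hc⟩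
      exact hw' ⟨c - 1, by rw [sub_smul, one_smul, ← hc]; abel⟩
    have h12 : ¬ ∃ c : k, u + w = c • w := by
      rintro ⟨c, hc⟩
      have h0 : (1 : k) • u + (1 - c) • w = 0 := by
        rw [sub_smul, one_smul, one_smul, ← hc]; abel
      exact one_ne_zero (eq_zero_of_smul_add_smul hu hw' h0).1
    exact smul_of_three_eigvec hV f hu hw' h02 h12 (h u) (h w) (h (u + w))

end Plane

/-! ### Clifford -/

/-- **Clifford by hand.**  Let `H ⊴ G` with `G/H` abelian.  If `ρ` has no stable line, no subgroup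
of index `2` has a stable line, and every `ρ g` has an eigenvector, then `ρ|H` has no stable line. -/
theorem noStableLine_of_normal (hV : Module.finrank k V = 2)
    (h1 : NoStableLine ρ Set.univ)
    (h2 : ∀ G₂ : Subgroup G, G₂.index = 2 → NoStableLine ρ (G₂ : Set G))
    (hs : ∀ g : G, ∃ u : V, u ≠ 0 ∧ ∃ c : k, ρ g u = c • u)
    (H : Subgroup G) [hH : H.Normal] (hab : ∀ a b : G, a * b * a⁻¹ * b⁻¹ ∈ H) :
    NoStableLine ρ (H : Set G) := by
  rintro ⟨u, hu, hHu⟩
  -- translates of `u` are `H`-eigenvectors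
  have htr : ∀ g : G, ∀ h ∈ H, ∃ c : k, ρ h (ρ g u) = c • ρ g u := by
    intro g h hh
    have hconj : g⁻¹ * h * g ∈ H := by
      have := hH.conj_mem h hh g⁻¹
      rwa [inv_inv] at this
    obtain ⟨c, hc⟩ := hHu _ hconj
    refine ⟨c, ?_⟩
    have : h * g = g * (g⁻¹ * h * g) := by group
    rw [← rho_mul_apply, this, rho_mul_apply, hc, map_smul]
  -- first stage: the orbit of `u` meets at most two lines, or `H` acts by scalars
  by_cases hsc : ∀ h ∈ H, ∃ a : k, ∀ v : V, ρ h v = a • v
  · -- `H` acts by scalars; take a non-scalar `ρ b₀`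
    by_cases hall : ∀ b : G, ∃ a : k, ∀ v : V, ρ b v = a • v
    · exact h1 ⟨u, hu, fun g _ => (hall g).imp fun a ha => ha u⟩
    · push Not at hall
      obtain ⟨b₀, hb₀⟩ := hall
      obtain ⟨w, hw, lam, hlam⟩ := hs b₀
      -- translates of `w` are eigenvectors of `ρ b₀`
      have htr' : ∀ a : G, ∃ c : k, ρ b₀ (ρ a w) = c • ρ a w := by
        intro a
        have hcomm : a⁻¹ * b₀ * a * b₀⁻¹ ∈ H := by
          have := hab a⁻¹ b₀
          rwa [inv_inv] at this
        obtain ⟨z, hz⟩ := hsc _ hcomm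
        refine ⟨z * lam, ?_⟩
        have : b₀ * a = a * ((a⁻¹ * b₀ * a * b₀⁻¹) * b₀) := by group
        rw [← rho_mul_apply, this, rho_mul_apply, rho_mul_apply, hlam, map_smul, hz, map_smul,
          map_smul, smul_smul, mul_comm lam z]
      refine false_of_orbit_two_lines ρ h1 h2 w hw fun g₀ g₁ hg₀ hg₁ => ?_
      by_contra hcon
      have h01 : ¬ ∃ c : k, ρ g₀ w = c • w := hg₀
      have h02 : ¬ ∃ c : k, ρ g₁ w = c • w := hg₁
      obtain ⟨a, ha⟩ := smul_of_three_eigvec hV (ρ b₀) hw h01 h02 hcon ⟨lam, hlam⟩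
        (htr' g₀) (htr' g₁)
      obtain ⟨v, hv⟩ := hb₀ a
      exact hv (ha v)
  · refine false_of_orbit_two_lines ρ h1 h2 u hu fun g₀ g₁ hg₀ hg₁ => ?_
    by_contra hcon
    apply hsc
    intro h hh
    exact smul_of_three_eigvec hV (ρ h) hu hg₀ hg₁ hcon (hHu h hh) (htr g₀ h hh) (htr g₁ h hh)

end Fermat.Agent.S56.TW.Clifford
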