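/-
S56 / block (IV.1) (helper20): the group-theoretic core of the choice of Taylor–Wiles primes
("Lemma G"), Mathlib only, on top of `Clifford.lean`.

Setting: `k` a field with `2 ≠ 0`, `V` a plane over `k`, `ρ : G →* Module.End k V`, with
* `h1` : no `G`-stable line, `h2` : no subgroup of index `2` has a stable line (`hTW`),
* `hsp` : every `ρ g` has a split characteristic polynomial (`hsplit`).

Results:
* `exists_stableLine_of_sq_zero` (Kolchin for planes): a subgroup `H` all of whose elements satisfy
  `(ρ h - α)² = 0` has a stable line;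
* `exists_distinct_eigenvalues` : if `ρ|H` has no stable line, some `h ∈ H` has two DISTINCT
  eigenvalues in `k`;
* `false_of_stable_traceless_line`, `traceless_mem_of_stable` : `ad⁰ρ` is irreducible: a non-zero
  conjugation-stable subspace of trace-zero endomorphisms contains all of them;
* `forall_conj_sub_ne` : if `f` has distinct eigenvalues, `f - (tr f / 2)` is a trace-zero
  endomorphism which is not of the form `f y f⁻¹ - y`;
* `exists_regular_not_mem_range` : **the selection lemma**: for `H ⊴ G` with abelian quotient and a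
  non-zero stable subspace `N` of trace-zero endomorphisms there are `h ∈ H` with distinct
  eigenvalues and `x ∈ N` with `x ∉ (Ad (ρ h) - 1) (End V)`.
-/
import Mathlib
import Fermat.Agent.S56.TW.Clifford

set_option autoImplicit false

open Polynomial

namespace Fermat.Agent.S56.TW.LemmaG

open Fermat.Agent.S56.TW.Clifford

variable {k : Type*} [Field k] {V : Type*} [AddCommGroup V] [Module k V]
variable {G : Type*} [Group G] (ρ : G →* Module.End k V)

/-! ### Kolchin for planes -/

/-- The key computation: `A = [[α, a], [0, α]]`, `B = [[α', 0], [1, α']]` in the basis `(u, w)`,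
and `(AB - γ)² = 0`; then `a (a + 4 α α') = 0`. -/
theorem shape_relation {u w : V} (hu : u ≠ 0) (hw : ¬ ∃ c : k, w = c • u)
    (A B : Module.End k V) {α α' a γ : k}
    (hAu : A u = α • u) (hAw : A w = α • w + a • u) (hBu : B u = α' • u + w)
    (hBw : B w = α' • w) (hα : α ≠ 0)
    (hγ : ∀ v : V, A (B (A (B v) - γ • v)) = γ • (A (B v) - γ • v)) :
    a * (a + 4 * α * α') = 0 := by
  have hfu : A (B u) = (α * α' + a) • u + α • w := by
    rw [hBu, map_add, map_smul, hAu, hAw]; module
  have hfw : A (B w) = (α' * a) • u + (α * α') • w := by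
    rw [hBw, map_smul, hAw]; module
  set p : k := α * α' + a - γ with hp
  have e1 : A (B u) - γ • u = p • u + α • w := by rw [hfu, hp]; module
  have h := hγ u
  rw [e1, map_add, map_add, map_smul, map_smul, map_smul, map_smul, hfu, hfw] at h
  have h' : (p * (α * α' + a) + α * (α' * a)) • u + (p * α + α * (α * α')) • w =
      (γ * p) • u + (γ * α) • w := by
    calc _ = p • ((α * α' + a) • u + α • w) + α • ((α' * a) • u + (α * α') • w) := by module
      _ = γ • (p • u + α • w) := h
      _ = _ := by module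
  obtain ⟨hc1, hc2⟩ := eq_of_smul_add_smul_eq hu hw h'
  -- from `hc2`: `p + α α' = γ`
  have hp2 : p + α * α' = γ := by
    have : α * (p + α * α') = α * γ := by linear_combination hc2
    exact mul_left_cancel₀ hα this
  -- `a = 2 (γ - α α')` and `p = γ - α α'`
  have ha : a = 2 * (γ - α * α') := by rw [hp] at hp2; linear_combination hp2
  have hp3 : p = γ - α * α' := by linear_combination hp2
  rw [hp3] at hc1
  linear_combination 4 * hc1 + (a - 2 * (γ - α * α')) * ha

variable (hV : Module.finrank k V = 2)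
include hV

/-- **Kolchin for planes.**  If every `ρ h`, `h ∈ H`, satisfies `(ρ h - α)² = 0` for some `α`, and
`2 ≠ 0`, then `H` has a stable line. -/
theorem exists_stableLine_of_sq_zero (h2k : (2 : k) ≠ 0) (H : Subgroup G)
    (hrep : ∀ h ∈ H, ∃ α : k, ∀ v : V, ρ h (ρ h v - α • v) = α • (ρ h v - α • v)) :
    ∃ u : V, u ≠ 0 ∧ ∀ h ∈ H, ∃ c : k, ρ h u = c • u := by
  have hnt : Nontrivial V := Module.nontrivial_of_finrank_pos (R := k) (by rw [hV]; norm_num)
  by_cases hsc : ∀ h ∈ H, ∃ a : k, ∀ v : V, ρ h v = a • v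
  · obtain ⟨u, hu⟩ := exists_ne (0 : V)
    exact ⟨u, hu, fun h hh => (hsc h hh).imp fun a ha => ha u⟩
  · push Not at hsc
    obtain ⟨h₁, hh₁, hns⟩ := hsc
    obtain ⟨α, hα⟩ := hrep h₁ hh₁
    obtain ⟨v₀, hv₀⟩ := hns α
    set u : V := ρ h₁ v₀ - α • v₀ with hudef
    have hu : u ≠ 0 := sub_ne_zero.mpr hv₀
    have hAu : ρ h₁ u = α • u := hα v₀
    have hα0 : α ≠ 0 := by
      rintro rfl
      rw [zero_smul] at hAu
      exact rho_ne_zero ρ h₁ hu hAu
    refine ⟨u, hu, fun h hh => ?_⟩
    by_contra hcon
    obtain ⟨α', hα'⟩ := hrep h hh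
    set w : V := ρ h u - α' • u with hwdef
    have hw : ¬ ∃ c : k, w = c • u := by
      rintro ⟨c, hc⟩
      exact hcon ⟨c + α', by rw [add_smul, ← hc, hwdef]; abel⟩
    have hw0 : w ≠ 0 := fun h0 => hw ⟨0, by rw [h0, zero_smul]⟩
    have hBu : ρ h u = α' • u + w := by rw [hwdef]; abel
    have hBw : ρ h w = α' • w := hα' u
    -- the shape of `A = ρ h₁` on `w`
    obtain ⟨s, t, hst⟩ := exists_smul_add_smul hV hu hw (ρ h₁ w - α • w)
    have hE := hα w
    rw [hst, map_add, map_smul, map_smul, hAu] at hE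
    have hAw0 : ρ h₁ w = α • w + (s • u + t • w) := by rw [← hst]; abel
    have ht : t = 0 := by
      rw [hAw0] at hE
      have h0 : (t * s) • u + (t * t) • w = 0 := by
        have : (s * α + t * s) • u + (t * α + t * t) • w = (α * s) • u + (α * t) • w := by
          calc _ = s • α • u + t • (α • w + (s • u + t • w)) := by module
            _ = α • (s • u + t • w) := hE
            _ = _ := by module
        obtain ⟨e1, e2⟩ := eq_of_smul_add_smul_eq hu hw this
        have e1' : t * s = 0 := by linear_combination e1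
        have e2' : t * t = 0 := by linear_combination e2
        rw [e1', e2', zero_smul, zero_smul, add_zero]
      exact mul_self_eq_zero.mp (eq_zero_of_smul_add_smul hu hw h0).2
    have hAw : ρ h₁ w = α • w + s • u := by rw [hAw0, ht, zero_smul, add_zero]
    have hs0 : s ≠ 0 := by
      rintro rfl
      rw [zero_smul, add_zero] at hAw
      obtain ⟨x, y, hxy⟩ := exists_smul_add_smul hV hu hw v₀
      apply hv₀
      rw [hxy, map_add, map_smul, map_smul, hAu, hAw]; module
    -- first relation
    obtain ⟨γ, hγ⟩ := hrep (h₁ * h) (H.mul_mem hh₁ hh)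
    have hγ' : ∀ v : V, ρ h₁ (ρ h (ρ h₁ (ρ h v) - γ • v)) = γ • (ρ h₁ (ρ h v) - γ • v) := by
      intro v
      have := hγ v
      rwa [rho_mul_apply, rho_mul_apply] at this
    have r1 := shape_relation hu hw (ρ h₁) (ρ h) hAu hAw hBu hBw hα0 hγ'
    -- second relation, for `h₁ * h₁`
    have hA2u : (ρ h₁ * ρ h₁) u = (α * α) • u := by
      rw [Module.End.mul_apply, hAu, map_smul, hAu, smul_smul]
    have hA2w : (ρ h₁ * ρ h₁) w = (α * α) • w + (2 * α * s) • u := by
      rw [Module.End.mul_apply, hAw, map_add, map_smul, map_smul, hAw, hAu]; module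
    obtain ⟨γ₂, hγ₂⟩ := hrep (h₁ * h₁ * h) (H.mul_mem (H.mul_mem hh₁ hh₁) hh)
    have hγ₂' : ∀ v : V, (ρ h₁ * ρ h₁) (ρ h ((ρ h₁ * ρ h₁) (ρ h v) - γ₂ • v)) =
        γ₂ • ((ρ h₁ * ρ h₁) (ρ h v) - γ₂ • v) := by
      have e : ∀ v : V, ρ (h₁ * h₁ * h) v = (ρ h₁ * ρ h₁) (ρ h v) := fun v => by
        rw [map_mul, map_mul, Module.End.mul_apply]
      intro v
      have := hγ₂ v
      simp only [e] at this
      exact this
    have r2 := shape_relation hu hw (ρ h₁ * ρ h₁) (ρ h) hA2u hA2w hBu hBw
      (mul_ne_zero hα0 hα0) hγ₂'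
    -- conclude
    have hα'0 : α' ≠ 0 := by
      rintro rfl
      rw [zero_smul] at hBw
      exact rho_ne_zero ρ h hw0 hBw
    have e1 : s + 4 * α * α' = 0 := (mul_eq_zero.mp r1).resolve_left hs0
    have e2 : 2 * α * s + 4 * (α * α) * α' = 0 :=
      (mul_eq_zero.mp r2).resolve_left (mul_ne_zero (mul_ne_zero h2k hα0) hs0)
    have e3 : 2 * α * (2 * α * α') = 0 := by linear_combination 2 * α * e1 - e2
    rcases mul_eq_zero.mp e3 with h | h
    · exact (mul_ne_zero h2k hα0) h
    · exact (mul_ne_zero (mul_ne_zero h2k hα0) hα'0) h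

/-! ### Split characteristic polynomials -/

section Charpoly

variable [Module.Finite k V]

omit hV in
/-- `(f - α)(f - β) = 0` from a split characteristic polynomial. -/
theorem sub_mul_sub_apply_of_charpoly (f : Module.End k V) {α β : k}
    (hf : f.charpoly = (X - C α) * (X - C β)) (v : V) :
    f (f v - β • v) = α • (f v - β • v) := by
  have h := LinearMap.aeval_self_charpoly f
  rw [hf, map_mul, map_sub, map_sub, aeval_X, aeval_C, aeval_C] at h
  have hv := congrArg (fun g : Module.End k V => g v) h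
  simp only [Module.End.mul_apply, LinearMap.sub_apply, Module.algebraMap_end_apply,
    LinearMap.zero_apply] at hv
  rw [map_sub, map_smul] at hv ⊢
  have : f (f v) - β • f v - α • (f v - β • v) = 0 := hv
  rw [sub_eq_zero] at this
  exact this

/-- An endomorphism of a plane with split characteristic polynomial has an eigenvector. -/
theorem exists_eigvec_of_charpoly (f : Module.End k V) {α β : k}
    (hf : f.charpoly = (X - C α) * (X - C β)) : ∃ u : V, u ≠ 0 ∧ ∃ c : k, f u = c • u := by
  have hnt : Nontrivial V := Module.nontrivial_of_finrank_pos (R := k) (by rw [hV]; norm_num)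
  by_cases h : ∀ v : V, f v = β • v
  · obtain ⟨u, hu⟩ := exists_ne (0 : V)
    exact ⟨u, hu, β, h u⟩
  · push Not at h
    obtain ⟨v, hv⟩ := h
    exact ⟨f v - β • v, sub_ne_zero.mpr hv, α, sub_mul_sub_apply_of_charpoly f hf v⟩

/-- If `ρ|H` has no stable line then some `h ∈ H` has two distinct eigenvalues in `k`. -/
theorem exists_distinct_eigenvalues (h2k : (2 : k) ≠ 0) (H : Subgroup G)
    (hH : NoStableLine ρ (H : Set G))
    (hsp : ∀ g : G, ∃ α β : k, (ρ g).charpoly = (X - C α) * (X - C β)) :
    ∃ h ∈ H, ∃ α β : k, α ≠ β ∧ (ρ h).charpoly = (X - C α) * (X - C β) := by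
  by_contra hcon
  push Not at hcon
  apply hH
  refine exists_stableLine_of_sq_zero ρ hV h2k H fun h hh => ?_
  obtain ⟨α, β, hαβ⟩ := hsp h
  have heq : α = β := by
    by_contra hne
    exact hcon h hh α β hne hαβ
  subst heq
  exact ⟨α, fun v => sub_mul_sub_apply_of_charpoly (ρ h) hαβ v⟩

end Charpoly

/-! ### Endomorphisms of a plane -/

/-- Cayley–Hamilton for a trace-zero endomorphism of a plane: `x² = d`. -/
theorem exists_mul_self_eq_smul_one (x : Module.End k V) (htr : LinearMap.trace k V x = 0) :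
    ∃ d : k, x * x = d • (1 : Module.End k V) := by
  have : Module.Finite k V := Module.finite_of_finrank_pos (by rw [hV]; norm_num)
  let b : Module.Basis (Fin 2) k V := Module.finBasisOfFinrankEq k V hV
  set M : Matrix (Fin 2) (Fin 2) k := LinearMap.toMatrix b b x with hM
  have htrM : M.trace = 0 := by rw [hM, ← LinearMap.trace_eq_matrix_trace k b x, htr]
  have hCH := Matrix.aeval_self_charpoly M
  rw [Matrix.charpoly_fin_two, htrM] at hCH
  simp only [map_zero, zero_mul, sub_zero, map_add, map_pow, aeval_X, aeval_C] at hCH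
  refine ⟨-M.det, ?_⟩
  apply (LinearMap.toMatrix b b).injective
  rw [LinearMap.toMatrix_mul, ← hM, map_smul, LinearMap.toMatrix_one]
  rw [pow_two] at hCH
  have h2 : algebraMap k (Matrix (Fin 2) (Fin 2) k) M.det = M.det • (1 : Matrix (Fin 2) (Fin 2) k) :=
    Algebra.algebraMap_eq_smul_one _
  rw [h2] at hCH
  rw [neg_smul]
  exact eq_neg_of_add_eq_zero_left hCH

/-- The centraliser of a non-scalar endomorphism `x` of a plane is `k + k x`. -/
theorem exists_eq_smul_add_smul_of_commute (x y : Module.End k V)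
    (hx : ¬ ∃ a : k, ∀ v : V, x v = a • v) (hxy : y * x = x * y) :
    ∃ a b : k, ∀ v : V, y v = a • v + b • x v := by
  have hu₀ : ∃ u₀ : V, ¬ ∃ c : k, x u₀ = c • u₀ := by
    by_contra h
    push Not at h
    exact hx (smul_of_forall_eigvec hV x h)
  obtain ⟨u₀, hu₀⟩ := hu₀
  have hu₀0 : u₀ ≠ 0 := by
    rintro rfl
    exact hu₀ ⟨0, by rw [map_zero, smul_zero]⟩
  obtain ⟨a, b, hab⟩ := exists_smul_add_smul hV hu₀0 hu₀ (y u₀)
  refine ⟨a, b, fun v => ?_⟩
  obtain ⟨s, t, hst⟩ := exists_smul_add_smul hV hu₀0 hu₀ v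
  have hyx : y (x u₀) = x (y u₀) := by
    have := congrArg (fun g : Module.End k V => g u₀) hxy
    simpa only [Module.End.mul_apply] using this
  rw [hst, map_add, map_smul, map_smul, hyx, hab, map_add, map_smul, map_smul, map_add, map_smul,
    map_smul]
  module

/-! ### `ad⁰` is irreducible -/

omit hV in
theorem rho_mul_inv (g : G) : ρ g * ρ g⁻¹ = 1 := by rw [← map_mul, mul_inv_cancel, map_one]

omit hV in
theorem rho_inv_mul (g : G) : ρ g⁻¹ * ρ g = 1 := by rw [← map_mul, inv_mul_cancel, map_one]

/-- There is no conjugation-stable line of trace-zero endomorphisms. -/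
theorem false_of_stable_traceless_line (h2k : (2 : k) ≠ 0)
    (h1 : NoStableLine ρ Set.univ)
    (h2 : ∀ G₂ : Subgroup G, G₂.index = 2 → NoStableLine ρ (G₂ : Set G))
    (hs : ∀ g : G, ∃ u : V, u ≠ 0 ∧ ∃ c : k, ρ g u = c • u)
    (x : Module.End k V) (hx : x ≠ 0) (htr : LinearMap.trace k V x = 0)
    (hst : ∀ g : G, ∃ c : k, ρ g * x * ρ g⁻¹ = c • x) : False := by
  have hnt : Nontrivial V := Module.nontrivial_of_finrank_pos (R := k) (by rw [hV]; norm_num)
  have hfin : Module.Finite k V := Module.finite_of_finrank_pos (by rw [hV]; norm_num)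
  obtain ⟨d, hd⟩ := exists_mul_self_eq_smul_one hV x htr
  have hdv : ∀ v : V, x (x v) = d • v := fun v => by
    have := congrArg (fun g : Module.End k V => g v) hd
    simpa only [Module.End.mul_apply, LinearMap.smul_apply, Module.End.one_apply] using this
  -- `x` is not a scalar
  have hxns : ¬ ∃ a : k, ∀ v : V, x v = a • v := by
    rintro ⟨a, ha⟩
    have hxa : x = a • (1 : Module.End k V) := LinearMap.ext fun v => by
      rw [ha, LinearMap.smul_apply, Module.End.one_apply]
    rw [hxa, map_smul, LinearMap.trace_one, hV, smul_eq_mul] at htr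
    have ha0 : a = 0 := by
      rcases mul_eq_zero.mp htr with h | h
      · exact h
      · exact absurd (by exact_mod_cast h) h2k
    exact hx (by rw [hxa, ha0, zero_smul])
  -- conjugation in vector form
  have hconj : ∀ g : G, ∃ c : k, ∀ v : V, x (ρ g v) = c • ρ g (x v) := by
    intro g
    obtain ⟨c, hc⟩ := hst g⁻¹
    rw [inv_inv] at hc
    refine ⟨c, fun v => ?_⟩
    have := congrArg (fun f : Module.End k V => ρ g (f v)) hc
    simp only [Module.End.mul_apply, LinearMap.smul_apply, map_smul] at this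
    rw [rho_apply_inv] at this
    exact this
  obtain ⟨v₀, hv₀⟩ : ∃ v₀ : V, x v₀ ≠ 0 := by
    by_contra h
    push Not at h
    exact hx (LinearMap.ext fun v => by rw [h v, LinearMap.zero_apply])
  by_cases hd0 : d = 0
  · -- `x² = 0`: the kernel of `x` is a stable line
    subst hd0
    set u : V := x v₀ with hudef
    have hxu : x u = 0 := by rw [hudef, hdv, zero_smul]
    have hv₀u : ¬ ∃ c : k, v₀ = c • u := by
      rintro ⟨c, hc⟩
      apply hv₀
      rw [hudef, hc, map_smul, hxu, smul_zero]
    refine h1 ⟨u, hv₀, fun g _ => ?_⟩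
    obtain ⟨c, hc⟩ := hconj g
    have hker : x (ρ g u) = 0 := by rw [hc, hxu, map_zero, smul_zero]
    obtain ⟨s, t, hst'⟩ := exists_smul_add_smul hV hv₀ hv₀u (ρ g u)
    rw [hst', map_add, map_smul, map_smul, hxu, smul_zero, zero_add, ← hudef] at hker
    have ht : t = 0 := by
      rcases smul_eq_zero.mp hker with h | h
      · exact h
      · exact absurd h hv₀
    exact ⟨s, by rw [hst', ht, zero_smul, add_zero]⟩
  · -- `x² = d ≠ 0`: the centraliser of `x` has index `≤ 2`
    have hcsq : ∀ g : G, ∀ c : k, (∀ v : V, x (ρ g v) = c • ρ g (x v)) → c = 1 ∨ c = -1 := by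
      intro g c hc
      have hv₀0 : v₀ ≠ 0 := fun h0 => hv₀ (by rw [h0, map_zero])
      have key : (c * c * d) • ρ g v₀ = d • ρ g v₀ := by
        calc (c * c * d) • ρ g v₀ = c • (c • ρ g (d • v₀)) := by
              rw [map_smul, smul_smul, smul_smul]
          _ = c • (c • ρ g (x (x v₀))) := by rw [hdv]
          _ = c • x (ρ g (x v₀)) := by rw [hc (x v₀)]
          _ = x (c • ρ g (x v₀)) := by rw [map_smul]
          _ = x (x (ρ g v₀)) := by rw [hc v₀]
          _ = d • ρ g v₀ := hdv _
      have h' : (c * c * d - d) • ρ g v₀ = 0 := by rw [sub_smul, key, sub_self]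
      rcases smul_eq_zero.mp h' with h'' | h''
      · have : (c - 1) * (c + 1) * d = 0 := by linear_combination h''
        rcases mul_eq_zero.mp this with h3 | h3
        · rcases mul_eq_zero.mp h3 with h4 | h4
          · exact Or.inl (sub_eq_zero.mp h4)
          · exact Or.inr (eq_neg_of_add_eq_zero_left h4)
        · exact absurd h3 hd0
      · exact absurd h'' (rho_ne_zero ρ g hv₀0)
    let G₂ : Subgroup G :=
      { carrier := {g | ∀ v : V, x (ρ g v) = ρ g (x v)}
        one_mem' := fun v => by rw [rho_one_apply, rho_one_apply]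
        mul_mem' := fun {g h} hg hh v => by
          rw [rho_mul_apply, hg, hh, ← rho_mul_apply]
        inv_mem' := fun {g} hg v => by
          apply rho_injective ρ g
          rw [← hg, rho_apply_inv, rho_apply_inv] }
    have hG₂ : ∀ g : G, g ∈ G₂ ↔ ∀ v : V, x (ρ g v) = ρ g (x v) := fun g => Iff.rfl
    -- a `G₂`-stable line
    have hline : ∃ u : V, u ≠ 0 ∧ ∀ g ∈ G₂, ∃ c : k, ρ g u = c • u := by
      by_cases hsq : ∃ δ : k, δ * δ = d
      · obtain ⟨δ, hδ⟩ := hsq
        have hδ0 : δ ≠ 0 := by
          rintro rfl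
          exact hd0 (by rw [← hδ, mul_zero])
        obtain ⟨v₁, hv₁⟩ : ∃ v₁ : V, x v₁ + δ • v₁ ≠ 0 := by
          by_contra h
          push Not at h
          apply hxns
          exact ⟨-δ, fun v => by rw [neg_smul]; exact eq_neg_of_add_eq_zero_left (h v)⟩
        set u : V := x v₁ + δ • v₁ with hudef
        have hxu : x u = δ • u := by
          rw [hudef, map_add, map_smul, hdv, ← hδ]; module
        refine ⟨u, hv₁, fun g hg => ?_⟩
        by_contra hcon
        have hgu : x (ρ g u) = δ • ρ g u := by rw [(hG₂ g).mp hg, hxu, map_smul]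
        apply hxns
        refine ⟨δ, fun v => ?_⟩
        obtain ⟨s, t, hst'⟩ := exists_smul_add_smul hV hv₁ (fun ⟨c, hc⟩ => hcon ⟨c, hc⟩) v
        rw [hst', map_add, map_smul, map_smul, hxu, hgu]; module
      · push Not at hsq
        obtain ⟨u₀, hu₀⟩ := exists_ne (0 : V)
        refine ⟨u₀, hu₀, fun g hg => ?_⟩
        have hcomm : ρ g * x = x * ρ g := LinearMap.ext fun v => by
          rw [Module.End.mul_apply, Module.End.mul_apply, (hG₂ g).mp hg]
        obtain ⟨a, b, hab⟩ := exists_eq_smul_add_smul_of_commute hV x (ρ g) hxns hcomm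
        obtain ⟨w, hw, lam, hlam⟩ := hs g
        have hb : b = 0 := by
          by_contra hb
          have hxw : x w = (b⁻¹ * (lam - a)) • w := by
            have := hab w
            rw [hlam] at this
            have h' : b • x w = (lam - a) • w := by rw [sub_smul, this]; abel
            rw [← smul_smul, ← h', smul_smul, inv_mul_cancel₀ hb, one_smul]
          have := hdv w
          rw [hxw, map_smul, hxw, smul_smul] at this
          have h0 : (b⁻¹ * (lam - a) * (b⁻¹ * (lam - a)) - d) • w = 0 := by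
            rw [sub_smul, this, sub_self]
          rcases smul_eq_zero.mp h0 with h | h
          · exact hsq _ (sub_eq_zero.mp h)
          · exact hw h
        exact ⟨a, by rw [hab u₀, hb, zero_smul, add_zero]⟩
    obtain ⟨u, hu, hGu⟩ := hline
    by_cases hall : ∀ g : G, g ∈ G₂
    · exact h1 ⟨u, hu, fun g _ => hGu g (hall g)⟩
    · push Not at hall
      obtain ⟨g₀, hg₀⟩ := hall
      have hneg : ∀ g : G, g ∉ G₂ → ∀ v : V, x (ρ g v) = -ρ g (x v) := by
        intro g hg
        obtain ⟨c, hc⟩ := hconj g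
        rcases hcsq g c hc with rfl | rfl
        · exact absurd (fun v => by rw [hc v, one_smul]) hg
        · intro v; rw [hc v, neg_smul, one_smul]
      have hidx : G₂.index = 2 := by
        rw [Subgroup.index_eq_two_iff]
        refine ⟨g₀, fun b => ?_⟩
        by_cases hb : b ∈ G₂
        · refine Or.inr ⟨hb, fun hbg => hg₀ ?_⟩
          have h := G₂.mul_mem (G₂.inv_mem hb) hbg
          rwa [inv_mul_cancel_left] at h
        · refine Or.inl ⟨?_, hb⟩
          intro v
          rw [rho_mul_apply, hneg b hb, hneg g₀ hg₀, map_neg, neg_neg, rho_mul_apply]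
      exact h2 G₂ hidx ⟨u, hu, hGu⟩

/-- **`ad⁰ρ` is irreducible**: a non-zero subspace of trace-zero endomorphisms which is stable
under conjugation by all `ρ g` contains every trace-zero endomorphism. -/
theorem traceless_mem_of_stable (h2k : (2 : k) ≠ 0)
    (h1 : NoStableLine ρ Set.univ)
    (h2 : ∀ G₂ : Subgroup G, G₂.index = 2 → NoStableLine ρ (G₂ : Set G))
    (hs : ∀ g : G, ∃ u : V, u ≠ 0 ∧ ∃ c : k, ρ g u = c • u)
    (N : Submodule k (Module.End k V)) (hN0 : ∀ x ∈ N, LinearMap.trace k V x = 0)
    (hNne : N ≠ ⊥) (hst : ∀ g : G, ∀ x ∈ N, ρ g * x * ρ g⁻¹ ∈ N) :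
    ∀ x : Module.End k V, LinearMap.trace k V x = 0 → x ∈ N := by
  have hfin : Module.Finite k V := Module.finite_of_finrank_pos (by rw [hV]; norm_num)
  set M₀ : Submodule k (Module.End k V) := LinearMap.ker (LinearMap.trace k V) with hM₀
  have hle : N ≤ M₀ := fun x hx => LinearMap.mem_ker.mpr (hN0 x hx)
  -- `dim M₀ = 3`
  have hM₀3 : Module.finrank k M₀ = 3 := by
    have h4 : Module.finrank k (Module.End k V) = 4 := by
      rw [Module.finrank_linearMap, hV]
    have hsurj : LinearMap.range (LinearMap.trace k V) = ⊤ := by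
      rw [LinearMap.range_eq_top]
      intro c
      refine ⟨(c / 2) • (1 : Module.End k V), ?_⟩
      rw [map_smul, LinearMap.trace_one, hV, smul_eq_mul]
      push_cast
      field_simp
    have := LinearMap.finrank_range_add_finrank_ker (LinearMap.trace k V)
    rw [hsurj, finrank_top, Module.finrank_self, h4] at this
    rw [hM₀]
    exact Nat.add_left_cancel (this.trans (by norm_num : 4 = 1 + 3))
  have hNle : Module.finrank k N ≤ 3 := hM₀3 ▸ Submodule.finrank_mono hle
  have hNpos : 0 < Module.finrank k N := by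
    rw [Module.finrank_pos_iff_exists_ne_zero]
    obtain ⟨x, hxN, hx0⟩ := Submodule.exists_mem_ne_zero_of_ne_bot hNne
    exact ⟨⟨x, hxN⟩, fun h => hx0 (congrArg Subtype.val h)⟩
  suffices hN3 : Module.finrank k N = 3 by
    have hNM : N = M₀ := Submodule.eq_of_le_of_finrank_eq hle (by rw [hN3, hM₀3])
    intro x hx
    rw [hNM]
    exact LinearMap.mem_ker.mpr hx
  by_contra hN3
  have hcases : Module.finrank k N = 1 ∨ Module.finrank k N = 2 := by omega
  rcases hcases with hN1 | hN2
  · -- a stable line
    obtain ⟨⟨x, hxN⟩, hx0, hspan⟩ := finrank_eq_one_iff'.mp hN1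
    have hx0' : x ≠ 0 := fun h => hx0 (Subtype.ext h)
    refine false_of_stable_traceless_line ρ hV h2k h1 h2 hs x hx0' (hN0 x hxN) fun g => ?_
    obtain ⟨c, hc⟩ := hspan ⟨ρ g * x * ρ g⁻¹, hst g x hxN⟩
    exact ⟨c, (congrArg Subtype.val hc).symm⟩
  · -- a stable plane `⟨x, y⟩`: the line of `[x, y]` is stable
    let b : Module.Basis (Fin 2) k N := Module.finBasisOfFinrankEq k N hN2
    set x : Module.End k V := (b 0 : Module.End k V) with hxdef
    set y : Module.End k V := (b 1 : Module.End k V) with hydef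
    have hxN : x ∈ N := (b 0).2
    have hyN : y ∈ N := (b 1).2
    have hrepr : ∀ w ∈ N, ∃ s t : k, w = s • x + t • y := by
      intro w hw
      refine ⟨b.repr ⟨w, hw⟩ 0, b.repr ⟨w, hw⟩ 1, ?_⟩
      have := congrArg Subtype.val (b.sum_repr ⟨w, hw⟩)
      rw [Fin.sum_univ_two] at this
      simpa using this.symm
    have hind : ∀ s t : k, s • x + t • y = 0 → s = 0 ∧ t = 0 := by
      intro s t hst'
      have hli := b.linearIndependent
      rw [Fintype.linearIndependent_iff] at hli
      have h0 : ∑ i, (![s, t] i) • b i = 0 := by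
        rw [Fin.sum_univ_two]
        apply Subtype.ext
        simpa using hst'
      exact ⟨hli ![s, t] h0 0, hli ![s, t] h0 1⟩
    have hx0 : x ≠ 0 := fun h => by
      have := (hind 1 0 (by rw [h, smul_zero, zero_smul, add_zero])).1
      exact one_ne_zero this
    -- `x` is not a scalar
    have hxns : ¬ ∃ a : k, ∀ v : V, x v = a • v := by
      rintro ⟨a, ha⟩
      have hxa : x = a • (1 : Module.End k V) := LinearMap.ext fun v => by
        rw [ha, LinearMap.smul_apply, Module.End.one_apply]
      have htr := hN0 x hxN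
      rw [hxa, map_smul, LinearMap.trace_one, hV, smul_eq_mul] at htr
      have ha0 : a = 0 := by
        rcases mul_eq_zero.mp htr with h | h
        · exact h
        · exact absurd (by exact_mod_cast h) h2k
      exact hx0 (by rw [hxa, ha0, zero_smul])
    set z : Module.End k V := x * y - y * x with hzdef
    have hz0 : z ≠ 0 := by
      intro hz
      have hcomm : y * x = x * y := (sub_eq_zero.mp hz).symm
      obtain ⟨a, c, hac⟩ := exists_eq_smul_add_smul_of_commute hV x y hxns hcomm
      have hy : y = a • (1 : Module.End k V) + c • x := LinearMap.ext fun v => by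
        rw [hac, LinearMap.add_apply, LinearMap.smul_apply, LinearMap.smul_apply,
          Module.End.one_apply]
      have htr := hN0 y hyN
      rw [hy, map_add, map_smul, map_smul, LinearMap.trace_one, hN0 x hxN, hV, smul_zero,
        add_zero, smul_eq_mul] at htr
      have ha0 : a = 0 := by
        rcases mul_eq_zero.mp htr with h | h
        · exact h
        · exact absurd (by exact_mod_cast h) h2k
      have : (-c) • x + (1 : k) • y = 0 := by rw [hy, ha0]; module
      exact one_ne_zero (hind _ _ this).2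
    have hztr : LinearMap.trace k V z = 0 := by
      rw [hzdef, map_sub, LinearMap.trace_mul_comm k x y, sub_self]
    refine false_of_stable_traceless_line ρ hV h2k h1 h2 hs z hz0 hztr fun g => ?_
    obtain ⟨s, t, hst1⟩ := hrepr _ (hst g x hxN)
    obtain ⟨s', t', hst2⟩ := hrepr _ (hst g y hyN)
    refine ⟨s * t' - t * s', ?_⟩
    have hgi : ρ g⁻¹ * ρ g = 1 := rho_inv_mul ρ g
    have e : ρ g * z * ρ g⁻¹ =
        (ρ g * x * ρ g⁻¹) * (ρ g * y * ρ g⁻¹) - (ρ g * y * ρ g⁻¹) * (ρ g * x * ρ g⁻¹) := by
      have e1 : (ρ g * x * ρ g⁻¹) * (ρ g * y * ρ g⁻¹) = ρ g * (x * y) * ρ g⁻¹ := by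
        calc _ = ρ g * x * (ρ g⁻¹ * ρ g) * y * ρ g⁻¹ := by noncomm_ring
          _ = _ := by rw [hgi]; noncomm_ring
      have e2 : (ρ g * y * ρ g⁻¹) * (ρ g * x * ρ g⁻¹) = ρ g * (y * x) * ρ g⁻¹ := by
        calc _ = ρ g * y * (ρ g⁻¹ * ρ g) * x * ρ g⁻¹ := by noncomm_ring
          _ = _ := by rw [hgi]; noncomm_ring
      rw [e1, e2, hzdef]; noncomm_ring
    rw [e, hst1, hst2, hzdef]
    simp only [add_mul, mul_add, smul_mul_assoc, mul_smul_comm, smul_sub, smul_smul, smul_add,
      sub_smul]
    module

/-! ### Regular elements -/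

section Regular

variable [Module.Finite k V]

/-- If `f` has two distinct eigenvalues, the trace-zero endomorphism `f - (tr f / 2)` is not of
the form `f y f⁻¹ - y`. -/
theorem forall_conj_sub_ne (h2k : (2 : k) ≠ 0) (f finv : Module.End k V) (hfi : finv * f = 1)
    {α β : k} (hαβ : α ≠ β) (hf : f.charpoly = (X - C α) * (X - C β)) :
    LinearMap.trace k V (f - (LinearMap.trace k V f / 2) • (1 : Module.End k V)) = 0 ∧
      ∀ y : Module.End k V,
        f * y * finv - y ≠ f - (LinearMap.trace k V f / 2) • (1 : Module.End k V) := by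
  constructor
  · rw [map_sub, map_smul, LinearMap.trace_one, hV, smul_eq_mul]
    push_cast
    field_simp
    ring
  · intro y hy
    -- eigenvectors
    have hrα : (f.charpoly).IsRoot α := by rw [hf]; simp
    have hrβ : (f.charpoly).IsRoot β := by rw [hf]; simp
    obtain ⟨u, hu⟩ := ((Module.End.hasEigenvalue_iff_isRoot_charpoly f α).mpr hrα).exists_hasEigenvector
    obtain ⟨u', hu'⟩ :=
      ((Module.End.hasEigenvalue_iff_isRoot_charpoly f β).mpr hrβ).exists_hasEigenvector
    have hu0 : u ≠ 0 := hu.2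
    have hu'0 : u' ≠ 0 := hu'.2
    have hfu : f u = α • u := hu.apply_eq_smul
    have hfu' : f u' = β • u' := hu'.apply_eq_smul
    have hfiv : ∀ v : V, finv (f v) = v := fun v => by
      have := congrArg (fun g : Module.End k V => g v) hfi
      simpa only [Module.End.mul_apply, Module.End.one_apply] using this
    have hα0 : α ≠ 0 := by
      rintro rfl
      rw [zero_smul] at hfu
      have := hfiv u
      rw [hfu, map_zero] at this
      exact hu0 this.symm
    have hβ0 : β ≠ 0 := by
      rintro rfl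
      rw [zero_smul] at hfu'
      have := hfiv u'
      rw [hfu', map_zero] at this
      exact hu'0 this.symm
    have hind : ¬ ∃ c : k, u' = c • u := by
      rintro ⟨c, hc⟩
      have h := hfu'
      rw [hc, map_smul, hfu, smul_smul, smul_smul] at h
      have h0 : (c * α - β * c) • u = 0 := by rw [sub_smul, h, sub_self]
      rcases smul_eq_zero.mp h0 with h' | h'
      · have hc0 : c ≠ 0 := by
          rintro rfl
          rw [zero_smul] at hc
          exact hu'0 hc
        have : c * (α - β) = 0 := by linear_combination h'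
        rcases mul_eq_zero.mp this with h'' | h''
        · exact hc0 h''
        · exact hαβ (sub_eq_zero.mp h'')
      · exact hu0 h'
    have hfiu : finv u = α⁻¹ • u := by
      have h := hfiv u
      rw [hfu, map_smul] at h
      calc finv u = α⁻¹ • (α • finv u) := by rw [smul_smul, inv_mul_cancel₀ hα0, one_smul]
        _ = α⁻¹ • u := by rw [h]
    have hfiu' : finv u' = β⁻¹ • u' := by
      have h := hfiv u'
      rw [hfu', map_smul] at h
      calc finv u' = β⁻¹ • (β • finv u') := by rw [smul_smul, inv_mul_cancel₀ hβ0, one_smul]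
        _ = β⁻¹ • u' := by rw [h]
    set c₀ : k := LinearMap.trace k V f / 2 with hc₀
    -- evaluate at `u`
    obtain ⟨s, t, hst⟩ := exists_smul_add_smul hV hu0 hind (y u)
    have hyu := congrArg (fun g : Module.End k V => g u) hy
    simp only [LinearMap.sub_apply, Module.End.mul_apply, LinearMap.smul_apply,
      Module.End.one_apply] at hyu
    rw [hfiu, map_smul, hst, map_smul, map_add, map_smul, map_smul, hfu, hfu'] at hyu
    have e1 : (0 : k) • u + (α⁻¹ * (t * β) - t) • u' = (α - c₀) • u + (0 : k) • u' := by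
      have hsα : α⁻¹ * (s * α) = s := by field_simp
      have e0 : α⁻¹ • (s • α • u + t • β • u') - (s • u + t • u') =
          (α⁻¹ * (s * α) - s) • u + (α⁻¹ * (t * β) - t) • u' := by module
      rw [hsα, sub_self] at e0
      rw [← e0, hyu]; module
    have hα : α - c₀ = 0 := ((eq_of_smul_add_smul_eq hu0 hind e1).1).symm
    -- evaluate at `u'`
    obtain ⟨s', t', hst'⟩ := exists_smul_add_smul hV hu0 hind (y u')
    have hyu' := congrArg (fun g : Module.End k V => g u') hy
    simp only [LinearMap.sub_apply, Module.End.mul_apply, LinearMap.smul_apply,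
      Module.End.one_apply] at hyu'
    rw [hfiu', map_smul, hst', map_smul, map_add, map_smul, map_smul, hfu, hfu'] at hyu'
    have e2 : (β⁻¹ * (s' * α) - s') • u + (0 : k) • u' = (0 : k) • u + (β - c₀) • u' := by
      have htβ : β⁻¹ * (t' * β) = t' := by field_simp
      have e0 : β⁻¹ • (s' • α • u + t' • β • u') - (s' • u + t' • u') =
          (β⁻¹ * (s' * α) - s') • u + (β⁻¹ * (t' * β) - t') • u' := by module
      rw [htβ, sub_self] at e0
      rw [← e0, hyu']; module
    have hβ : β - c₀ = 0 := ((eq_of_smul_add_smul_eq hu0 hind e2).2).symm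
    exact hαβ (by linear_combination hα - hβ)

/-- **The selection lemma.**  `H ⊴ G` with abelian quotient, `N` a non-zero conjugation-stable
subspace of trace-zero endomorphisms.  Then there are `h ∈ H` with two distinct eigenvalues in `k`
and `x ∈ N` which is not of the form `ρ h y ρ h⁻¹ - y`. -/
theorem exists_regular_not_mem_range (h2k : (2 : k) ≠ 0)
    (h1 : NoStableLine ρ Set.univ)
    (h2 : ∀ G₂ : Subgroup G, G₂.index = 2 → NoStableLine ρ (G₂ : Set G))
    (hsp : ∀ g : G, ∃ α β : k, (ρ g).charpoly = (X - C α) * (X - C β))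
    (H : Subgroup G) [H.Normal] (hab : ∀ a b : G, a * b * a⁻¹ * b⁻¹ ∈ H)
    (N : Submodule k (Module.End k V)) (hN0 : ∀ x ∈ N, LinearMap.trace k V x = 0)
    (hNne : N ≠ ⊥) (hst : ∀ g : G, ∀ x ∈ N, ρ g * x * ρ g⁻¹ ∈ N) :
    ∃ h ∈ H, ∃ α β : k, α ≠ β ∧ (ρ h).charpoly = (X - C α) * (X - C β) ∧
      ∃ x ∈ N, ∀ y : Module.End k V, ρ h * y * ρ h⁻¹ - y ≠ x := by
  have hs : ∀ g : G, ∃ u : V, u ≠ 0 ∧ ∃ c : k, ρ g u = c • u := fun g => by
    obtain ⟨α, β, hαβ⟩ := hsp g
    exact exists_eigvec_of_charpoly hV (ρ g) hαβ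
  have hH : NoStableLine ρ (H : Set G) := noStableLine_of_normal ρ hV h1 h2 hs H hab
  obtain ⟨h, hh, α, β, hαβ, hch⟩ := exists_distinct_eigenvalues ρ hV h2k H hH hsp
  obtain ⟨htr, hne⟩ := forall_conj_sub_ne hV h2k (ρ h) (ρ h⁻¹) (rho_inv_mul ρ h) hαβ hch
  exact ⟨h, hh, α, β, hαβ, hch, _,
    traceless_mem_of_stable ρ hV h2k h1 h2 hs N hN0 hNne hst _ htr, hne⟩

end Regular

end Fermat.Agent.S56.TW.LemmaG
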