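/-
S56 / block G (helper23): THE MOD `p` CYCLOTOMIC CHARACTER IS SURJECTIVE.

`χ̄ = cycloChar p : Gal(ℚ̄/ℚ) → (ℤ/p)^×` is onto: every `1 ≤ a < p` is a product of primes `l < p`,
and `χ̄(Frob_l) = l` (`N4/FrobDensity/CycloFrob.cycloChar_frob` + the existence of Frobenius elements
`S54.exists_isFrobeniusAt`).  No Dirichlet, no irreducibility of cyclotomic polynomials.

* `exists_cycloChar_eq_natCast` : for `0 < a < p` there is `σ` with `χ̄(σ) = a`;
* `cycloChar_surjective`;
* `exists_det_rho_eq` : hence, under the frozen `hdet`, `det ρ̄` takes every value of `𝔽_p^× ⊂ k^×`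
  (input "`det Γ ⊇ 𝔽_p^×`" of Lemma H).
-/
import Mathlib
import Fermat.Agent.S54.Frobenius
import Fermat.Agent.N4.FrobDensity.CycloFrob
import Fermat.Agent.S56.TW.SelectH

set_option autoImplicit false
set_option linter.unusedSectionVars false

namespace Fermat.Agent.S56.TW.CycloSurj

open Fermat.Agent.N4.FrobDensity ExtCitation

local notation "Qbar" => AlgebraicClosure ℚ
local notation "Γ" => (AlgebraicClosure ℚ ≃ₐ[ℚ] AlgebraicClosure ℚ)

variable (p : ℕ) [hp : Fact p.Prime]

/-- every `0 < a < p` is a value of the mod `p` cyclotomic character -/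
theorem exists_cycloChar_eq_natCast (a : ℕ) (ha0 : 0 < a) (hap : a < p) :
    ∃ σ : Γ, ((cycloChar p σ : (ZMod p)ˣ) : ZMod p) = (a : ZMod p) := by
  induction a using Nat.strong_induction_on with
  | _ a ih =>
    by_cases h1 : a = 1
    · refine ⟨1, ?_⟩
      rw [map_one, Units.val_one, h1, Nat.cast_one]
    · have hl : (a.minFac).Prime := Nat.minFac_prime h1
      have hla : a.minFac ≤ a := Nat.minFac_le ha0
      have hlp : a.minFac ≠ p := fun h => by omega
      obtain ⟨b, hb⟩ := Nat.minFac_dvd a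
      have hb0 : 0 < b := by
        rcases Nat.eq_zero_or_pos b with h | h
        · rw [h, mul_zero] at hb; omega
        · exact h
      have hba : b < a := by
        have h2 : 2 ≤ a.minFac := hl.two_le
        nlinarith
      obtain ⟨σ', hσ'⟩ := ih b hba hb0 (lt_trans hba hap)
      obtain ⟨A, σ, hA, hAσ⟩ := Fermat.Agent.S54.exists_isFrobeniusAt a.minFac hl
      refine ⟨σ * σ', ?_⟩
      rw [map_mul, Units.val_mul, hσ', cycloChar_frob p hl hlp hA hAσ, ← Nat.cast_mul, ← hb]

/-- **The mod `p` cyclotomic character is surjective.** -/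
theorem cycloChar_surjective : Function.Surjective (cycloChar p) := by
  have : NeZero p := ⟨hp.out.ne_zero⟩
  intro u
  have hu0 : ((u : ZMod p)).val ≠ 0 := fun h => u.ne_zero ((ZMod.val_eq_zero _).mp h)
  obtain ⟨σ, hσ⟩ := exists_cycloChar_eq_natCast p ((u : ZMod p)).val (Nat.pos_of_ne_zero hu0)
    (ZMod.val_lt _)
  refine ⟨σ, Units.ext ?_⟩
  rw [hσ, ZMod.natCast_zmod_val]

/-- under the frozen `hdet`, `det ρ̄` takes every value of `𝔽_p^×` -/
theorem exists_det_rho_eq {k : Type} [Field k] (ρbar : ResidualGaloisRep k) [Algebra (ZMod p) k]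
    (hdet : (GaloisRepAdic.ofResidualGaloisRep ρbar).DetIsCyclotomic p) (u : (ZMod p)ˣ) :
    ∃ σ : Γ, LinearMap.det (ρbar.ρ σ) = algebraMap (ZMod p) k (u : ZMod p) := by
  obtain ⟨σ, rfl⟩ := cycloChar_surjective p u
  exact ⟨σ, SelectH.det_rho_eq_cycloChar ρbar p hdet σ⟩

end Fermat.Agent.S56.TW.CycloSurj
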