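/-
S56 / block G (helper23): LEMMA H FOR `ρ̄` WITH NO HYPOTHESIS LEFT — block G closed.

`hypH` : under the frozen hypotheses of S56 (`k` finite of characteristic `p ≠ 2`, `habs`, `hsplit`,
`hdet`), `SelectH.HypH ρbar` holds, i.e. `H¹(ρ̄(Γ), ad⁰ρ̄ ⊗ det) = 0` — an instance of helper28's
`S56/Group/LemmaH.lemmaH_end`: eigenvectors from `hsplit`, no common eigenvector from `habs`, and for
`p ≥ 5` an element of determinant `2` (`2² ≠ 1`) from `det ρ̄ = χ̄` and the surjectivity of `χ̄`.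

Consequences, with no hypothesis beyond the frozen ones:
* `exists_tw_prime_of_not_coboundary'` (= `SelectH.exists_tw_prime_of_not_coboundary`);
* `exists_tw_family'` (= `Hex.exists_tw_family`): `r = dim_{𝔽_p} 𝓧` Taylor–Wiles primes killing `𝓧`.
-/
import Mathlib
import Fermat.Agent.S56.Group.LemmaH
import Fermat.Agent.S56.TW.CycloSurj
import Fermat.Agent.S56.TW.Hex

set_option autoImplicit false
set_option linter.unusedSectionVars false

open Polynomial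

namespace Fermat.Agent.S56.TW.HypHFinal

open Fermat.Agent.S56.Ad Fermat.Agent.S56.TW.SelectH Fermat.Agent.S56.TW.Hex
  Fermat.Agent.S56.PT.Inflation Fermat.Agent.S55.Level Fermat.Agent.S55 groupCohomology Module

local notation "Qbar" => AlgebraicClosure ℚ
local notation "Γ" => (AlgebraicClosure ℚ ≃ₐ[ℚ] AlgebraicClosure ℚ)

variable {k : Type} [Field k] [Finite k] (ρbar : ResidualGaloisRep k)
  (p : ℕ) [hp : Fact p.Prime] [Algebra (ZMod p) k]

/-- for `p ≠ 2, 3` some `det ρ̄(g)` has square `≠ 1` -/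
theorem exists_det_sq_ne_one (hp2 : p ≠ 2)
    (hdet : (GaloisRepAdic.ofResidualGaloisRep ρbar).DetIsCyclotomic p) :
    p = 3 ∨ ∃ g : Γ, LinearMap.det (ρbar.ρ g) ^ 2 ≠ 1 := by
  by_cases h3 : p = 3
  · exact Or.inl h3
  · right
    have : CharP k p := charP_of_injective_algebraMap (algebraMap (ZMod p) k).injective p
    have h2u : IsUnit ((2 : ℕ) : ZMod p) := by
      rw [ZMod.isUnit_iff_coprime]
      exact (Nat.coprime_primes Nat.prime_two hp.out).mpr (Ne.symm hp2)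
    obtain ⟨g, hg⟩ := CycloSurj.exists_det_rho_eq p ρbar hdet h2u.unit
    refine ⟨g, ?_⟩
    rw [hg, IsUnit.unit_spec, map_natCast]
    intro h4
    have h5 : ((3 : ℕ) : k) = 0 := by
      have : ((2 : ℕ) : k) ^ 2 - 1 = ((3 : ℕ) : k) := by push_cast; ring
      rw [← this, h4, sub_self]
    have hdvd := (CharP.cast_eq_zero_iff k p 3).mp h5
    exact h3 ((Nat.prime_dvd_prime_iff_eq hp.out Nat.prime_three).mp hdvd)

/-- **Lemma H for `ρ̄`**: `H¹(ρ̄(Γ), ad⁰ρ̄ ⊗ det) = 0`, from the frozen hypotheses of S56. -/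
theorem hypH (hp2 : p ≠ 2) (habs : ρbar.IsAbsolutelyIrreducible)
    (hsplit : ∀ σ : Γ, ∃ α β : k, LinearMap.charpoly (ρbar.ρ σ) = (X - C α) * (X - C β))
    (hdet : (GaloisRepAdic.ofResidualGaloisRep ρbar).DetIsCyclotomic p) : HypH ρbar := by
  have : CharP k p := charP_of_injective_algebraMap (algebraMap (ZMod p) k).injective p
  intro b htr hcoc hfac
  refine Fermat.Agent.S56.Group.LemmaH.lemmaH_end p hp2 ρbar.finrank_eq ρbar.ρ
    (fun g => HypOfFrozen.exists_eigvec ρbar hsplit g) ?_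
    (exists_det_sq_ne_one ρbar p hp2 hdet) b htr hcoc hfac
  rintro ⟨u, hu, h⟩
  exact HypOfFrozen.noStableLine_of_isAbsolutelyIrreducible ρbar habs ⟨u, hu, fun g _ => h g⟩

variable [Module.Finite (ZMod p) k]

/-- `SelectH.exists_tw_prime_of_not_coboundary` with Lemma H discharged. -/
theorem exists_tw_prime_of_not_coboundary' (hp2 : p ≠ 2) (habs : ρbar.IsAbsolutelyIrreducible)
    (hTW : ∀ (K : Type) [Field K] [Algebra k K] (G : Subgroup Γ), G.index = 2 →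
      ∀ W : Submodule K (ρbar.baseChange K).V,
        (∀ σ ∈ G, ∀ x ∈ W, (ρbar.baseChange K).ρ σ x ∈ W) → W = ⊥ ∨ W = ⊤)
    (hsplit : ∀ σ : Γ, ∃ α β : k, LinearMap.charpoly (ρbar.ρ σ) = (X - C α) * (X - C β))
    (h2k : (2 : k) ≠ 0)
    (hdet : (GaloisRepAdic.ofResidualGaloisRep ρbar).DetIsCyclotomic p) (n : ℕ)
    (c : cocycles₁ (ad0' ρbar p)) (hc : IsLevelConstant₁ (MonoidHom.id Γ) c)
    (hnc : ¬ ∃ m : ad0' ρbar p, ∀ g : Γ, c g = (ad0' ρbar p).ρ g m - m)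
    (T : Finset ℕ) (hpT : p ∈ T) :
    ∃ q : ℕ, q.Prime ∧ q ∉ T ∧ p ^ (n + 1) ∣ q - 1 ∧
      ∀ P : ValuationSubring Qbar, P.LiesOverPrime q → ∀ φ : Γ, P.IsFrobeniusAt φ q →
        (∃ α β : k, α ≠ β ∧ LinearMap.charpoly (ρbar.ρ φ) = (X - C α) * (X - C β)) ∧
          ¬ ∃ m : ad0' ρbar p, c φ = (ad0' ρbar p).ρ φ m - m :=
  exists_tw_prime_of_not_coboundary ρbar p habs hTW hsplit h2k hdet
    (hypH ρbar p hp2 habs hsplit hdet) n c hc hnc T hpT

/-- **`Hex.exists_tw_family` with Lemma H discharged**: `r = dim_{𝔽_p} 𝓧` distinct Taylor–Wiles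
primes at level `n`, outside `T` and `≠ p`, killing `𝓧 ≤ H¹(G_S, M')`. -/
theorem exists_tw_family' (hp2 : p ≠ 2) (habs : ρbar.IsAbsolutelyIrreducible)
    (hTW : ∀ (K : Type) [Field K] [Algebra k K] (G : Subgroup Γ), G.index = 2 →
      ∀ W : Submodule K (ρbar.baseChange K).V,
        (∀ σ ∈ G, ∀ x ∈ W, (ρbar.baseChange K).ρ σ x ∈ W) → W = ⊥ ∨ W = ⊤)
    (hsplit : ∀ σ : Γ, ∃ α β : k, LinearMap.charpoly (ρbar.ρ σ) = (X - C α) * (X - C β))
    (h2k : (2 : k) ≠ 0)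
    (hdet : (GaloisRepAdic.ofResidualGaloisRep ρbar).DetIsCyclotomic p)
    (S : Finset Nat.Primes) [IsDiscrete (globalLevel S) (ad0' ρbar p)]
    (𝓧 : Submodule (ZMod p) (levelCohomology (globalLevel S) (ad0' ρbar p) 1))
    [FiniteDimensional (ZMod p) ↥𝓧] (n : ℕ) (T : Finset Nat.Primes) :
    ∃ q : Fin (finrank (ZMod p) ↥𝓧) → Nat.Primes, Function.Injective q ∧ (∀ j, q j ∉ T) ∧
      (∀ j, ((q j : ℕ) ≠ p ∧ IsTWPrime ρbar p n (q j : ℕ))) ∧
        ⨅ j, killedAt (ad0' ρbar p) 𝓧 (q j) = ⊥ :=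
  exists_tw_family ρbar p habs hTW hsplit h2k hdet (hypH ρbar p hp2 habs hsplit hdet) S 𝓧 n T

end Fermat.Agent.S56.TW.HypHFinal
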