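/-
S56 / block G (helper23): LEMMA H — FROM THE MATRIX FORM TO `SelectH.HypH ρbar`.

`b` a basis of the plane `V` of `ρ̄`; `rhoMat ρbar b : Γ →* GL₂(k)` the matrix form of `ρ̄`;
`G := (rhoMat ρbar b).range ≤ GL₂(k)` its (finite) image.

* `VanishMat G` : **Lemma H in matrix form** for a subgroup `G ≤ GL₂(k)`: every trace-zero valued
  `1`-cocycle `f : G → M₂(k)` for the action `g • m = det g · g m g⁻¹` is a coboundary
  (`H¹(G, ad⁰ ⊗ det) = 0`);
* `hypH_of_vanishMat` : `VanishMat (rhoMat ρbar b).range → HypH ρbar`;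
* facts about the image `G` needed to feed the group-theoretic Lemma H (`S56/Group/*`):
  `finite_range_rhoMat`, `exists_det_eq` (`det G ⊇ 𝔽_p^×`), `charpoly_coe_rhoMat`
  (characteristic polynomials = those of `ρ̄`, so `hsplit` transfers), `mulVec_rhoMat`
  (the matrix action is `ρ̄` in coordinates: stable lines correspond).
-/
import Mathlib
import Fermat.Agent.S56.TW.SelectH
import Fermat.Agent.S56.TW.CycloSurj

set_option autoImplicit false
set_option linter.unusedSectionVars false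

open Polynomial

namespace Fermat.Agent.S56.TW.HypHMat

open Fermat.Agent.S56.TW.SelectH Matrix

local notation "Qbar" => AlgebraicClosure ℚ
local notation "Γ" => (AlgebraicClosure ℚ ≃ₐ[ℚ] AlgebraicClosure ℚ)

variable {k : Type} [Field k]

/-- **Lemma H in matrix form** for a subgroup `G ≤ GL₂(k)`: `H¹(G, ad⁰ ⊗ det) = 0`. -/
def VanishMat (G : Subgroup (GL (Fin 2) k)) : Prop :=
  ∀ f : G → Matrix (Fin 2) (Fin 2) k, (∀ g, (f g).trace = 0) →
    (∀ g h : G, f (g * h)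
      = ((g : GL (Fin 2) k) : Matrix (Fin 2) (Fin 2) k).det •
          (((g : GL (Fin 2) k) : Matrix (Fin 2) (Fin 2) k) * f h *
            (((g : GL (Fin 2) k)⁻¹ : GL (Fin 2) k) : Matrix (Fin 2) (Fin 2) k)) + f g) →
    ∃ m : Matrix (Fin 2) (Fin 2) k, m.trace = 0 ∧
      ∀ g : G, f g
        = ((g : GL (Fin 2) k) : Matrix (Fin 2) (Fin 2) k).det •
            (((g : GL (Fin 2) k) : Matrix (Fin 2) (Fin 2) k) * m *
              (((g : GL (Fin 2) k)⁻¹ : GL (Fin 2) k) : Matrix (Fin 2) (Fin 2) k)) - m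

variable (ρbar : ResidualGaloisRep k) (b : Module.Basis (Fin 2) k ρbar.V)

/-- a basis of the plane of `ρ̄` -/
noncomputable def bas : Module.Basis (Fin 2) k ρbar.V :=
  Module.finBasisOfFinrankEq k ρbar.V ρbar.finrank_eq

/-- the matrix form of `ρ̄` in the basis `b` -/
noncomputable def rhoMat : Γ →* GL (Fin 2) k :=
  (Units.map (LinearMap.toMatrixAlgEquiv b).toMulEquiv.toMonoidHom).comp ρbar.ρ.toHomUnits

theorem coe_rhoMat (g : Γ) :
    ((rhoMat ρbar b g : GL (Fin 2) k) : Matrix (Fin 2) (Fin 2) k)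
      = LinearMap.toMatrixAlgEquiv b (ρbar.ρ g) := rfl

theorem coe_rhoMat_inv (g : Γ) :
    (((rhoMat ρbar b g)⁻¹ : GL (Fin 2) k) : Matrix (Fin 2) (Fin 2) k)
      = LinearMap.toMatrixAlgEquiv b (ρbar.ρ g⁻¹) := by
  rw [← map_inv, coe_rhoMat]

theorem det_coe_rhoMat (g : Γ) :
    ((rhoMat ρbar b g : GL (Fin 2) k) : Matrix (Fin 2) (Fin 2) k).det
      = LinearMap.det (ρbar.ρ g) := by
  rw [coe_rhoMat]
  exact LinearMap.det_toMatrix b (ρbar.ρ g)

theorem trace_toMatrixAlgEquiv (x : Module.End k ρbar.V) :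
    (LinearMap.toMatrixAlgEquiv b x).trace = LinearMap.trace k ρbar.V x :=
  (LinearMap.trace_eq_matrix_trace k b x).symm

theorem charpoly_coe_rhoMat (g : Γ) :
    ((rhoMat ρbar b g : GL (Fin 2) k) : Matrix (Fin 2) (Fin 2) k).charpoly
      = LinearMap.charpoly (ρbar.ρ g) := by
  rw [coe_rhoMat]
  exact LinearMap.charpoly_toMatrix (ρbar.ρ g) b

/-- the matrix action is `ρ̄` in coordinates -/
theorem mulVec_rhoMat (g : Γ) (v : ρbar.V) :
    ((rhoMat ρbar b g : GL (Fin 2) k) : Matrix (Fin 2) (Fin 2) k).mulVec (b.repr v)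
      = b.repr (ρbar.ρ g v) := by
  rw [coe_rhoMat]
  exact LinearMap.toMatrix_mulVec_repr b b (ρbar.ρ g) v

theorem rho_eq_of_rhoMat_eq {g g' : Γ} (h : rhoMat ρbar b g = rhoMat ρbar b g') :
    ρbar.ρ g = ρbar.ρ g' := by
  have h1 := congrArg (fun u : GL (Fin 2) k => (u : Matrix (Fin 2) (Fin 2) k)) h
  simp only [coe_rhoMat] at h1
  exact (LinearMap.toMatrixAlgEquiv b).injective h1

theorem rhoMat_eq_of_rho_eq {g g' : Γ} (h : ρbar.ρ g = ρbar.ρ g') :
    rhoMat ρbar b g = rhoMat ρbar b g' := by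
  refine Units.ext ?_
  rw [coe_rhoMat, coe_rhoMat, h]

/-- the image of `ρ̄` is finite (for a finite field `k`, as in S56) -/
theorem finite_range_rhoMat [Finite k] : Finite (rhoMat ρbar b).range :=
  inferInstance

/-- **`det G ⊇ 𝔽_p^×`** for the image `G` of `ρ̄`, from the frozen `hdet` and the surjectivity of the
mod `p` cyclotomic character. -/
theorem exists_det_eq (p : ℕ) [Fact p.Prime] [Algebra (ZMod p) k]
    (hdet : (GaloisRepAdic.ofResidualGaloisRep ρbar).DetIsCyclotomic p) (u : (ZMod p)ˣ) :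
    ∃ x ∈ (rhoMat ρbar b).range,
      ((x : GL (Fin 2) k) : Matrix (Fin 2) (Fin 2) k).det = algebraMap (ZMod p) k (u : ZMod p) := by
  obtain ⟨σ, hσ⟩ := CycloSurj.exists_det_rho_eq p ρbar hdet u
  exact ⟨rhoMat ρbar b σ, ⟨σ, rfl⟩, by rw [det_coe_rhoMat, hσ]⟩

/-- a line of `k²` stable under a set of matrices `rhoMat g`, `g ∈ S`, gives a line of `V` stable
under `ρ̄(S)` -/
theorem exists_stable_of_mulVec (S : Set Γ) {v : Fin 2 → k} (hv : v ≠ 0)
    (h : ∀ g ∈ S, ∃ c : k,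
      ((rhoMat ρbar b g : GL (Fin 2) k) : Matrix (Fin 2) (Fin 2) k).mulVec v = c • v) :
    ∃ u : ρbar.V, u ≠ 0 ∧ ∀ g ∈ S, ∃ c : k, ρbar.ρ g u = c • u := by
  refine ⟨b.equivFun.symm v, fun h0 => hv ?_, fun g hg => ?_⟩
  · have := congrArg b.equivFun h0
    rwa [LinearEquiv.apply_symm_apply, map_zero] at this
  · obtain ⟨c, hc⟩ := h g hg
    refine ⟨c, b.equivFun.injective ?_⟩
    have h1 := mulVec_rhoMat ρbar b g (b.equivFun.symm v)
    have h2 : (⇑(b.repr (b.equivFun.symm v)) : Fin 2 → k) = v :=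
      b.equivFun.apply_symm_apply v
    rw [h2, hc] at h1
    rw [map_smul, LinearEquiv.apply_symm_apply]
    exact h1.symm

/-- **the image of an absolutely irreducible `ρ̄` has no stable line in `k²`** -/
theorem no_stable_line_range (habs : ρbar.IsAbsolutelyIrreducible) :
    ¬ ∃ v : Fin 2 → k, v ≠ 0 ∧ ∀ x ∈ (rhoMat ρbar b).range, ∃ c : k,
      ((x : GL (Fin 2) k) : Matrix (Fin 2) (Fin 2) k).mulVec v = c • v := by
  rintro ⟨v, hv, h⟩
  exact HypOfFrozen.noStableLine_of_isAbsolutelyIrreducible ρbar habs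
    (exists_stable_of_mulVec ρbar b Set.univ hv fun g _ => h _ ⟨g, rfl⟩)

/-- **no subgroup of relative index `2` of the image has a stable line** (frozen `hTW`) -/
theorem no_stable_line_of_relIndex_two
    (hTW : ∀ (K : Type) [Field K] [Algebra k K] (G : Subgroup Γ), G.index = 2 →
      ∀ W : Submodule K (ρbar.baseChange K).V,
        (∀ σ ∈ G, ∀ x ∈ W, (ρbar.baseChange K).ρ σ x ∈ W) → W = ⊥ ∨ W = ⊤)
    (H : Subgroup (GL (Fin 2) k)) (hH : H.relIndex (rhoMat ρbar b).range = 2) :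
    ¬ ∃ v : Fin 2 → k, v ≠ 0 ∧ ∀ x ∈ H, x ∈ (rhoMat ρbar b).range → ∃ c : k,
      ((x : GL (Fin 2) k) : Matrix (Fin 2) (Fin 2) k).mulVec v = c • v := by
  rintro ⟨v, hv, h⟩
  have hidx : (H.comap (rhoMat ρbar b)).index = 2 := by
    rw [Subgroup.index_comap, hH]
  exact HypOfFrozen.noStableLine_of_hTW ρbar hTW (H.comap (rhoMat ρbar b)) hidx
    (exists_stable_of_mulVec ρbar b _ hv fun g hg => h _ hg ⟨g, rfl⟩)

/-- the eigenvalues of the elements of the image lie in `k` (frozen `hsplit`) -/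
theorem charpoly_range_splits
    (hsplit : ∀ σ : Γ, ∃ α β : k, LinearMap.charpoly (ρbar.ρ σ) = (X - C α) * (X - C β))
    (x : GL (Fin 2) k) (hx : x ∈ (rhoMat ρbar b).range) :
    ∃ α β : k, (x : Matrix (Fin 2) (Fin 2) k).charpoly = (X - C α) * (X - C β) := by
  obtain ⟨g, rfl⟩ := hx
  rw [charpoly_coe_rhoMat]
  exact hsplit g

/-- **Lemma H for `ρ̄` from its matrix form for the image of `ρ̄`.** -/
theorem hypH_of_vanishMat (h : VanishMat (rhoMat ρbar b).range) : HypH ρbar := by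
  intro β htr hcoc hfac
  set E := LinearMap.toMatrixAlgEquiv b with hE
  -- the cocycle on the image
  let f : (rhoMat ρbar b).range → Matrix (Fin 2) (Fin 2) k := fun x => E (β x.2.choose)
  have hf : ∀ g : Γ, f ⟨rhoMat ρbar b g, g, rfl⟩ = E (β g) := fun g => by
    show E (β _) = E (β g)
    have hx : ∃ g' : Γ, rhoMat ρbar b g' = rhoMat ρbar b g := ⟨g, rfl⟩
    rw [hfac _ g (rho_eq_of_rhoMat_eq ρbar b hx.choose_spec)]
  obtain ⟨m, hm0, hm⟩ := h f
    (fun x => by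
      show (E (β _)).trace = 0
      rw [hE, trace_toMatrixAlgEquiv, htr])
    (by
      rintro ⟨_, g, rfl⟩ ⟨_, g', rfl⟩
      have hmul : (⟨rhoMat ρbar b g, g, rfl⟩ * ⟨rhoMat ρbar b g', g', rfl⟩ :
          (rhoMat ρbar b).range) = ⟨rhoMat ρbar b (g * g'), g * g', rfl⟩ :=
        Subtype.ext (map_mul (rhoMat ρbar b) g g').symm
      rw [hmul, hf, hf, hf, hcoc g g', map_add, map_smul, map_mul, map_mul]
      show _ = (rhoMat ρbar b g : Matrix (Fin 2) (Fin 2) k).det •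
        ((rhoMat ρbar b g : Matrix (Fin 2) (Fin 2) k) * E (β g') *
          (((rhoMat ρbar b g)⁻¹ : GL (Fin 2) k) : Matrix (Fin 2) (Fin 2) k)) + E (β g)
      rw [det_coe_rhoMat, coe_rhoMat, coe_rhoMat_inv])
  refine ⟨E.symm m, ?_, fun g => E.injective ?_⟩
  · rw [← trace_toMatrixAlgEquiv ρbar b, ← hE, AlgEquiv.apply_symm_apply, hm0]
  · rw [← hf g, hm ⟨rhoMat ρbar b g, g, rfl⟩, map_sub, map_smul, map_mul, map_mul,
      AlgEquiv.apply_symm_apply]
    show (rhoMat ρbar b g : Matrix (Fin 2) (Fin 2) k).det •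
        ((rhoMat ρbar b g : Matrix (Fin 2) (Fin 2) k) * m *
          (((rhoMat ρbar b g)⁻¹ : GL (Fin 2) k) : Matrix (Fin 2) (Fin 2) k)) - m = _
    rw [det_coe_rhoMat, coe_rhoMat, coe_rhoMat_inv]

end Fermat.Agent.S56.TW.HypHMat
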