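/-
S56 / block G (helper23): LEMMA H — THE BRIDGE FROM THE GROUP-THEORETIC STATEMENT TO `HypH ρbar`.

`VanishStmt k p` is the FINAL statement of `S56/Group/Vanish` (helper28, #2536) for the field `k`:
for a subgroup `G ≤ GL₂(k)` (`k` finite of odd characteristic `p`) all of whose elements have an
eigenvector in `k²`, without a common eigenvector, with `p = 3` or some `det γ` of square `≠ 1`,
every trace-zero valued `1`-cocycle for `g • m = det g · g m g⁻¹` is a coboundary.

* `hypH_of_vanishStmt` : `VanishStmt k p → HypH ρbar` under the frozen hypotheses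
  `habs`, `hsplit`, `hdet` of S56 and `p ≠ 2` — all inputs are checked on the image of `ρ̄`
  (`HypHMat`): eigenvectors from `hsplit`, no common eigenvector from `habs`, and for `p ≥ 5`
  an element of determinant `2` (`4 ≠ 1`) from `det ρ̄ = χ̄` and the surjectivity of `χ̄`.
-/
import Mathlib
import Fermat.Agent.S56.TW.HypHMat

set_option autoImplicit false
set_option linter.unusedSectionVars false

open Polynomial

namespace Fermat.Agent.S56.TW.HypHBridge

open Fermat.Agent.S56.TW.SelectH Fermat.Agent.S56.TW.HypHMat Matrix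

local notation "Qbar" => AlgebraicClosure ℚ
local notation "Γ" => (AlgebraicClosure ℚ ≃ₐ[ℚ] AlgebraicClosure ℚ)

/-- **The statement of the group-theoretic Lemma H** (`S56/Group/Vanish`, final form) over `k`. -/
def VanishStmt (k : Type) [Field k] (p : ℕ) : Prop :=
  ∀ G : Subgroup (GL (Fin 2) k),
    (∀ γ ∈ G, ∃ v : Fin 2 → k, v ≠ 0 ∧ ∃ a : k,
      (γ : Matrix (Fin 2) (Fin 2) k).mulVec v = a • v) →
    (∀ v : Fin 2 → k, v ≠ 0 → ∃ γ ∈ G, ∀ a : k,
      (γ : Matrix (Fin 2) (Fin 2) k).mulVec v ≠ a • v) →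
    (p = 3 ∨ ∃ γ ∈ G, (γ : Matrix (Fin 2) (Fin 2) k).det ^ 2 ≠ 1) →
    VanishMat G

variable {k : Type} [Field k] (ρbar : ResidualGaloisRep k)

/-- every element of the image of `ρ̄` has an eigenvector in `k²` (frozen `hsplit`) -/
theorem exists_eigvec_range (b : Module.Basis (Fin 2) k ρbar.V)
    (hsplit : ∀ σ : Γ, ∃ α β : k, LinearMap.charpoly (ρbar.ρ σ) = (X - C α) * (X - C β))
    (γ : GL (Fin 2) k) (hγ : γ ∈ (rhoMat ρbar b).range) :
    ∃ v : Fin 2 → k, v ≠ 0 ∧ ∃ a : k, (γ : Matrix (Fin 2) (Fin 2) k).mulVec v = a • v := by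
  obtain ⟨g, rfl⟩ := hγ
  obtain ⟨u, hu, c, hc⟩ := HypOfFrozen.exists_eigvec ρbar hsplit g
  refine ⟨⇑(b.repr u), fun h0 => hu ?_, c, ?_⟩
  · apply b.equivFun.injective
    rw [map_zero]
    exact h0
  · rw [mulVec_rhoMat, hc, map_smul]
    rfl

/-- **Lemma H for `ρ̄`** from the group-theoretic statement over `k`. -/
theorem hypH_of_vanishStmt [Finite k] (p : ℕ) [hp : Fact p.Prime] [Algebra (ZMod p) k]
    (hp2 : p ≠ 2) (habs : ρbar.IsAbsolutelyIrreducible)
    (hsplit : ∀ σ : Γ, ∃ α β : k, LinearMap.charpoly (ρbar.ρ σ) = (X - C α) * (X - C β))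
    (hdet : (GaloisRepAdic.ofResidualGaloisRep ρbar).DetIsCyclotomic p)
    (hV : VanishStmt k p) : HypH ρbar := by
  set b := bas ρbar with hb
  refine hypH_of_vanishMat ρbar b (hV _ (exists_eigvec_range ρbar b hsplit) ?_ ?_)
  · -- no common eigenvector
    intro v hv
    by_contra hcon
    refine no_stable_line_range ρbar b habs ⟨v, hv, fun x hx => ?_⟩
    by_contra hx'
    exact hcon ⟨x, hx, fun a ha => hx' ⟨a, ha⟩⟩
  · -- `p = 3` or an element of determinant `2`
    by_cases h3 : p = 3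
    · exact Or.inl h3
    · right
      have : CharP k p := charP_of_injective_algebraMap (algebraMap (ZMod p) k).injective p
      have h2u : IsUnit ((2 : ℕ) : ZMod p) := by
        rw [ZMod.isUnit_iff_coprime]
        exact (Nat.coprime_primes Nat.prime_two hp.out).mpr (Ne.symm hp2)
      obtain ⟨x, hx, hxdet⟩ := exists_det_eq ρbar b p hdet h2u.unit
      refine ⟨x, hx, ?_⟩
      rw [hxdet, IsUnit.unit_spec, map_natCast]
      intro h4
      have h5 : ((3 : ℕ) : k) = 0 := by
        have : ((2 : ℕ) : k) ^ 2 - 1 = ((3 : ℕ) : k) := by push_cast; ring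
        rw [← this, h4, sub_self]
      have hdvd := (CharP.cast_eq_zero_iff k p 3).mp h5
      exact h3 ((Nat.prime_dvd_prime_iff_eq hp.out Nat.prime_three).mp hdvd)

end Fermat.Agent.S56.TW.HypHBridge
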