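/-
S56 / block (IV.0) (helper23): KILLING THE DUAL SELMER GROUP — the induction, in abstract form.

`X` is a finite-dimensional vector space (the dual Selmer group of the minimal problem), `K i ≤ X`
a family of subspaces of codimension `≤ 1` indexed by `i : ι` (`K q` = the classes dying at the
prime `q`).  If every non-zero `x` survives at some good `i` outside any given finite set, then
there are EXACTLY `r = dim X` good indices `q₁, …, q_r`, distinct and outside a given finite set,
with `⋂ K (q j) = 0`.

* `finrank_inf_of_codim_le_one` : `x ∈ X' ∖ K`, `codim K ≤ 1` ⇒ `dim (X' ⊓ K) + 1 = dim X'`;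
* `exists_family_inf_eq_bot` : the induction;
* `finrank_quotient_ker_le` : kernels of maps to spaces of dimension `≤ 1` have codimension `≤ 1`;
* `exists_family_injective` : the same for kernels of linear maps `lam i : X → Y i`.
-/
import Mathlib

set_option autoImplicit false

namespace Fermat.Agent.S56.TW.KillDual

open Module

variable {k X : Type*} [Field k] [AddCommGroup X] [Module k X] [FiniteDimensional k X]

/-- If `K` has codimension `≤ 1` and `X'` is not contained in `K`, then `X' ⊓ K` has codimension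
exactly `1` in `X'`. -/
theorem finrank_inf_of_codim_le_one (X' K : Submodule k X) (hK : finrank k (X ⧸ K) ≤ 1)
    {x : X} (hx : x ∈ X') (hxK : x ∉ K) :
    finrank k ↥(X' ⊓ K) + 1 = finrank k ↥X' := by
  have h1 := Submodule.finrank_sup_add_finrank_inf_eq X' K
  have h2 := Submodule.finrank_quotient_add_finrank K
  have h3 : finrank k ↥(X' ⊔ K) ≤ finrank k X := Submodule.finrank_le _
  have h4 : finrank k ↥(X' ⊓ K) < finrank k ↥X' := by
    refine Submodule.finrank_lt_finrank_of_lt (lt_of_le_of_ne inf_le_left fun h => ?_)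
    have : x ∈ X' ⊓ K := by rw [h]; exact hx
    exact hxK this.2
  omega

/-- **(IV.0) the induction.**  `K i ≤ X` of codimension `≤ 1`; every non-zero `x` lies outside some
`K i` with `i` good and outside any given finite set.  Then for every subspace `X'` of dimension
`m` and every finite `T` there are `m` distinct good indices outside `T` whose `K`'s meet `X'`
trivially. -/
theorem exists_family_inf_eq_bot_aux {ι : Type*} [DecidableEq ι] (K : ι → Submodule k X)
    (Good : ι → Prop) (hK : ∀ i, Good i → finrank k (X ⧸ K i) ≤ 1)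
    (hex : ∀ x : X, x ≠ 0 → ∀ T : Finset ι, ∃ i, i ∉ T ∧ Good i ∧ x ∉ K i) :
    ∀ (m : ℕ) (X' : Submodule k X), finrank k ↥X' = m → ∀ T : Finset ι,
      ∃ q : Fin m → ι, Function.Injective q ∧ (∀ j, q j ∉ T) ∧ (∀ j, Good (q j)) ∧
        X' ⊓ ⨅ j, K (q j) = ⊥ := by
  intro m
  induction m with
  | zero =>
    intro X' hX' T
    refine ⟨Fin.elim0, fun a => a.elim0, fun a => a.elim0, fun a => a.elim0, ?_⟩
    rw [Submodule.finrank_eq_zero.mp hX', bot_inf_eq]
  | succ m ih =>
    intro X' hX' T
    have hne : X' ≠ ⊥ := by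
      intro h
      rw [h, finrank_bot] at hX'
      omega
    obtain ⟨x, hx, hx0⟩ := Submodule.exists_mem_ne_zero_of_ne_bot hne
    obtain ⟨i, hiT, hiG, hxi⟩ := hex x hx0 T
    have hdim : finrank k ↥(X' ⊓ K i) = m := by
      have := finrank_inf_of_codim_le_one X' (K i) (hK i hiG) hx hxi
      omega
    obtain ⟨q', hq'inj, hq'T, hq'G, hq'⟩ := ih (X' ⊓ K i) hdim (insert i T)
    refine ⟨Fin.cons i q', ?_, ?_, ?_, ?_⟩
    · refine Fin.cons_injective_iff.mpr ⟨?_, hq'inj⟩
      rintro ⟨j, hj⟩
      exact hq'T j (hj ▸ Finset.mem_insert_self i T)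
    · intro j
      refine Fin.cases ?_ (fun j' => ?_) j
      · simpa using hiT
      · simpa using fun h => hq'T j' (Finset.mem_insert_of_mem h)
    · intro j
      refine Fin.cases ?_ (fun j' => ?_) j
      · simpa using hiG
      · simpa using hq'G j'
    · rw [eq_bot_iff]
      intro y hy
      rw [← hq']
      obtain ⟨hy1, hy2⟩ := Submodule.mem_inf.mp hy
      rw [Submodule.mem_iInf] at hy2
      refine Submodule.mem_inf.mpr ⟨Submodule.mem_inf.mpr ⟨hy1, by simpa using hy2 0⟩, ?_⟩
      refine (Submodule.mem_iInf _).mpr fun j' => ?_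
      simpa using hy2 j'.succ

/-- **(IV.0) Killing the dual Selmer group.**  `K i ≤ X` of codimension `≤ 1` for good `i`; every
non-zero `x ∈ X` lies outside `K i` for some good `i` outside any given finite set.  Then for every
finite `T` there are exactly `r = dim X` distinct good indices `q j ∉ T` with `⋂ K (q j) = 0`. -/
theorem exists_family_inf_eq_bot {ι : Type*} (K : ι → Submodule k X)
    (Good : ι → Prop) (hK : ∀ i, Good i → finrank k (X ⧸ K i) ≤ 1)
    (hex : ∀ x : X, x ≠ 0 → ∀ T : Finset ι, ∃ i, i ∉ T ∧ Good i ∧ x ∉ K i) (T : Finset ι) :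
    ∃ q : Fin (finrank k X) → ι, Function.Injective q ∧ (∀ j, q j ∉ T) ∧ (∀ j, Good (q j)) ∧
      ⨅ j, K (q j) = ⊥ := by
  classical
  obtain ⟨q, h1, h2, h3, h4⟩ :=
    exists_family_inf_eq_bot_aux K Good hK hex (finrank k X) ⊤ (finrank_top k X) T
  exact ⟨q, h1, h2, h3, by rwa [top_inf_eq] at h4⟩

omit [FiniteDimensional k X] in
/-- the kernel of a linear map to a space of dimension `≤ 1` has codimension `≤ 1` -/
theorem finrank_quotient_ker_le {Y : Type*} [AddCommGroup Y] [Module k Y] [FiniteDimensional k Y]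
    (f : X →ₗ[k] Y) (hY : finrank k Y ≤ 1) : finrank k (X ⧸ LinearMap.ker f) ≤ 1 := by
  rw [LinearEquiv.finrank_eq f.quotKerEquivRange]
  exact (Submodule.finrank_le _).trans hY

/-- **(IV.0), form with localisation maps.**  `lam i : X → Y i` linear with `dim Y i ≤ 1` for good
`i` (`Y q = H¹_ur(G_q, W) = W/(Frob_q - 1) W` at a Taylor–Wiles prime); every non-zero `x` has
`lam i x ≠ 0` for some good `i` outside any given finite set.  Then there are exactly `r = dim X`
distinct good indices outside `T` such that `x ↦ (lam (q j) x)_j` is injective. -/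
theorem exists_family_injective {ι : Type*} {Y : ι → Type*} [∀ i, AddCommGroup (Y i)]
    [∀ i, Module k (Y i)] [∀ i, FiniteDimensional k (Y i)] (lam : ∀ i, X →ₗ[k] Y i)
    (Good : ι → Prop) (hY : ∀ i, Good i → finrank k (Y i) ≤ 1)
    (hex : ∀ x : X, x ≠ 0 → ∀ T : Finset ι, ∃ i, i ∉ T ∧ Good i ∧ lam i x ≠ 0) (T : Finset ι) :
    ∃ q : Fin (finrank k X) → ι, Function.Injective q ∧ (∀ j, q j ∉ T) ∧ (∀ j, Good (q j)) ∧
      ∀ x : X, (∀ j, lam (q j) x = 0) → x = 0 := by
  obtain ⟨q, h1, h2, h3, h4⟩ := exists_family_inf_eq_bot (fun i => LinearMap.ker (lam i)) Good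
    (fun i hi => finrank_quotient_ker_le (lam i) (hY i hi))
    (fun x hx T => by
      obtain ⟨i, hiT, hiG, hi⟩ := hex x hx T
      exact ⟨i, hiT, hiG, fun h => hi (LinearMap.mem_ker.mp h)⟩) T
  refine ⟨q, h1, h2, h3, fun x hx => ?_⟩
  have : x ∈ ⨅ j, LinearMap.ker (lam (q j)) := by
    rw [Submodule.mem_iInf]
    exact fun j => LinearMap.mem_ker.mpr (hx j)
  rw [h4] at this
  exact (Submodule.mem_bot k).mp this

end Fermat.Agent.S56.TW.KillDual
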